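/-
S55 / block UNITS, layer A (arithmetic in `ℚ̄`), section `EOneFin`:
`e = 1` on the inertia field of a finite Galois extension `M/ℚ`.
-/
import Mathlib

set_option autoImplicit false

open scoped Pointwise NumberField
open Ideal

namespace Fermat.Agent.S55.Units

private theorem ramIdx_eq_one (M : Type) [Field M] [NumberField M] [IsGalois ℚ M]
    (P : Ideal (𝓞 M)) [P.IsPrime]
    (T : IntermediateField ℚ M) [IsGaloisGroup (P.inertia Gal(M/ℚ)) T M] :
    (P.under (𝓞 T)).ramificationIdx ℤ = 1 := by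
  have h2 : IsGaloisGroup (P.inertia Gal(M/ℚ)) (𝓞 T) (𝓞 M) :=
    IsGaloisGroup.of_isFractionRing _ _ _ T M
  have h3 : IsGaloisGroup Gal(M/ℚ) ℤ (𝓞 M) := inferInstance
  have e1 : Nat.card (P.inertia Gal(M/ℚ)) = (P.under ℤ).ramificationIdxIn (𝓞 M) :=
    Ideal.card_inertia_eq_ramificationIdxIn (G := Gal(M/ℚ)) (P.under ℤ) P
  have e2 : Nat.card (P.inertia (P.inertia Gal(M/ℚ))) = (P.under (𝓞 T)).ramificationIdxIn (𝓞 M) :=
    Ideal.card_inertia_eq_ramificationIdxIn (G := (P.inertia Gal(M/ℚ))) (P.under (𝓞 T)) P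
  have e3 : P.inertia (P.inertia Gal(M/ℚ)) = ⊤ := by
    ext σ
    simp only [Subgroup.mem_top, iff_true]
    intro x
    exact σ.2 x
  rw [e3, Nat.card_congr Subgroup.topEquiv.toEquiv, e1,
    ramificationIdxIn_eq_ramificationIdx (P.under ℤ) P Gal(M/ℚ),
    ramificationIdxIn_eq_ramificationIdx (P.under (𝓞 T)) P (P.inertia Gal(M/ℚ)),
    ramificationIdx_tower (R := ℤ) (P.under (𝓞 T)) P] at e2
  have hpos : 0 < P.ramificationIdx (𝓞 T) := P.ramificationIdx_pos (𝓞 T)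
  exact (Nat.mul_eq_right hpos.ne').1 e2

/-- a prime `𝓟` of a number field `T` over `q` with `e = 1`: every `x ≠ 0` is `q ^ k * a / b`. -/
private theorem exists_zpow_of_ramIdx_eq_one (T : Type) [Field T] [NumberField T]
    (q : ℕ) (hq : q.Prime) (𝓟 : Ideal (𝓞 T)) [𝓟.IsPrime] (hP : (q : 𝓞 T) ∈ 𝓟)
    (he : 𝓟.ramificationIdx ℤ = 1) (x : T) (hx : x ≠ 0) :
    ∃ (k : ℤ) (a b : 𝓞 T), a ∉ 𝓟 ∧ b ∉ 𝓟 ∧ x * (b : T) = (q : T) ^ k * (a : T) := by
  have hq0 : (q : 𝓞 T) ≠ 0 := by exact_mod_cast hq.ne_zero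
  have hqT : (q : T) ≠ 0 := by exact_mod_cast hq.ne_zero
  have h𝓟0 : 𝓟 ≠ ⊥ := fun h => hq0 (by rw [h] at hP; exact hP)
  let v : IsDedekindDomain.HeightOneSpectrum (𝓞 T) := ⟨𝓟, inferInstance, h𝓟0⟩
  have hover : 𝓟.LiesOver (Ideal.span {(q : ℤ)}) := by
    constructor
    have hmax : (Ideal.span {(q : ℤ)}).IsMaximal :=
      (Ideal.span_singleton_prime (by exact_mod_cast hq.ne_zero)).2
        (Nat.prime_iff_prime_int.1 hq) |>.isMaximal (by
          simpa using hq.ne_zero)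
    refine hmax.eq_of_le (Ideal.IsPrime.under ℤ 𝓟).ne_top ?_
    rw [Ideal.span_singleton_le_iff_mem, Ideal.mem_comap]
    simpa using hP
  have hmap : (Ideal.span {(q : ℤ)}).map (algebraMap ℤ (𝓞 T)) = Ideal.span {(q : 𝓞 T)} := by
    rw [Ideal.map_span, Set.image_singleton]; simp
  have hvq : v.intValuation (q : 𝓞 T) = WithZero.exp (-1 : ℤ) := by
    rw [v.intValuation_eq_exp_neg_multiplicity hq0, ← hmap,
      ← IsDedekindDomain.ramificationIdx_eq_multiplicity (Ideal.span {(q : ℤ)}) 𝓟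
        (by rw [hmap]; simpa using hq0), he]
    rfl
  have hvqT : v.valuation T (q : T) = WithZero.exp (-1 : ℤ) := by
    rw [← hvq, ← v.valuation_of_algebraMap (K := T)]
    simp
  have hvx : v.valuation T x ≠ 0 := (Valuation.ne_zero_iff _).2 hx
  set n : ℤ := WithZero.log (v.valuation T x) with hn
  have hvx' : v.valuation T x = WithZero.exp n := (WithZero.exp_log hvx).symm
  have hy : v.valuation T (x / (q : T) ^ (-n)) = 1 := by
    rw [map_div₀, map_zpow₀, hvqT, hvx', ← WithZero.exp_zsmul]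
    simp
  obtain ⟨a, b, hab⟩ := v.exists_primeCompl_mul_eq_of_integer (x / (q : T) ^ (-n)) hy.le
  refine ⟨-n, a, b.1, ?_, b.2, ?_⟩
  · have h1 : v.valuation T (algebraMap (𝓞 T) T a) = 1 := by
      rw [← hab, map_mul, hy, one_mul]
      exact v.valuation_eq_one_iff_notMem.2 b.2
    exact v.valuation_eq_one_iff_notMem.1 h1
  · have h2 : (q : T) ^ (-n) ≠ 0 := zpow_ne_zero _ hqT
    have h3 : x / (q : T) ^ (-n) * (b.1 : T) = (a : T) := hab
    field_simp at h3
    rw [h3]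

/-- finite level, Mathlib vocabulary: `M/ℚ` finite Galois, `P` a prime of `𝓞 M` over `q`,
`x ∈ M` fixed by the inertia group of `P`: then `x = q ^ k * a / b` with `a b ∈ 𝓞 M ∖ P`. -/
theorem exists_zpow_mul_div_of_inertia_fixed (M : Type) [Field M] [NumberField M] [IsGalois ℚ M]
    (q : ℕ) (hq : q.Prime) (P : Ideal (NumberField.RingOfIntegers M)) [P.IsPrime]
    (hP : (q : NumberField.RingOfIntegers M) ∈ P) (x : M) (hx : x ≠ 0)
    (hfix : ∀ τ : M ≃ₐ[ℚ] M,
      (∀ y : NumberField.RingOfIntegers M, ∃ z ∈ P, (z : M) = τ (y : M) - (y : M)) → τ x = x) :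
    ∃ (k : ℤ) (a b : NumberField.RingOfIntegers M), a ∉ P ∧ b ∉ P ∧
      x * (b : M) = (q : M) ^ k * (a : M) := by
  have hI : IsGaloisGroup (P.inertia Gal(M/ℚ))
      (FixedPoints.intermediateField (P.inertia Gal(M/ℚ)) : IntermediateField ℚ M) M :=
    IsGaloisGroup.subgroup Gal(M/ℚ) ℚ M (P.inertia Gal(M/ℚ))
  have he := ramIdx_eq_one M P
    (FixedPoints.intermediateField (P.inertia Gal(M/ℚ)) : IntermediateField ℚ M)
  have hxT : x ∈ (FixedPoints.intermediateField (P.inertia Gal(M/ℚ)) : IntermediateField ℚ M) := by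
    intro τ
    exact hfix τ.1 fun y => ⟨τ.1 • y - y, τ.2 y, rfl⟩
  obtain ⟨k, a, b, ha, hb, hab⟩ := exists_zpow_of_ramIdx_eq_one
    (FixedPoints.intermediateField (P.inertia Gal(M/ℚ)) : IntermediateField ℚ M) q hq
    (P.under _) (by rw [Ideal.mem_comap]; simpa using hP) he ⟨x, hxT⟩
    (fun h => hx (congrArg Subtype.val h))
  refine ⟨k, algebraMap _ (𝓞 M) a, algebraMap _ (𝓞 M) b, ha, hb, ?_⟩
  have h := congrArg (algebraMap (FixedPoints.intermediateField (P.inertia Gal(M/ℚ)) :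
    IntermediateField ℚ M) M) hab
  rw [map_mul, map_mul, map_zpow₀, map_natCast] at h
  exact h

end Fermat.Agent.S55.Units
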