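/-
S55 / block UNITS : arithmetic vocabulary (elements of `ℚ̄`, valuation subrings of `ℚ̄`).
No cohomology here.  `ℚ_S`, `S`-units, the `G_ℚ`-set of places outside `S`, the normalised
valuation at such a place, and the module of divisors outside `S`.
-/
import Fermat.Agent.S55.Arith.Defs

set_option autoImplicit false

open scoped Pointwise

namespace Fermat.Agent.S55.Units

/-- `x` lies in `ℚ_S`, the maximal extension of `ℚ` unramified outside `S`. -/
def InQS (S : Finset Nat.Primes) (x : Qb) : Prop :=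
  ∃ F : IntermediateField ℚ Qb, F.IsUnramifiedOutside S ∧ x ∈ F

/-- `A` lies over a prime outside `S`. -/
def OffS (S : Finset Nat.Primes) (A : ValuationSubring Qb) : Prop :=
  ∃ q : Nat.Primes, q ∉ S ∧ A.LiesOverPrime (q : ℕ)

/-- `x` is an `S`-unit of `ℚ_S`. -/
def IsSUnit (S : Finset Nat.Primes) (x : Qb) : Prop :=
  InQS S x ∧ ∀ A : ValuationSubring Qb, OffS S A → A.valuation x = 1

/-- `v_A(x) = k · v_A(q)`. -/
def HasOrd (A : ValuationSubring Qb) (q : ℕ) (x : Qb) (k : ℤ) : Prop :=
  A.valuation x = A.valuation (q : Qb) ^ k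

theorem OffS.smul {S : Finset Nat.Primes} {A : ValuationSubring Qb} (h : OffS S A) (g : GQ) :
    OffS S (g • A) := by
  obtain ⟨q, hq, hA⟩ := h
  exact ⟨q, hq, liesOverPrime_smul A g q hA⟩

/-- a valuation subring lies over at most one prime -/
theorem liesOverPrime_unique {A : ValuationSubring Qb} {q q' : ℕ} (hq : q.Prime) (hq' : q'.Prime)
    (h : A.LiesOverPrime q) (h' : A.LiesOverPrime q') : q = q' := by
  by_contra hne
  have hcop : IsCoprime (q : ℤ) (q' : ℤ) :=
    Nat.isCoprime_iff_coprime.2 ((Nat.coprime_primes hq hq').2 hne)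
  obtain ⟨a, b, hab⟩ := hcop
  have h1 : (q : Qb) ∈ A.nonunits := h
  have h2 : (q' : Qb) ∈ A.nonunits := h'
  rw [ValuationSubring.mem_nonunits_iff] at h1 h2
  have ha : A.valuation (a : Qb) ≤ 1 := (A.valuation_le_one_iff _).2 (intCast_mem A a)
  have hb : A.valuation (b : Qb) ≤ 1 := (A.valuation_le_one_iff _).2 (intCast_mem A b)
  have h3 : A.valuation ((a : Qb) * q) < 1 := by
    rw [map_mul]; exact lt_of_le_of_lt (mul_le_of_le_one_left' ha) h1
  have h4 : A.valuation ((b : Qb) * q') < 1 := by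
    rw [map_mul]; exact lt_of_le_of_lt (mul_le_of_le_one_left' hb) h2
  have h5 : A.valuation ((a : Qb) * q + (b : Qb) * q') < 1 :=
    lt_of_le_of_lt (A.valuation.map_add _ _) (max_lt h3 h4)
  have h6 : ((a : Qb) * q + (b : Qb) * q') = 1 := by exact_mod_cast congrArg (Int.cast : ℤ → Qb) hab
  rw [h6, map_one] at h5
  exact lt_irrefl _ h5

/-- The `G_ℚ`-set of places of `ℚ̄` outside `S`. -/
def PlOff (S : Finset Nat.Primes) : Type := {A : ValuationSubring Qb // OffS S A}

namespace PlOff

variable {S : Finset Nat.Primes}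

noncomputable instance : MulAction GQ (PlOff S) where
  smul g A := ⟨g • A.1, A.2.smul g⟩
  one_smul A := Subtype.ext (one_smul GQ A.1)
  mul_smul g h A := Subtype.ext (mul_smul g h A.1)

@[simp] theorem smul_val (g : GQ) (A : PlOff S) : (g • A).1 = g • A.1 := rfl

/-- the residue characteristic -/
noncomputable def char (A : PlOff S) : Nat.Primes := A.2.choose

theorem char_not_mem (A : PlOff S) : A.char ∉ S := A.2.choose_spec.1

theorem liesOver_char (A : PlOff S) : A.1.LiesOverPrime (A.char : ℕ) := A.2.choose_spec.2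

theorem char_eq {A : PlOff S} {q : Nat.Primes} (h : A.1.LiesOverPrime (q : ℕ)) : A.char = q :=
  Subtype.ext (liesOverPrime_unique A.char.2 q.2 A.liesOver_char h)

@[simp] theorem char_smul (g : GQ) (A : PlOff S) : (g • A).char = A.char :=
  char_eq (liesOverPrime_smul A.1 g _ A.liesOver_char)

open Classical in
/-- the normalised valuation (`0` if the valuation is not an integral multiple of `v_A(q)`) -/
noncomputable def ord (A : PlOff S) (x : Qb) : ℤ :=
  if h : ∃ k : ℤ, HasOrd A.1 (A.char : ℕ) x k then h.choose else 0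

end PlOff

/-- Divisors outside `S` of `ℚ_S`: functions on the places outside `S` which are invariant under
the fixing subgroup of a Galois `S`-field and supported over finitely many primes. -/
def divSub (S : Finset Nat.Primes) : AddSubgroup (PlOff S → ℤ) where
  carrier := {φ | (∃ F : IntermediateField ℚ Qb, F.IsUnramifiedOutside S ∧ F.fixingSubgroup.Normal ∧
      ∀ n ∈ F.fixingSubgroup, ∀ A, φ (n • A) = φ A) ∧
    ∃ T : Finset Nat.Primes, ∀ A : PlOff S, A.char ∉ T → φ A = 0}
  zero_mem' := ⟨⟨⊥, IntermediateField.isUnramifiedOutside_bot S,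
    by rw [IntermediateField.fixingSubgroup_bot]; infer_instance, fun _ _ _ => rfl⟩,
    ⟨∅, fun _ _ => rfl⟩⟩
  add_mem' := by
    classical
    rintro φ ψ ⟨⟨F, hF, hn, h⟩, ⟨T, hT⟩⟩ ⟨⟨F', hF', hn', h'⟩, ⟨T', hT'⟩⟩
    refine ⟨⟨F ⊔ F', hF.sup hF', by rw [IntermediateField.fixingSubgroup_sup]; infer_instance,
      fun n hn A => ?_⟩,
      ⟨T ∪ T', fun A hA => ?_⟩⟩
    · simp only [Pi.add_apply]
      rw [h n (IntermediateField.fixingSubgroup_antitone le_sup_left hn),
        h' n (IntermediateField.fixingSubgroup_antitone le_sup_right hn)]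
    · simp only [Pi.add_apply]
      rw [hT A (fun hh => hA (Finset.mem_union_left _ hh)),
        hT' A (fun hh => hA (Finset.mem_union_right _ hh)), add_zero]
  neg_mem' := by
    rintro φ ⟨⟨F, hF, hn, h⟩, ⟨T, hT⟩⟩
    exact ⟨⟨F, hF, hn, fun n hn A => by simp only [Pi.neg_apply]; rw [h n hn]⟩,
      ⟨T, fun A hA => by simp only [Pi.neg_apply]; rw [hT A hA, neg_zero]⟩⟩

/-- The `G_ℚ`-module `I_S` of divisors outside `S` of `ℚ_S`. -/
def DivMod (S : Finset Nat.Primes) : Type := ↥(divSub S)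

namespace DivMod

variable {S : Finset Nat.Primes}

instance : AddCommGroup (DivMod S) := inferInstanceAs (AddCommGroup ↥(divSub S))

instance : CoeFun (DivMod S) (fun _ => PlOff S → ℤ) := ⟨fun φ => φ.1⟩

@[ext] theorem ext {φ ψ : DivMod S} (h : ∀ A, φ A = ψ A) : φ = ψ := Subtype.ext (funext h)

@[simp] theorem add_apply (φ ψ : DivMod S) (A : PlOff S) : (φ + ψ) A = φ A + ψ A := rfl
@[simp] theorem zero_apply (A : PlOff S) : (0 : DivMod S) A = 0 := rfl
@[simp] theorem neg_apply (φ : DivMod S) (A : PlOff S) : (-φ) A = -φ A := rfl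
@[simp] theorem sub_apply (φ ψ : DivMod S) (A : PlOff S) : (φ - ψ) A = φ A - ψ A := rfl

noncomputable instance : SMul GQ (DivMod S) where
  smul g φ := ⟨fun A => φ (g⁻¹ • A), by
    obtain ⟨⟨F, hF, hn, h⟩, ⟨T, hT⟩⟩ := φ.2
    refine ⟨⟨F, hF, hn, fun n hnF A => ?_⟩, ⟨T, fun A hA => hT _ (by simpa using hA)⟩⟩
    have h1 : g⁻¹ • n • A = (g⁻¹ * n * g⁻¹⁻¹) • g⁻¹ • A := by
      simp [mul_smul]
    show φ.1 (g⁻¹ • n • A) = φ.1 (g⁻¹ • A)
    rw [h1]
    exact h _ (hn.conj_mem n hnF g⁻¹) _⟩

@[simp] theorem smul_apply (g : GQ) (φ : DivMod S) (A : PlOff S) : (g • φ) A = φ (g⁻¹ • A) := rfl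

noncomputable instance : DistribMulAction GQ (DivMod S) where
  one_smul φ := by ext A; simp
  mul_smul g h φ := by ext A; simp [mul_smul]
  smul_zero g := by ext A; simp
  smul_add g φ ψ := by ext A; simp

end DivMod

end Fermat.Agent.S55.Units
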