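/-
S55 / block UNITS, layer A (arithmetic in `ℚ̄`): section `Ord` (task UNITS-A-Ord, helper226).
Formal properties of `HasOrd` and `PlOff.ord`.
-/
import Fermat.Agent.S55.Units.ArithDefs

set_option autoImplicit false

open scoped Pointwise

namespace Fermat.Agent.S55.Units

/-! ## Section Ord : file `Units/Ord.lean` (formal properties of `HasOrd`, `PlOff.ord`) -/
section Ord

variable {S : Finset Nat.Primes}

private theorem valuation_le_iff (A : ValuationSubring Qb) (x y : Qb) :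
    A.valuation x ≤ A.valuation y ↔ (y = 0 ∧ x = 0) ∨ (y ≠ 0 ∧ x / y ∈ A) := by
  by_cases hy : y = 0
  · subst hy
    simp
  · have hvy : 0 < A.valuation y := zero_lt_iff.mpr ((Valuation.ne_zero_iff _).mpr hy)
    rw [← A.valuation_le_one_iff, map_div₀, div_le_one₀ hvy]
    simp [hy]

private theorem apply_mem_smul_iff (g : GQ) (A : ValuationSubring Qb) (z : Qb) :
    g z ∈ g • A ↔ z ∈ A :=
  ValuationSubring.smul_mem_pointwise_smul_iff (g := g) (S := A) (x := z)

theorem valuation_smul (g : GQ) (A : ValuationSubring Qb) (x y : Qb) :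
    (g • A).valuation (g x) ≤ (g • A).valuation (g y) ↔ A.valuation x ≤ A.valuation y := by
  rw [valuation_le_iff, valuation_le_iff, ← map_div₀, apply_mem_smul_iff,
    map_eq_zero_iff g g.injective, map_eq_zero_iff g g.injective, Ne,
    map_eq_zero_iff g g.injective]

private theorem valuation_smul_eq (g : GQ) (A : ValuationSubring Qb) (x y : Qb) :
    (g • A).valuation (g x) = (g • A).valuation (g y) ↔ A.valuation x = A.valuation y := by
  rw [le_antisymm_iff, le_antisymm_iff, valuation_smul, valuation_smul]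

theorem HasOrd.unique {A : ValuationSubring Qb} {q : ℕ} (hA : A.LiesOverPrime q) (hq : q.Prime)
    {x : Qb} {k l : ℤ} (h : HasOrd A q x k) (h' : HasOrd A q x l) : k = l := by
  have h1 : A.valuation (q : Qb) < 1 := A.mem_nonunits_iff.mp hA
  have h0 : 0 < A.valuation (q : Qb) :=
    zero_lt_iff.mpr ((Valuation.ne_zero_iff _).mpr (Nat.cast_ne_zero.mpr hq.ne_zero))
  have h2 : A.valuation (q : Qb) ^ k = A.valuation (q : Qb) ^ l := h.symm.trans h'
  exact zpow_right_injective₀ h0 h1.ne h2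

theorem HasOrd.mul {A : ValuationSubring Qb} {q : ℕ} {x y : Qb} {k l : ℤ}
    (h : HasOrd A q x k) (h' : HasOrd A q y l) (hq : q ≠ 0) : HasOrd A q (x * y) (k + l) := by
  have h0 : A.valuation (q : Qb) ≠ 0 := (Valuation.ne_zero_iff _).mpr (Nat.cast_ne_zero.mpr hq)
  unfold HasOrd at h h' ⊢
  rw [map_mul, h, h', zpow_add₀ h0]

theorem HasOrd.inv {A : ValuationSubring Qb} {q : ℕ} {x : Qb} {k : ℤ}
    (h : HasOrd A q x k) : HasOrd A q x⁻¹ (-k) := by
  unfold HasOrd at h ⊢
  rw [map_inv₀, h, zpow_neg]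

theorem hasOrd_one (A : ValuationSubring Qb) (q : ℕ) : HasOrd A q 1 0 := by
  unfold HasOrd
  rw [map_one, zpow_zero]

theorem hasOrd_zero_iff (A : ValuationSubring Qb) (q : ℕ) (x : Qb) :
    HasOrd A q x 0 ↔ A.valuation x = 1 := by
  unfold HasOrd
  rw [zpow_zero]

theorem hasOrd_self_zpow (A : ValuationSubring Qb) (q : ℕ) (k : ℤ) :
    HasOrd A q ((q : Qb) ^ k) k := by
  unfold HasOrd
  rw [map_zpow₀]

theorem hasOrd_smul_iff (g : GQ) (A : ValuationSubring Qb) (q : ℕ) (x : Qb) (k : ℤ) :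
    HasOrd (g • A) q (g x) k ↔ HasOrd A q x k := by
  unfold HasOrd
  have h1 : g ((q : Qb) ^ k) = (q : Qb) ^ k := by rw [map_zpow₀, map_natCast]
  rw [← map_zpow₀, ← map_zpow₀, ← h1, valuation_smul_eq, h1]

/-- roots: the value group is torsion free -/
theorem HasOrd.of_pow {A : ValuationSubring Qb} {q : ℕ} {y : Qb} {n : ℕ} (hn : 0 < n) {k : ℤ}
    (h : HasOrd A q (y ^ n) (n * k)) : HasOrd A q y k := by
  unfold HasOrd at h ⊢
  rw [map_pow, mul_comm, zpow_mul, zpow_natCast] at h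
  exact (pow_left_inj₀ zero_le zero_le hn.ne').mp h

theorem PlOff.ord_eq {A : PlOff S} {x : Qb} {k : ℤ} (h : HasOrd A.1 (A.char : ℕ) x k) :
    A.ord x = k := by
  have hex : ∃ k : ℤ, HasOrd A.1 (A.char : ℕ) x k := ⟨k, h⟩
  unfold PlOff.ord
  rw [dif_pos hex]
  exact HasOrd.unique A.liesOver_char A.char.2 hex.choose_spec h

theorem PlOff.ord_smul (g : GQ) (A : PlOff S) (x : Qb) : (g • A).ord (g x) = A.ord x := by
  by_cases hex : ∃ k : ℤ, HasOrd A.1 (A.char : ℕ) x k
  · obtain ⟨k, hk⟩ := hex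
    rw [PlOff.ord_eq hk]
    refine PlOff.ord_eq ?_
    rw [PlOff.char_smul, PlOff.smul_val, hasOrd_smul_iff]
    exact hk
  · have hex' : ¬ ∃ k : ℤ, HasOrd (g • A).1 ((g • A).char : ℕ) (g x) k := by
      rintro ⟨k, hk⟩
      rw [PlOff.char_smul, PlOff.smul_val, hasOrd_smul_iff] at hk
      exact hex ⟨k, hk⟩
    unfold PlOff.ord
    rw [dif_neg hex, dif_neg hex']

end Ord

end Fermat.Agent.S55.Units
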