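/-
S55 / block UNITS, layer A (arithmetic in `ℚ̄`), section `QS`:
`ℚ_S` = elements fixed by all inertia groups outside `S`; field operations, Galois action, `S`-units.
-/
import Fermat.Agent.S55.Units.ArithDefs
import Fermat.Agent.S55.Bridge.Fields
import Fermat.Agent.Lib.Frobenius.Exists

set_option autoImplicit false

open scoped Pointwise

namespace Fermat.Agent.S55.Units

/-! ## Section QS : file `Units/QS.lean` -/
section QS

variable {S : Finset Nat.Primes}

/-- conjugation of inertia groups -/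
theorem conj_mem_inertia (A : ValuationSubring Qb) (g τ : GQ) (hτ : τ ∈ A.inertiaSubgroupIn ℚ) :
    g * τ * g⁻¹ ∈ (g • A).inertiaSubgroupIn ℚ :=
  Fermat.Agent.S55.Bridge.conj_mem_inertiaSubgroupIn_smul A g τ hτ

/-- `ℚ_S` is the field of elements fixed by all inertia groups outside `S`. -/
theorem inQS_iff (x : Qb) :
    InQS S x ↔ ∀ A : ValuationSubring Qb, OffS S A → ∀ σ ∈ A.inertiaSubgroupIn ℚ, σ x = x := by
  constructor
  · rintro ⟨F, hF, hx⟩ A ⟨q, hq, hA⟩ σ hσ
    exact (IntermediateField.mem_fixingSubgroup_iff F σ).1 (hF.2 q hq A hA hσ) x hx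
  · intro h
    refine ⟨IntermediateField.adjoin ℚ {x}, ⟨?_, fun q hq A hA σ hσ => ?_⟩,
      IntermediateField.mem_adjoin_simple_self ℚ x⟩
    · have hx : IsIntegral ℚ x := by
        have h0 : (DivisionRing.toRatAlgebra : Algebra ℚ Qb) = AlgebraicClosure.instAlgebra ℚ :=
          Subsingleton.elim _ _
        rw [h0]
        exact (AlgebraicClosure.isAlgebraic ℚ).isIntegral.isIntegral x
      exact IntermediateField.adjoin.finiteDimensional hx
    · rw [IntermediateField.mem_fixingSubgroup_iff]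
      intro y hy
      have hσx : σ x = x := h A ⟨q, hq, hA⟩ σ hσ
      have key : ((σ : Qb →ₐ[ℚ] Qb).comp (IntermediateField.adjoin ℚ {x}).val)
          = (IntermediateField.adjoin ℚ {x}).val := by
        apply IntermediateField.adjoin_algHom_ext
        intro z hz
        rw [Set.mem_singleton_iff] at hz
        subst hz
        exact hσx
      exact congrArg (fun f => f ⟨y, hy⟩) key

theorem InQS.map {x : Qb} (h : InQS S x) (g : GQ) : InQS S (g x) := by
  rw [inQS_iff] at h ⊢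
  intro A hA σ hσ
  have h1 := h (g⁻¹ • A) (hA.smul g⁻¹) _ (conj_mem_inertia A g⁻¹ σ hσ)
  rw [inv_inv] at h1
  have h2 : g⁻¹ (σ (g x)) = x := h1
  have h3 := congrArg g h2
  rwa [show g (g⁻¹ (σ (g x))) = σ (g x) from g.apply_symm_apply _] at h3

theorem InQS.add {x y : Qb} (hx : InQS S x) (hy : InQS S y) : InQS S (x + y) := by
  rw [inQS_iff] at hx hy ⊢
  intro A hA σ hσ
  rw [map_add, hx A hA σ hσ, hy A hA σ hσ]

theorem InQS.mul {x y : Qb} (hx : InQS S x) (hy : InQS S y) : InQS S (x * y) := by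
  rw [inQS_iff] at hx hy ⊢
  intro A hA σ hσ
  rw [map_mul, hx A hA σ hσ, hy A hA σ hσ]

theorem InQS.inv {x : Qb} (hx : InQS S x) : InQS S x⁻¹ := by
  rw [inQS_iff] at hx ⊢
  intro A hA σ hσ
  rw [map_inv₀, hx A hA σ hσ]

theorem InQS.neg {x : Qb} (hx : InQS S x) : InQS S (-x) := by
  rw [inQS_iff] at hx ⊢
  intro A hA σ hσ
  rw [map_neg, hx A hA σ hσ]

theorem inQS_algebraMap (r : ℚ) : InQS S (algebraMap ℚ Qb r) := by
  rw [inQS_iff]
  intro A _ σ _
  exact σ.commutes r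

/-- every element of `ℚ_S` lies in a Galois `S`-field -/
theorem InQS.exists_normal {x : Qb} (h : InQS S x) :
    ∃ F : IntermediateField ℚ Qb, F.IsUnramifiedOutside S ∧ F.fixingSubgroup.Normal ∧ x ∈ F := by
  obtain ⟨F, hF, hx⟩ := h
  obtain ⟨F', hle, hF', hN⟩ := Fermat.Agent.S55.Bridge.exists_normal_isUnramifiedOutside hF
  exact ⟨F', hF', Fermat.Agent.S55.Bridge.fixingSubgroup_normal F', hle hx⟩

private theorem valuation_eq_one_iff_aux (A : ValuationSubring Qb) (x : Qb) :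
    A.valuation x = 1 ↔ x ≠ 0 ∧ x ∈ A ∧ x⁻¹ ∈ A := by
  constructor
  · intro h
    have hx : x ≠ 0 := by
      rintro rfl
      rw [map_zero] at h
      exact zero_ne_one h
    refine ⟨hx, (A.valuation_le_one_iff x).1 h.le, (A.valuation_le_one_iff _).1 ?_⟩
    rw [map_inv₀, h, inv_one]
  · rintro ⟨hx, h1, h2⟩
    have h3 := (A.valuation_le_one_iff x).2 h1
    have h4 := (A.valuation_le_one_iff _).2 h2
    rw [map_inv₀, inv_le_one₀ (zero_lt_iff.2 ((map_ne_zero _).2 hx))] at h4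
    exact le_antisymm h3 h4

theorem IsSUnit.map {x : Qb} (h : IsSUnit S x) (g : GQ) : IsSUnit S (g x) := by
  refine ⟨h.1.map g, fun A hA => ?_⟩
  have h1 := h.2 (g⁻¹ • A) (hA.smul g⁻¹)
  rw [valuation_eq_one_iff_aux] at h1 ⊢
  obtain ⟨h0, h2, h3⟩ := h1
  rw [ValuationSubring.mem_pointwise_smul_iff_inv_smul_mem, inv_inv] at h2 h3
  refine ⟨(map_ne_zero _).2 h0, h2, ?_⟩
  have : g • x⁻¹ = (g x)⁻¹ := map_inv₀ g x
  rwa [this] at h3

theorem IsSUnit.mul {x y : Qb} (hx : IsSUnit S x) (hy : IsSUnit S y) : IsSUnit S (x * y) :=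
  ⟨hx.1.mul hy.1, fun A hA => by rw [map_mul, hx.2 A hA, hy.2 A hA, one_mul]⟩

theorem IsSUnit.inv {x : Qb} (hx : IsSUnit S x) : IsSUnit S x⁻¹ :=
  ⟨hx.1.inv, fun A hA => by rw [map_inv₀, hx.2 A hA, inv_one]⟩

theorem isSUnit_one : IsSUnit S (1 : Qb) :=
  ⟨by simpa using inQS_algebraMap (S := S) 1, fun A _ => map_one _⟩

theorem IsSUnit.ne_zero {x : Qb} (hx : IsSUnit S x) : x ≠ 0 := by
  rintro rfl
  obtain ⟨q, hq⟩ := Infinite.exists_notMem_finset S
  obtain ⟨A, hA⟩ := Fermat.Agent.Lib.Frobenius.exists_liesOverPrime (q : ℕ) q.2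
  have := hx.2 A ⟨q, hq, hA⟩
  rw [map_zero] at this
  exact zero_ne_one this

end QS

end Fermat.Agent.S55.Units
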