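/-
S55 / block UNITS, layer A (arithmetic in `ℚ̄`): section `EOne`
(`e = 1` on the inertia field, in `ℚ̄`).
-/
import Fermat.Agent.S55.Units.EOneFin
import Fermat.Agent.S55.Units.QS
import Fermat.Agent.S55.Units.Ord
import Fermat.Agent.S13.MinkowskiLift

set_option autoImplicit false
set_option linter.style.haveILetI false

open scoped Pointwise NumberField

namespace Fermat.Agent.S55.Units

open Fermat.Agent.Lib.Frobenius

/-! ## Section EOne : file `Units/EOne.lean`  (`e = 1` on the inertia field) -/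
section EOne

/-- **`e = 1`**: an element of `ℚ̄ˣ` fixed by the inertia group of `A` has valuation in
`v_A(q)^ℤ`. -/
theorem exists_hasOrd_of_inertia_fixed (q : ℕ) (hq : q.Prime) (A : ValuationSubring Qb)
    (hA : A.LiesOverPrime q) (x : Qb) (hx : x ≠ 0)
    (hfix : ∀ σ ∈ A.inertiaSubgroupIn ℚ, σ x = x) : ∃ k : ℤ, HasOrd A q x k := by
  classical
  haveI := isGalois_rat
  have hxint : IsIntegral ℚ x := Algebra.IsIntegral.isIntegral x
  haveI : FiniteDimensional ℚ (IntermediateField.adjoin ℚ {x}) :=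
    IntermediateField.adjoin.finiteDimensional hxint
  set M : IntermediateField ℚ Qb :=
    IntermediateField.normalClosure ℚ (IntermediateField.adjoin ℚ {x}) Qb with hM
  have hxM : x ∈ M :=
    (IntermediateField.adjoin ℚ {x}).le_normalClosure
      (IntermediateField.mem_adjoin_simple_self ℚ x)
  haveI : FiniteDimensional ℚ M := normalClosure.is_finiteDimensional _ _ _
  haveI : Normal ℚ M := normalClosure.normal _ _ _
  haveI : IsGalois ℚ M := ⟨⟩
  haveI : NumberField M := ⟨⟩
  haveI hJn : M.fixingSubgroup.Normal := (InfiniteGalois.normal_iff_isGalois M).2 inferInstance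
  have hclosed : IsClosed (M.fixingSubgroup : Set GQ) := IntermediateField.fixingSubgroup_isClosed M
  have hint : ∀ y : 𝓞 M, IsIntegral ℤ (((y : M) : Qb)) := fun y =>
    (y.2 : IsIntegral ℤ (y : M)).map (IsScalarTower.toAlgHom ℤ M Qb)
  let f : 𝓞 M →+* A :=
    { toFun := fun y => ⟨((y : M) : Qb), mem_valuationSubring_of_isIntegral A (hint y)⟩
      map_one' := rfl
      map_mul' := fun _ _ => rfl
      map_zero' := rfl
      map_add' := fun _ _ => rfl }
  let P : Ideal (𝓞 M) := (IsLocalRing.maximalIdeal A).comap f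
  haveI hPp : P.IsPrime := Ideal.comap_isPrime _ _
  have hmemP : ∀ y : 𝓞 M, y ∈ P ↔ (((y : M) : Qb)) ∈ A.nonunits := by
    intro y
    rw [ValuationSubring.mem_nonunits_iff_exists_mem_maximalIdeal]
    constructor
    · intro h
      exact ⟨mem_valuationSubring_of_isIntegral A (hint y), h⟩
    · rintro ⟨_, h⟩
      exact h
  have hqP : (q : 𝓞 M) ∈ P := by
    rw [hmemP]
    have h0 : (q : Qb) ∈ A.nonunits := hA
    simpa using h0
  have hval1 : ∀ y : 𝓞 M, y ∉ P → A.valuation (((y : M) : Qb)) = 1 := by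
    intro y hy
    rw [hmemP, ValuationSubring.mem_nonunits_iff, not_lt] at hy
    exact le_antisymm
      ((A.valuation_le_one_iff _).2 (mem_valuationSubring_of_isIntegral A (hint y))) hy
  obtain ⟨k, a, b, ha, hb, hab⟩ := exists_zpow_mul_div_of_inertia_fixed M q hq P hqP ⟨x, hxM⟩
    (fun h => hx (congrArg Subtype.val h)) (by
      intro τ hτP
      obtain ⟨γ, hγ⟩ := AlgEquiv.restrictNormalHom_surjective Qb τ
      have hγM : ∀ y : M, γ (y : Qb) = ((τ y : M) : Qb) := by
        intro y
        rw [← hγ]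
        exact (AlgEquiv.restrictNormal_commutes γ M y).symm
      obtain ⟨j, hj, hjγ⟩ := Fermat.Agent.S13.Minkowski.exists_mul_mem_inertia
        M.fixingSubgroup hclosed A γ (by
          intro y hy hyfix
          have hyM : y ∈ M := by
            rw [← InfiniteGalois.fixedField_fixingSubgroup M]
            exact fun j => hyfix j.1 j.2
          have hyi : IsIntegral ℤ (⟨y, hyM⟩ : M) :=
            (isIntegral_algebraMap_iff (A := M) (B := Qb) (algebraMap M Qb).injective).1 hy
          obtain ⟨z, hz, hzy⟩ := hτP ⟨⟨y, hyM⟩, hyi⟩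
          rw [hmemP, hzy] at hz
          have h3 := hγM ⟨y, hyM⟩
          rw [h3]
          exact hz)
      have h1 : j (γ x) = x := hfix _ hjγ
      have h2 : γ x = ((τ ⟨x, hxM⟩ : M) : Qb) := hγM ⟨x, hxM⟩
      have h3 : j ((τ ⟨x, hxM⟩ : M) : Qb) = ((τ ⟨x, hxM⟩ : M) : Qb) := hj (τ ⟨x, hxM⟩)
      apply Subtype.ext
      rw [h2, h3] at h1
      exact h1)
  refine ⟨k, ?_⟩
  have hab' : x * (((b : M) : Qb)) = (q : Qb) ^ k * (((a : M) : Qb)) := by
    have h := congrArg (algebraMap M Qb) hab
    rw [map_mul, map_mul, map_zpow₀, map_natCast] at h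
    exact h
  have h := congrArg A.valuation hab'
  rw [map_mul, map_mul, hval1 a ha, hval1 b hb, mul_one, mul_one, map_zpow₀] at h
  exact h

theorem PlOff.hasOrd_ord_of_inertia_fixed {S : Finset Nat.Primes} (A : PlOff S) (x : Qb)
    (hx : x ≠ 0) (hfix : ∀ σ ∈ A.1.inertiaSubgroupIn ℚ, σ x = x) :
    HasOrd A.1 (A.char : ℕ) x (A.ord x) := by
  have h := exists_hasOrd_of_inertia_fixed (A.char : ℕ) A.char.2 A.1 A.liesOver_char x hx hfix
  unfold PlOff.ord
  rw [dif_pos h]
  exact h.choose_spec

theorem PlOff.hasOrd_ord {S : Finset Nat.Primes} (A : PlOff S) {x : Qb} (hx : x ≠ 0)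
    (h : InQS S x) : HasOrd A.1 (A.char : ℕ) x (A.ord x) :=
  A.hasOrd_ord_of_inertia_fixed x hx ((inQS_iff x).1 h A.1 A.2)

end EOne

end Fermat.Agent.S55.Units
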