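/-
S55 / block UNITS, layer A (arithmetic in `ℚ̄`): section `Below`
(places of `ℚ̄` versus primes of a number field).  Task UNITS-A-Below (helper264).
-/
import Fermat.Agent.S55.Units.EOne
import Fermat.Agent.Lib.WeakChebotarev.Qbar

set_option autoImplicit false

open scoped Pointwise

namespace Fermat.Agent.S55.Units

/-! ## Section Below : file `Units/Below.lean` (places of `ℚ̄` versus primes of a number field) -/
section Below

open NumberField IsDedekindDomain
open Fermat.Agent.Lib.WeakChebotarev.Transfer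

variable (L : IntermediateField ℚ Qb) [NumberField L]

omit [NumberField L] in
/-- an element of `𝓞 L` outside the prime below `A` is a unit of `A`. -/
private theorem valuation_eq_one_of_not_mem (A : ValuationSubring Qb) (d : 𝓞 L)
    (hd : d ∉ primeBelow L A) : A.valuation (((d : L) : Qb)) = 1 := by
  rw [mem_primeBelow_iff, A.mem_nonunits_iff, not_lt] at hd
  exact le_antisymm ((A.valuation_le_one_iff _).mpr (coe_mem_valuationSubring L A d)) hd

/-- the prime of `𝓞 L` below a place of `ℚ̄` over a prime number -/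
theorem exists_below (A : ValuationSubring Qb) (q : ℕ) (hq : q.Prime) (hA : A.LiesOverPrime q) :
    ∃ v : HeightOneSpectrum (𝓞 L), (q : 𝓞 L) ∈ v.asIdeal ∧
      ∀ x : L, v.valuation L x ≤ 1 ↔ (x : Qb) ∈ A := by
  have hqP : (q : 𝓞 L) ∈ primeBelow L A := natCast_mem_primeBelow L hA
  have hne : primeBelow L A ≠ ⊥ := by
    intro h
    rw [h, Ideal.mem_bot] at hqP
    exact hq.ne_zero (by exact_mod_cast hqP)
  let v : HeightOneSpectrum (𝓞 L) := ⟨primeBelow L A, inferInstance, hne⟩
  refine ⟨v, hqP, fun x => ⟨fun hx => ?_, fun hx => ?_⟩⟩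
  · obtain ⟨n, d, hnd⟩ := v.exists_primeCompl_mul_eq_of_integer x hx
    have hd1 := valuation_eq_one_of_not_mem L A d.1 d.2
    have hn : A.valuation (((n : L) : Qb)) ≤ 1 :=
      (A.valuation_le_one_iff _).mpr (coe_mem_valuationSubring L A n)
    have h1 : (x : Qb) * (((d.1 : 𝓞 L) : L) : Qb) = ((n : L) : Qb) := by
      have := congrArg (fun y : L => (y : Qb)) hnd
      simpa using this
    rw [← A.valuation_le_one_iff]
    have h2 := congrArg A.valuation h1
    rw [map_mul, hd1, mul_one] at h2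
    rw [h2]
    exact hn
  · by_contra hlt
    rw [not_le] at hlt
    have hx0 : x ≠ 0 := by
      rintro rfl
      simp at hlt
    have hinv : v.valuation L x⁻¹ < 1 := by
      rw [map_inv₀]
      exact inv_lt_one_of_one_lt₀ hlt
    obtain ⟨n, d, hnd⟩ := v.exists_primeCompl_mul_eq_of_integer x⁻¹ hinv.le
    have hd1 := valuation_eq_one_of_not_mem L A d.1 d.2
    have hvd : v.valuation L (algebraMap (𝓞 L) L d.1) = 1 :=
      (v.valuation_eq_one_iff_notMem).mpr d.2
    have hvn : v.valuation L (algebraMap (𝓞 L) L n) < 1 := by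
      rw [← hnd, map_mul, hvd, mul_one]
      exact hinv
    have hnP : n ∈ primeBelow L A := (v.valuation_lt_one_iff_mem n).mp hvn
    rw [mem_primeBelow_iff, A.mem_nonunits_iff] at hnP
    have h1 : ((x : Qb))⁻¹ * (((d.1 : 𝓞 L) : L) : Qb) = ((n : L) : Qb) := by
      have := congrArg (fun y : L => (y : Qb)) hnd
      simpa using this
    have h2 := congrArg A.valuation h1
    rw [map_mul, hd1, mul_one, map_inv₀] at h2
    rw [← h2] at hnP
    have h3 : A.valuation (x : Qb) ≤ 1 := (A.valuation_le_one_iff _).mpr hx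
    have hx0' : A.valuation (x : Qb) ≠ 0 := by
      rw [Valuation.ne_zero_iff]
      exact_mod_cast hx0
    have h4 : 1 ≤ (A.valuation (x : Qb))⁻¹ := (one_le_inv₀ (zero_lt_iff.mpr hx0')).mpr h3
    exact absurd hnP (not_lt.mpr h4)

/-- units correspond -/
private theorem valuation_eq_one_iff (A : ValuationSubring Qb)
    (v : HeightOneSpectrum (𝓞 L)) (hv : ∀ x : L, v.valuation L x ≤ 1 ↔ (x : Qb) ∈ A)
    (y : L) (hy : y ≠ 0) : A.valuation (y : Qb) = 1 → v.valuation L y = 1 := by
  intro h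
  have h1 : v.valuation L y ≤ 1 := (hv y).mpr ((A.valuation_le_one_iff _).mp h.le)
  have h2 : v.valuation L y⁻¹ ≤ 1 := by
    refine (hv y⁻¹).mpr ((A.valuation_le_one_iff _).mp ?_)
    push_cast
    rw [map_inv₀, h, inv_one]
  rw [map_inv₀] at h2
  have hy0 : v.valuation L y ≠ 0 := (Valuation.ne_zero_iff _).mpr hy
  exact le_antisymm h1 ((inv_le_one₀ (zero_lt_iff.mpr hy0)).mp h2)

/-- `HasOrd` transfers to `v`. -/
private theorem valuation_eq_of_hasOrd (A : ValuationSubring Qb) (q : ℕ) (hq : q.Prime)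
    (v : HeightOneSpectrum (𝓞 L)) (hv : ∀ x : L, v.valuation L x ≤ 1 ↔ (x : Qb) ∈ A)
    (y : L) (hy : y ≠ 0) (j : ℤ) (h : HasOrd A q (y : Qb) j) :
    v.valuation L y = v.valuation L (q : L) ^ j := by
  have hq0 : (q : L) ≠ 0 := by exact_mod_cast hq.ne_zero
  have hq0' : (q : Qb) ≠ 0 := by exact_mod_cast hq.ne_zero
  have hu0 : y * (q : L) ^ (-j) ≠ 0 := mul_ne_zero hy (zpow_ne_zero _ hq0)
  have hAq : A.valuation (q : Qb) ≠ 0 := (Valuation.ne_zero_iff _).mpr hq0'
  have hvq : v.valuation L (q : L) ≠ 0 := (Valuation.ne_zero_iff _).mpr hq0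
  have h1 : A.valuation ((y * (q : L) ^ (-j) : L) : Qb) = 1 := by
    have hc : (((q : L) ^ (-j) : L) : Qb) = (q : Qb) ^ (-j) := by
      have := map_zpow₀ (algebraMap L Qb) (q : L) (-j)
      rw [map_natCast] at this
      exact this
    rw [IntermediateField.coe_mul, hc, map_mul, map_zpow₀, h, ← zpow_add₀ hAq, add_neg_cancel,
      zpow_zero]
  have h2 := valuation_eq_one_iff L A v hv _ hu0 h1
  rw [map_mul, map_zpow₀, zpow_neg] at h2
  exact eq_of_mul_inv_eq_one h2 |>.trans rfl

/-- unramified case: the `v`-adic valuation is `HasOrd` -/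
theorem hasOrd_iff_valuation_eq (A : ValuationSubring Qb) (q : ℕ) (hq : q.Prime)
    (hA : A.LiesOverPrime q) (hur : A.inertiaSubgroupIn ℚ ≤ L.fixingSubgroup)
    (v : HeightOneSpectrum (𝓞 L)) (hv : ∀ x : L, v.valuation L x ≤ 1 ↔ (x : Qb) ∈ A)
    (x : L) (k : ℤ) :
    HasOrd A q (x : Qb) k ↔ v.valuation L x = WithZero.exp (-k) := by
  have hq0 : (q : L) ≠ 0 := by exact_mod_cast hq.ne_zero
  have hq0' : (q : Qb) ≠ 0 := by exact_mod_cast hq.ne_zero
  have hAq : A.valuation (q : Qb) ≠ 0 := (Valuation.ne_zero_iff _).mpr hq0'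
  have hvq : v.valuation L (q : L) ≠ 0 := (Valuation.ne_zero_iff _).mpr hq0
  have hex : ∀ y : L, y ≠ 0 → ∃ j : ℤ, HasOrd A q (y : Qb) j := by
    intro y hy
    refine exists_hasOrd_of_inertia_fixed q hq A hA (y : Qb) (by exact_mod_cast hy) ?_
    intro σ hσ
    exact (IntermediateField.mem_fixingSubgroup_iff L σ).mp (hur hσ) _ y.2
  -- `v q = exp (-1)`
  have hvq1 : v.valuation L (q : L) = WithZero.exp (-1 : ℤ) := by
    obtain ⟨ϖ, hϖ⟩ := v.valuation_exists_uniformizer L
    have hϖ0 : ϖ ≠ 0 := by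
      rintro rfl
      rw [map_zero] at hϖ
      exact WithZero.exp_ne_zero hϖ.symm
    obtain ⟨j, hj⟩ := hex ϖ hϖ0
    have h1 := valuation_eq_of_hasOrd L A q hq v hv ϖ hϖ0 j hj
    have hlt : v.valuation L (q : L) < 1 := by
      by_contra hge
      rw [not_lt] at hge
      have h2 : v.valuation L ((q : L)⁻¹) ≤ 1 := by
        rw [map_inv₀]
        exact inv_le_one_of_one_le₀ hge
      have h3 : (((q : L)⁻¹ : L) : Qb) ∈ A := (hv _).mp h2
      have h4 : A.valuation (((q : L)⁻¹ : L) : Qb) ≤ 1 := (A.valuation_le_one_iff _).mpr h3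
      have h5 : A.valuation (q : Qb) < 1 := (A.mem_nonunits_iff).mp hA
      push_cast at h4
      rw [map_inv₀] at h4
      have h6 : 1 ≤ A.valuation (q : Qb) := (inv_le_one₀ (zero_lt_iff.mpr hAq)).mp h4
      exact absurd h5 (not_lt.mpr h6)
    rw [← WithZero.exp_log hvq] at h1 hlt ⊢
    set e' : ℤ := WithZero.log (v.valuation L (q : L)) with he'
    rw [hϖ, ← WithZero.exp_zsmul, WithZero.exp_inj] at h1
    rw [← WithZero.exp_zero, WithZero.exp_lt_exp] at hlt
    have h2 : e' ∣ 1 := ⟨-j, by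
      rw [smul_eq_mul] at h1
      linarith⟩
    rcases Int.isUnit_iff.mp (isUnit_of_dvd_one h2) with h3 | h3
    · omega
    · rw [h3]
  rcases eq_or_ne x 0 with rfl | hx
  · constructor
    · intro h
      exfalso
      have h' : A.valuation (0 : Qb) = A.valuation (q : Qb) ^ k := h
      rw [map_zero] at h'
      exact zpow_ne_zero k hAq h'.symm
    · intro h
      rw [map_zero] at h
      exact absurd h.symm WithZero.exp_ne_zero
  · obtain ⟨j, hj⟩ := hex x hx
    have h1 := valuation_eq_of_hasOrd L A q hq v hv x hx j hj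
    rw [hvq1, ← WithZero.exp_zsmul] at h1
    constructor
    · intro h
      rw [HasOrd.unique hA hq h hj, h1]
      congr 1
      simp
    · intro h
      rw [h1, WithZero.exp_inj] at h
      have : k = j := by
        simp at h
        omega
      rw [this]
      exact hj

/-- finitely many primes of `𝓞 L` over a finite set of prime numbers -/
theorem finite_primes_over (T : Finset Nat.Primes) :
    {v : HeightOneSpectrum (𝓞 L) | ∃ q ∈ T, ((q : ℕ) : 𝓞 L) ∈ v.asIdeal}.Finite := by
  have h : {v : HeightOneSpectrum (𝓞 L) | ∃ q ∈ T, ((q : ℕ) : 𝓞 L) ∈ v.asIdeal}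
      = ⋃ q ∈ T, {v : HeightOneSpectrum (𝓞 L) | v.asIdeal ∣ Ideal.span {((q : ℕ) : 𝓞 L)}} := by
    ext v
    simp only [Set.mem_ofPred_eq, Set.mem_iUnion, Ideal.dvd_span_singleton, exists_prop]
  rw [h]
  refine Set.Finite.biUnion T.finite_toSet fun q _ => Ideal.finite_factors ?_
  rw [Ne, Ideal.zero_eq_bot, Ideal.span_singleton_eq_bot]
  exact_mod_cast q.2.ne_zero

end Below

end Fermat.Agent.S55.Units
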