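/-
S55 / block UNITS, layer A (arithmetic in `ℚ̄`): section `Conj`:
conjugacy of the valuation subrings of `ℚ̄` over a given one of `L`.
-/
import Fermat.Agent.S55.Units.ArithDefs
import Fermat.Agent.S13.MinkowskiLift
import Fermat.Agent.Lib.Frobenius.Fraction

set_option autoImplicit false
set_option linter.style.haveILetI false

open scoped Pointwise

namespace Fermat.Agent.S55.Units

/-! ## Section Conj : file `Units/Conj.lean` -/
section Conj

open Fermat.Agent.Lib.Frobenius Fermat.Agent.S13.Minkowski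

attribute [local instance] zbarAction

/-- nonunits in terms of membership -/
theorem mem_nonunits_iff_eq_zero_or_inv_not_mem (A : ValuationSubring Qb) (x : Qb) :
    x ∈ A.nonunits ↔ x = 0 ∨ x⁻¹ ∉ A := by
  rw [ValuationSubring.mem_nonunits_iff]
  by_cases hx : x = 0
  · simp [hx]
  · rw [← ValuationSubring.valuation_le_one_iff, map_inv₀, not_le]
    have hv : A.valuation x ≠ 0 := (A.valuation.ne_zero_iff).2 hx
    constructor
    · intro h
      exact Or.inr ((one_lt_inv₀ (zero_lt_iff.2 hv)).2 h)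
    · rintro (h | h)
      · exact absurd h hx
      · exact (one_lt_inv₀ (zero_lt_iff.2 hv)).1 h

theorem mem_nonunits_smul_iff (A : ValuationSubring Qb) (g : GQ) (x : Qb) :
    x ∈ (g • A).nonunits ↔ g⁻¹ • x ∈ A.nonunits := by
  rw [mem_nonunits_iff_eq_zero_or_inv_not_mem, mem_nonunits_iff_eq_zero_or_inv_not_mem,
    ValuationSubring.mem_pointwise_smul_iff_inv_smul_mem, smul_inv'', smul_eq_zero_iff_eq]

/-- a valuation subring of `ℚ̄` is determined by the algebraic integers which are nonunits -/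
theorem mem_iff_exists_integral_fraction (A : ValuationSubring Qb) (x : Qb) :
    x ∈ A ↔ ∃ b c : Qb, IsIntegral ℤ b ∧ IsIntegral ℤ c ∧ b ∉ A.nonunits ∧ x * b = c := by
  constructor
  · exact exists_integral_fraction A x
  · rintro ⟨b, c, hb, hc, hbA, hx⟩
    rw [mem_nonunits_iff_eq_zero_or_inv_not_mem] at hbA
    push Not at hbA
    have h1 : x = c * b⁻¹ := by
      rw [← hx, mul_assoc, mul_inv_cancel₀ hbA.1, mul_one]
    rw [h1]
    exact mul_mem (mem_valuationSubring_of_isIntegral A hc) hbA.2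

theorem eq_of_forall_integral_mem_nonunits_iff (A A' : ValuationSubring Qb)
    (h : ∀ b : Qb, IsIntegral ℤ b → (b ∈ A.nonunits ↔ b ∈ A'.nonunits)) : A = A' := by
  ext x
  rw [mem_iff_exists_integral_fraction A, mem_iff_exists_integral_fraction A']
  constructor
  · rintro ⟨b, c, hb, hc, hbA, hx⟩
    exact ⟨b, c, hb, hc, fun hh => hbA ((h b hb).2 hh), hx⟩
  · rintro ⟨b, c, hb, hc, hbA, hx⟩
    exact ⟨b, c, hb, hc, fun hh => hbA ((h b hb).1 hh), hx⟩

/-- two valuation subrings of `ℚ̄` with the same trace on `L` are conjugate over `L` -/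
theorem exists_smul_eq_of_forall_mem_iff (L : IntermediateField ℚ Qb) (A A' : ValuationSubring Qb)
    (h : ∀ x ∈ L, x ∈ A ↔ x ∈ A') : ∃ n ∈ L.fixingSubgroup, n • A = A' := by
  classical
  haveI := zbar_smulCommClass
  haveI := zbar_isInvariant
  haveI := isGalois_rat
  haveI := isIntegral_rat
  letI : TopologicalSpace Zbar := ⊥
  haveI : DiscreteTopology Zbar := ⟨rfl⟩
  haveI : ContinuousSMul GQ Zbar := by
    rw [continuousSMul_iff_stabilizer_isOpen]
    intro x
    convert stabilizer_isOpen_of_isIntegral (K := ℚ) (L := Qb) x.1 using 1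
    ext σ
    simp only [SetLike.mem_coe, MulAction.mem_stabilizer_iff]
    constructor
    · intro h
      exact congrArg Subtype.val h
    · intro h
      exact Subtype.ext h
  set J : Subgroup GQ := L.fixingSubgroup with hJdef
  have hJ : IsClosed (J : Set GQ) := InfiniteGalois.fixingSubgroup_isClosed L
  haveI : CompactSpace J := isCompact_iff_compactSpace.mp hJ.isCompact
  let O := FixedPoints.subalgebra ℤ Zbar J
  haveI : Algebra.IsInvariant O Zbar J := ⟨fun x h ↦ ⟨⟨x, h⟩, rfl⟩⟩
  haveI : SMulCommClass J O Zbar := ⟨fun j o z ↦ by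
    show j • ((o : Zbar) * z) = (o : Zbar) * j • z
    rw [smul_mul', o.2 j]⟩
  have hOL : ∀ x : Zbar, x ∈ O → (x : Qb) ∈ L := by
    intro x hx
    rw [← InfiniteGalois.fixedField_fixingSubgroup L, IntermediateField.mem_fixedField_iff]
    intro j hj
    exact congrArg Subtype.val (hx ⟨j, hj⟩)
  have hunder : (primeOf A).under O = (primeOf A').under O := by
    ext x
    simp only [Ideal.under_def, Ideal.mem_comap]
    show (x : Zbar) ∈ primeOf A ↔ (x : Zbar) ∈ primeOf A'
    rw [mem_primeOf, mem_primeOf, mem_nonunits_iff_eq_zero_or_inv_not_mem,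
      mem_nonunits_iff_eq_zero_or_inv_not_mem, h _ (L.inv_mem (hOL x.1 x.2))]
  obtain ⟨g, hg⟩ := Algebra.IsInvariant.exists_smul_of_under_eq_of_profinite (A := O) (G := J)
    (primeOf A) (primeOf A') hunder
  refine ⟨(g : GQ), g.2, ?_⟩
  apply eq_of_forall_integral_mem_nonunits_iff
  intro b hb
  rw [mem_nonunits_smul_iff]
  have h1 : (⟨b, hb⟩ : Zbar) ∈ primeOf A' ↔ (g : GQ)⁻¹ • (⟨b, hb⟩ : Zbar) ∈ primeOf A := by
    rw [hg]
    exact Ideal.mem_pointwise_smul_iff_inv_smul_mem
  rw [mem_primeOf, mem_primeOf] at h1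
  exact h1.symm

/-- integers prime to `q` are units at a place over `q` -/
theorem valuation_intCast_eq_one {q : ℕ} (hq : q.Prime) {A : ValuationSubring Qb}
    (hA : A.LiesOverPrime q) (m : ℤ) (hm : ¬ (q : ℤ) ∣ m) : A.valuation (m : Qb) = 1 := by
  have hcop : IsCoprime (q : ℤ) m :=
    (Prime.coprime_iff_not_dvd (Nat.prime_iff_prime_int.1 hq)).2 hm
  obtain ⟨a, b, hab⟩ := hcop
  have h1 : (q : Qb) ∈ A.nonunits := hA
  rw [ValuationSubring.mem_nonunits_iff] at h1
  have ha : A.valuation (a : Qb) ≤ 1 := (A.valuation_le_one_iff _).2 (intCast_mem A a)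
  have hb : A.valuation (b : Qb) ≤ 1 := (A.valuation_le_one_iff _).2 (intCast_mem A b)
  have hm1 : A.valuation (m : Qb) ≤ 1 := (A.valuation_le_one_iff _).2 (intCast_mem A m)
  by_contra hne
  have hlt : A.valuation (m : Qb) < 1 := lt_of_le_of_ne hm1 hne
  have h3 : A.valuation ((a : Qb) * q) < 1 := by
    rw [map_mul]; exact lt_of_le_of_lt (mul_le_of_le_one_left' ha) h1
  have h4 : A.valuation ((b : Qb) * m) < 1 := by
    rw [map_mul]; exact lt_of_le_of_lt (mul_le_of_le_one_left' hb) hlt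
  have h5 : A.valuation ((a : Qb) * q + (b : Qb) * m) < 1 :=
    lt_of_le_of_lt (A.valuation.map_add _ _) (max_lt h3 h4)
  have h6 : ((a : Qb) * q + (b : Qb) * m) = 1 := by exact_mod_cast congrArg (Int.cast : ℤ → Qb) hab
  rw [h6, map_one] at h5
  exact lt_irrefl _ h5

theorem valuation_intCast_lt_one {q : ℕ} {A : ValuationSubring Qb}
    (hA : A.LiesOverPrime q) (m : ℤ) (hm : (q : ℤ) ∣ m) : A.valuation (m : Qb) < 1 := by
  obtain ⟨k, rfl⟩ := hm
  have h1 : (q : Qb) ∈ A.nonunits := hA
  rw [ValuationSubring.mem_nonunits_iff] at h1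
  have hk : A.valuation (k : Qb) ≤ 1 := (A.valuation_le_one_iff _).2 (intCast_mem A k)
  push_cast
  rw [map_mul]
  exact lt_of_le_of_lt (mul_le_of_le_one_right' hk) h1

/-- the trace on `ℚ` of a place over `q` -/
theorem ratCast_mem_iff {q : ℕ} (hq : q.Prime) {A : ValuationSubring Qb}
    (hA : A.LiesOverPrime q) (r : ℚ) : (r : Qb) ∈ A ↔ ¬ (q : ℤ) ∣ (r.den : ℤ) := by
  have hr : (r : Qb) = (r.num : Qb) / ((r.den : ℤ) : Qb) := by
    conv_lhs => rw [← Rat.num_div_den r]
    push_cast
    rfl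
  rw [← ValuationSubring.valuation_le_one_iff, hr, map_div₀]
  constructor
  · intro h hdvd
    have hden := valuation_intCast_lt_one hA _ hdvd
    have hnum : A.valuation (r.num : Qb) = 1 := by
      apply valuation_intCast_eq_one hq hA
      intro hn
      have h1 : (q : ℤ) ∣ Int.gcd r.num r.den := Int.dvd_coe_gcd hn hdvd
      have h2 : Int.gcd r.num r.den = 1 := r.reduced
      rw [h2] at h1
      have h3 : q ∣ 1 := by exact_mod_cast h1
      exact hq.one_lt.ne' (Nat.dvd_one.1 h3)
    rw [hnum] at h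
    have hd0 : A.valuation (((r.den : ℤ) : Qb)) ≠ 0 := by
      rw [A.valuation.ne_zero_iff]
      exact_mod_cast r.den_ne_zero
    rw [div_le_iff₀ (zero_lt_iff.2 hd0), one_mul] at h
    exact absurd hden (not_lt.2 h)
  · intro hnd
    rw [valuation_intCast_eq_one hq hA _ hnd, div_one]
    exact (A.valuation_le_one_iff _).2 (intCast_mem A _)

/-- the places over `q` form one orbit -/
theorem exists_smul_eq_of_liesOver (q : ℕ) (hq : q.Prime) (A A' : ValuationSubring Qb)
    (hA : A.LiesOverPrime q) (hA' : A'.LiesOverPrime q) : ∃ g : GQ, g • A = A' := by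
  obtain ⟨n, -, hn⟩ := exists_smul_eq_of_forall_mem_iff ⊥ A A' (by
    intro x hx
    obtain ⟨r, rfl⟩ := IntermediateField.mem_bot.1 hx
    have h1 : algebraMap ℚ Qb r = (r : Qb) := (eq_ratCast (algebraMap ℚ Qb) r)
    rw [h1, ratCast_mem_iff hq hA, ratCast_mem_iff hq hA'])
  exact ⟨n, hn⟩

theorem PlOff.exists_smul_eq {S : Finset Nat.Primes} (A A' : PlOff S) (h : A.char = A'.char) :
    ∃ g : GQ, g • A = A' := by
  obtain ⟨g, hg⟩ := exists_smul_eq_of_liesOver (A.char : ℕ) A.char.2 A.1 A'.1 A.liesOver_char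
    (h ▸ A'.liesOver_char)
  exact ⟨g, Subtype.ext hg⟩

end Conj

end Fermat.Agent.S55.Units
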