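/-
S55 / block UNITS, layer A (arithmetic in `ℚ̄`), section `Roots`:
`p`-power roots of `S`-units (and of elements whose divisor outside `S` is divisible) stay in `ℚ_S`.
-/
import Fermat.Agent.S55.Units.QS
import Fermat.Agent.S55.Units.Ord

set_option autoImplicit false

open scoped Pointwise

namespace Fermat.Agent.S55.Units

/-! ## Section Roots : file `Units/Roots.lean`  (U1 and Kummer capitulation input) -/
section Roots

/-- An element of the inertia group at `A` is congruent to the identity on `A`. -/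
private theorem sub_mem_nonunits_of_inertia {A : ValuationSubring Qb} {τ : GQ}
    (h : τ ∈ A.inertiaSubgroupIn ℚ) {x : Qb} (hx : x ∈ A) : τ x - x ∈ A.nonunits := by
  obtain ⟨⟨τ', hdec⟩, hτ, rfl⟩ := h
  have h0 : MulSemiringAction.toRingAut (A.decompositionSubgroup ℚ)
      (IsLocalRing.ResidueField A) ⟨τ', hdec⟩ = 1 := hτ
  have h1 : (⟨τ', hdec⟩ : A.decompositionSubgroup ℚ) • IsLocalRing.residue A ⟨x, hx⟩
      = IsLocalRing.residue A ⟨x, hx⟩ := by
    have := congrArg (fun f => f (IsLocalRing.residue A ⟨x, hx⟩)) h0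
    exact this
  rw [← IsLocalRing.ResidueField.residue_smul, ← sub_eq_zero, ← map_sub,
    IsLocalRing.residue_eq_zero_iff, A.valuation_lt_one_iff] at h1
  rw [A.mem_nonunits_iff]
  exact h1

private theorem val_le_one_of_sub_one {A : ValuationSubring Qb} {ζ : Qb}
    (h1 : A.valuation (ζ - 1) < 1) : A.valuation ζ ≤ 1 := by
  have : ζ = (ζ - 1) + 1 := by ring
  rw [this]
  refine (A.valuation.map_add _ _).trans (max_le h1.le ?_)
  rw [map_one]

private theorem val_pow_sub_one {A : ValuationSubring Qb} {ζ : Qb}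
    (h1 : A.valuation (ζ - 1) < 1) (i : ℕ) : A.valuation (ζ ^ i - 1) < 1 := by
  have hζ := val_le_one_of_sub_one h1
  rw [← geom_sum_mul, map_mul]
  have hs : A.valuation (∑ l ∈ Finset.range i, ζ ^ l) ≤ 1 := by
    refine A.valuation.map_sum_le (fun l _ => ?_)
    rw [map_pow]
    exact pow_le_one' hζ l
  exact lt_of_le_of_lt (mul_le_of_le_one_left' hs) h1

/-- the case `n = 1` -/
private theorem eq_one_of_pow_prime (p : ℕ) (hp : p.Prime) (q : ℕ) (hq : q.Prime) (hqp : q ≠ p)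
    (A : ValuationSubring Qb) (hA : A.LiesOverPrime q) (ζ : Qb) (hζ : ζ ^ p = 1)
    (h1 : A.valuation (ζ - 1) < 1) : ζ = 1 := by
  by_contra hne
  have hsum : ∑ l ∈ Finset.range p, ζ ^ l = 0 := by
    have h := geom_sum_mul ζ p
    rw [hζ, sub_self] at h
    exact (mul_eq_zero.1 h).resolve_right (sub_ne_zero.2 hne)
  have hpe : (p : Qb) = ∑ l ∈ Finset.range p, (1 - ζ ^ l) := by
    rw [Finset.sum_sub_distrib, hsum, sub_zero]
    simp
  have hlt : A.valuation (p : Qb) < 1 := by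
    rw [hpe]
    refine A.valuation.map_sum_lt one_ne_zero (fun l _ => ?_)
    rw [← neg_sub, Valuation.map_neg]
    exact val_pow_sub_one h1 l
  have hAp : A.LiesOverPrime p := (A.mem_nonunits_iff).2 hlt
  exact hqp (liesOverPrime_unique hq hp hA hAp)

/-- a `p`-power root of unity congruent to `1` modulo a place not over `p` is `1` -/
theorem eq_one_of_pow_eq_one_of_sub_mem (p : ℕ) (hp : p.Prime) (q : ℕ) (hq : q.Prime) (hqp : q ≠ p)
    (A : ValuationSubring Qb) (hA : A.LiesOverPrime q) (n : ℕ) (ζ : Qb) (hζ : ζ ^ p ^ n = 1)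
    (h1 : ζ - 1 ∈ A.nonunits) : ζ = 1 := by
  rw [A.mem_nonunits_iff] at h1
  induction n generalizing ζ with
  | zero => simpa using hζ
  | succ n ih =>
    have h2 : ζ ^ p = 1 := by
      refine ih (ζ ^ p) ?_ (val_pow_sub_one h1 p)
      rw [← pow_mul, ← pow_succ']
      exact hζ
    exact eq_one_of_pow_prime p hp q hq hqp A hA ζ h2 h1

/-- inertia at `q ≠ p` fixes `y` as soon as it fixes `y ^ p ^ n` and `v_A(y) ∈ v_A(q)^ℤ` -/
theorem inertia_fixes_of_pow (p : ℕ) (hp : p.Prime) (q : ℕ) (hq : q.Prime) (hqp : q ≠ p)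
    (A : ValuationSubring Qb) (hA : A.LiesOverPrime q) (n : ℕ) (y : Qb) (k : ℤ)
    (hy : HasOrd A q y k) (σ : GQ) (hσ : σ ∈ A.inertiaSubgroupIn ℚ)
    (hfix : σ (y ^ p ^ n) = y ^ p ^ n) : σ y = y := by
  by_cases hy0 : y = 0
  · rw [hy0, map_zero]
  have hq0 : (q : Qb) ≠ 0 := Nat.cast_ne_zero.2 hq.ne_zero
  have hqk : (q : Qb) ^ k ≠ 0 := zpow_ne_zero _ hq0
  set u : Qb := y / (q : Qb) ^ k with hu
  have hu0 : u ≠ 0 := div_ne_zero hy0 hqk
  have hvu : A.valuation u = 1 := by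
    rw [hu, map_div₀, map_zpow₀, hy]
    exact div_self (zpow_ne_zero _ ((map_ne_zero _).2 hq0))
  have huA : u ∈ A := (A.valuation_le_one_iff u).1 hvu.le
  have h1 := sub_mem_nonunits_of_inertia hσ huA
  rw [A.mem_nonunits_iff] at h1
  have hσu : σ u = σ y / (q : Qb) ^ k := by
    rw [hu, map_div₀, map_zpow₀, map_natCast]
  have hζ1 : σ y / y - 1 = (σ u - u) / u := by
    rw [hσu, hu]
    field_simp
  have hone : σ y / y = 1 := by
    refine eq_one_of_pow_eq_one_of_sub_mem p hp q hq hqp A hA n (σ y / y) ?_ ?_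
    · rw [div_pow, ← map_pow, hfix]
      exact div_self (pow_ne_zero _ hy0)
    · rw [A.mem_nonunits_iff, hζ1, map_div₀, hvu, div_one]
      exact h1
  exact (div_eq_one_iff_eq hy0).1 hone

theorem inQS_of_pow {S : Finset Nat.Primes} (p : Nat.Primes) (hpS : p ∈ S) (n : ℕ) (y : Qb)
    (h : InQS S (y ^ (p : ℕ) ^ n))
    (hord : ∀ A : PlOff S, ∃ k : ℤ, HasOrd A.1 (A.char : ℕ) y k) : InQS S y := by
  rw [inQS_iff] at h ⊢
  intro A hA σ hσ
  obtain ⟨k, hk⟩ := hord ⟨A, hA⟩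
  have hne : ((PlOff.char ⟨A, hA⟩ : Nat.Primes) : ℕ) ≠ (p : ℕ) := by
    intro he
    have : PlOff.char ⟨A, hA⟩ = p := Subtype.ext he
    exact PlOff.char_not_mem ⟨A, hA⟩ (this ▸ hpS)
  exact inertia_fixes_of_pow p p.2 _ (PlOff.char ⟨A, hA⟩).2 hne A (PlOff.liesOver_char ⟨A, hA⟩) n y k
    hk σ hσ (h A hA σ hσ)

/-- **U1** : `p`-th roots of `S`-units are `S`-units (`p ∈ S`). -/
theorem isSUnit_of_pow {S : Finset Nat.Primes} (p : Nat.Primes) (hpS : p ∈ S) (y : Qb)
    (h : IsSUnit S (y ^ (p : ℕ))) : IsSUnit S y := by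
  have hval : ∀ A : ValuationSubring Qb, OffS S A → A.valuation y = 1 := by
    intro A hA
    have h1 := h.2 A hA
    rw [map_pow] at h1
    exact (pow_eq_one_iff.1 h1).resolve_right p.2.ne_zero
  refine ⟨inQS_of_pow p hpS 1 y (by rw [pow_one]; exact h.1) (fun A => ⟨0, ?_⟩), hval⟩
  rw [HasOrd, zpow_zero]
  exact hval A.1 A.2

/-- `p`-th roots of unity are `S`-units -/
theorem isSUnit_of_pow_eq_one {S : Finset Nat.Primes} (p : Nat.Primes) (hpS : p ∈ S) (ζ : Qb)
    (h : ζ ^ (p : ℕ) = 1) : IsSUnit S ζ :=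
  isSUnit_of_pow p hpS ζ (h ▸ isSUnit_one)

end Roots

end Fermat.Agent.S55.Units
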