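/-
S55 / block UNITS, layer A (arithmetic in `ℚ̄`), section `ClassNumber`:
a multiple of every divisor of `ℚ_S` is principal; a prime-to-`p` multiple is principal in `ℚ_S`.
-/
import Fermat.Agent.S55.Units.Below
import Fermat.Agent.S55.Units.Conj
import Fermat.Agent.S55.Units.Roots
import Fermat.Agent.S55.NIT.FI.PrimePow

set_option autoImplicit false
set_option linter.style.haveILetI false

open scoped Pointwise

namespace Fermat.Agent.S55.Units

/-! ## Section ClassNumber : file `Units/ClassNumber.lean` -/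
section ClassNumber

open NumberField IsDedekindDomain

/-- finiteness of the class number, for a number field: a positive multiple of every divisor is
principal. -/
theorem exists_principal_multiple (K : Type*) [Field K] [NumberField K]
    (V : Finset (HeightOneSpectrum (𝓞 K))) (e : HeightOneSpectrum (𝓞 K) → ℤ) :
    ∃ h : ℕ, 0 < h ∧ ∃ α : Kˣ,
      (∀ v ∈ V, v.valuation K (α : K) = WithZero.exp (-((h : ℤ) * e v))) ∧
      ∀ v ∉ V, v.valuation K (α : K) = 1 := by
  classical
  induction V using Finset.induction_on with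
  | empty => exact ⟨1, one_pos, 1, by simp, by simp⟩
  | insert w V hw ih =>
    obtain ⟨h, hpos, α, h1, h2⟩ := ih
    obtain ⟨c, hc, hcpos, hc1, hc2⟩ := Fermat.Agent.S55.NIT.FI.exists_generator_pow K w
    refine ⟨h * hc, Nat.mul_pos hpos hcpos, α ^ hc * c ^ ((h : ℤ) * e w), ?_, ?_⟩
    · intro v hv
      rcases Finset.mem_insert.1 hv with rfl | hv
      · rw [Units.val_mul, map_mul, Units.val_pow_eq_pow_val, map_pow, h2 v hw, one_pow, one_mul,
          Units.val_zpow_eq_zpow_val, map_zpow₀, hc1, ← WithZero.exp_zsmul]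
        congr 1
        push_cast
        simp only [smul_eq_mul]
        ring
      · have hne : v ≠ w := fun h => hw (h ▸ hv)
        rw [Units.val_mul, map_mul, Units.val_pow_eq_pow_val, map_pow, h1 v hv,
          Units.val_zpow_eq_zpow_val, map_zpow₀, hc2 v hne, one_zpow, mul_one,
          ← WithZero.exp_nsmul]
        congr 1
        push_cast
        rw [nsmul_eq_mul]
        ring
    · intro v hv
      have hne : v ≠ w := fun h => hv (h ▸ Finset.mem_insert_self _ _)
      rw [Units.val_mul, map_mul, Units.val_pow_eq_pow_val, map_pow,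
        h2 v (fun h => hv (Finset.mem_insert_of_mem h)), one_pow, one_mul,
        Units.val_zpow_eq_zpow_val, map_zpow₀, hc2 v hne, one_zpow]

/-- finiteness of the class number: a multiple of every divisor is principal -/
theorem exists_pos_mul_eq_ord {S : Finset Nat.Primes} (φ : DivMod S) :
    ∃ h : ℕ, 0 < h ∧ ∃ α : Qb, α ≠ 0 ∧ InQS S α ∧ ∀ A : PlOff S, A.ord α = h * φ A := by
  classical
  obtain ⟨⟨F, hF, -, hinv⟩, ⟨T, hT⟩⟩ := φ.2
  haveI := hF.1
  haveI : NumberField F := ⟨⟩
  let V : Finset (HeightOneSpectrum (𝓞 F)) := (finite_primes_over F T).toFinset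
  let P : HeightOneSpectrum (𝓞 F) → PlOff S → Prop :=
    fun v A => ∀ x : F, v.valuation F x ≤ 1 ↔ (x : Qb) ∈ A.1
  let e : HeightOneSpectrum (𝓞 F) → ℤ := fun v => if h : ∃ A, P v A then φ.1 h.choose else 0
  have he : ∀ v A, P v A → e v = φ.1 A := by
    intro v A hA
    have hex : ∃ A, P v A := ⟨A, hA⟩
    have h1 : e v = φ.1 hex.choose := dif_pos hex
    have h2 : P v hex.choose := hex.choose_spec
    obtain ⟨n, hn, hnA⟩ := exists_smul_eq_of_forall_mem_iff F A.1 hex.choose.1 (by
      intro x hx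
      rw [← hA ⟨x, hx⟩, ← h2 ⟨x, hx⟩])
    have h3 : n • A = hex.choose := Subtype.ext hnA
    rw [h1, ← h3, hinv n hn A]
  obtain ⟨h, hpos, α, h1, h2⟩ := exists_principal_multiple F V e
  refine ⟨h, hpos, ((α : F) : Qb), ?_, ⟨F, hF, (α : F).2⟩, ?_⟩
  · have : (α : F) ≠ 0 := α.ne_zero
    simp
  · intro A
    obtain ⟨v, hqv, hv⟩ := exists_below F A.1 (A.char : ℕ) A.char.2 A.liesOver_char
    apply PlOff.ord_eq
    rw [hasOrd_iff_valuation_eq F A.1 (A.char : ℕ) A.char.2 A.liesOver_char
      (hF.2 A.char A.char_not_mem A.1 A.liesOver_char) v hv]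
    by_cases hvV : v ∈ V
    · rw [h1 v hvV, he v A hv]
    · have hchar : A.char ∉ T := by
        intro hmem
        apply hvV
        rw [Set.Finite.mem_toFinset]
        exact ⟨A.char, hmem, hqv⟩
      rw [h2 v hvV]
      have : φ A = 0 := hT A hchar
      rw [this]
      simp

/-- **capitulation of the `p`-part** (I2): a prime-to-`p` multiple of every divisor of `ℚ_S`
is principal in `ℚ_S`. -/
theorem exists_coprime_mul_eq_ord {S : Finset Nat.Primes} (p : Nat.Primes) (hpS : p ∈ S)
    (φ : DivMod S) :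
    ∃ m : ℕ, m.Coprime p ∧ ∃ β : Qb, β ≠ 0 ∧ InQS S β ∧ ∀ A : PlOff S, A.ord β = m * φ A := by
  obtain ⟨h, hpos, α, hα0, hα, hord⟩ := exists_pos_mul_eq_ord φ
  obtain ⟨a, m, hm, rfl⟩ := Nat.exists_eq_pow_mul_and_not_dvd hpos.ne' (p : ℕ) p.2.ne_one
  obtain ⟨β, hβ⟩ := IsAlgClosed.exists_pow_nat_eq α (pow_pos p.2.pos a)
  have hβ0 : β ≠ 0 := by
    rintro rfl
    rw [zero_pow (pow_pos p.2.pos a).ne'] at hβ
    exact hα0 hβ.symm
  have key : ∀ A : PlOff S, HasOrd A.1 (A.char : ℕ) β (m * φ A) := by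
    intro A
    apply HasOrd.of_pow (pow_pos p.2.pos a)
    rw [hβ]
    have := PlOff.hasOrd_ord A hα0 hα
    rw [hord A] at this
    convert this using 1
    push_cast
    ring
  refine ⟨m, ((Nat.Prime.coprime_iff_not_dvd p.2).2 hm).symm, β, hβ0, ?_, fun A => PlOff.ord_eq (key A)⟩
  exact inQS_of_pow p hpS a β (hβ ▸ hα) (fun A => ⟨_, key A⟩)

end ClassNumber

end Fermat.Agent.S55.Units
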