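/-
S55 / block UNITS, layer A (arithmetic in `ℚ̄`): section `Supp` (owner helper193).
An algebraic number is a unit at almost all places; the divisor of an element of `ℚ_Sˣ`.
-/
import Fermat.Agent.S55.Units.QS
import Fermat.Agent.S55.Units.Ord

set_option autoImplicit false

open scoped Pointwise

namespace Fermat.Agent.S55.Units

/-! ## Section Supp : file `Units/Supp.lean` -/
section Supp

/-- elements integral over `ℤ` lie in every valuation subring -/
private theorem mem_of_isIntegral_int (A : ValuationSubring Qb) {y : Qb} (hy : IsIntegral ℤ y) :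
    y ∈ A := by
  have h1 : IsIntegral A y := hy.tower_top
  obtain ⟨z, hz⟩ := (IsIntegrallyClosed.isIntegral_iff (R := A) (K := Qb)).1 h1
  rw [← hz]
  exact z.2

/-- an integer prime to the residue characteristic is a unit -/
private theorem valuation_intCast_eq_one' (A : ValuationSubring Qb) {q : ℕ} (hq : q.Prime)
    (hA : A.LiesOverPrime q) {n : ℤ} (hn : ¬ (q : ℤ) ∣ n) : A.valuation (n : Qb) = 1 := by
  have hle : ∀ m : ℤ, A.valuation (m : Qb) ≤ 1 := fun m =>
    (A.valuation_le_one_iff _).2 (intCast_mem A m)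
  have hcop : IsCoprime (q : ℤ) n :=
    ((Nat.prime_iff_prime_int.mp hq).coprime_iff_not_dvd).mpr hn
  obtain ⟨a, b, hab⟩ := hcop
  have hab' : (a : Qb) * (q : Qb) + (b : Qb) * (n : Qb) = 1 := by
    exact_mod_cast congrArg (Int.cast : ℤ → Qb) hab
  by_contra hne
  have hlt : A.valuation (n : Qb) < 1 := lt_of_le_of_ne (hle n) hne
  have hq' : A.valuation (q : Qb) < 1 := A.mem_nonunits_iff.mp hA
  have h1 : A.valuation ((a : Qb) * (q : Qb)) < 1 := by
    rw [map_mul]; exact lt_of_le_of_lt (mul_le_of_le_one_left' (hle a)) hq'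
  have h2 : A.valuation ((b : Qb) * (n : Qb)) < 1 := by
    rw [map_mul]; exact lt_of_le_of_lt (mul_le_of_le_one_left' (hle b)) hlt
  have h3 := Valuation.map_add_lt _ h1 h2
  rw [hab', map_one] at h3
  exact lt_irrefl _ h3

/-- an algebraic number is integral at almost all places -/
private theorem exists_finset_valuation_le_one (y : Qb) :
    ∃ T : Finset Nat.Primes, ∀ q : Nat.Primes, q ∉ T → ∀ A : ValuationSubring Qb,
      A.LiesOverPrime (q : ℕ) → A.valuation y ≤ 1 := by
  have halg : IsAlgebraic ℤ y :=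
    (IsFractionRing.isAlgebraic_iff ℤ ℚ Qb).2 ((AlgebraicClosure.isAlgebraic ℚ).isAlgebraic y)
  obtain ⟨N, hN0, hN⟩ := halg.exists_integral_multiple
  refine ⟨(N.natAbs.primeFactors).subtype Nat.Prime, fun q hq A hA => ?_⟩
  have hqN : ¬ ((q : ℕ) : ℤ) ∣ N := by
    intro hdvd
    apply hq
    exact (Finset.mem_subtype (s := N.natAbs.primeFactors) (p := Nat.Prime) (a := q)).2
      (Nat.mem_primeFactors.2 ⟨q.2, Int.natCast_dvd.1 hdvd, Int.natAbs_ne_zero.2 hN0⟩)
  have h1 : A.valuation (N : Qb) = 1 := valuation_intCast_eq_one' A q.2 hA hqN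
  have h2 : A.valuation (N • y) ≤ 1 := (A.valuation_le_one_iff _).2 (mem_of_isIntegral_int A hN)
  rwa [zsmul_eq_mul, map_mul, h1, one_mul] at h2

/-- an algebraic number is a unit at almost all places -/
theorem exists_finset_valuation_eq_one (x : Qb) (hx : x ≠ 0) :
    ∃ T : Finset Nat.Primes, ∀ q : Nat.Primes, q ∉ T → ∀ A : ValuationSubring Qb,
      A.LiesOverPrime (q : ℕ) → A.valuation x = 1 := by
  classical
  obtain ⟨T, hT⟩ := exists_finset_valuation_le_one x
  obtain ⟨T', hT'⟩ := exists_finset_valuation_le_one x⁻¹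
  refine ⟨T ∪ T', fun q hq A hA => ?_⟩
  have h1 := hT q (fun h => hq (Finset.mem_union_left _ h)) A hA
  have h2 := hT' q (fun h => hq (Finset.mem_union_right _ h)) A hA
  have h0 : A.valuation x ≠ 0 := (Valuation.ne_zero_iff _).2 hx
  rw [map_inv₀] at h2
  exact le_antisymm h1 ((inv_le_one₀ (zero_lt_iff.2 h0)).1 h2)

/-- the divisor of an element of `ℚ_Sˣ` -/
theorem ord_mem_divSub {S : Finset Nat.Primes} (x : Qb) (hx : x ≠ 0) (h : InQS S x) :
    (fun A : PlOff S => A.ord x) ∈ divSub S := by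
  obtain ⟨F, hF, hn, hxF⟩ := h.exists_normal
  obtain ⟨T, hT⟩ := exists_finset_valuation_eq_one x hx
  refine ⟨⟨F, hF, hn, fun n hnF A => ?_⟩, ⟨T, fun A hA => ?_⟩⟩
  · have hnx : n x = x := (IntermediateField.mem_fixingSubgroup_iff F n).1 hnF x hxF
    show (n • A).ord x = A.ord x
    conv_lhs => rw [← hnx]
    exact PlOff.ord_smul n A x
  · exact PlOff.ord_eq ((hasOrd_zero_iff _ _ _).2 (hT A.char hA A.1 A.liesOver_char))

end Supp

end Fermat.Agent.S55.Units
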