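/-
S55 / block UNITS, layer A (arithmetic in `ℚ̄`): section `Mods`
(dictionary with the modules of `Arith/Defs.lean`, the divisor map).
-/
import Fermat.Agent.S55.Units.ClassNumber
import Fermat.Agent.S55.Units.Supp
import Fermat.Agent.S55.Bridge.Fields
import Fermat.Agent.Lib.Frobenius

set_option autoImplicit false

open scoped Pointwise

namespace Fermat.Agent.S55.Units

/-! ## Section Mods : file `Units/Mods.lean` (dictionary with the modules of `Arith/Defs.lean`) -/
section Mods

variable {S : Finset Nat.Primes}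

private theorem mods_mem_of_fixed (F : IntermediateField ℚ Qb) (x : Qb)
    (h : ∀ n ∈ F.fixingSubgroup, n x = x) : x ∈ F := by
  have : IsGalois ℚ Qb := Fermat.Agent.Lib.Frobenius.isGalois_rat
  rw [← InfiniteGalois.fixedField_fixingSubgroup F]
  exact fun n => h n.1 n.2

private theorem mods_isStableField_of_normal (F : IntermediateField ℚ Qb)
    (hn : F.fixingSubgroup.Normal) : IsStableField F := by
  intro g x hx
  apply mods_mem_of_fixed
  intro n hnF
  have h1 : g⁻¹ * n * g⁻¹⁻¹ ∈ F.fixingSubgroup := hn.conj_mem n hnF g⁻¹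
  rw [IntermediateField.mem_fixingSubgroup_iff] at h1
  have h2 := h1 x hx
  have h3 : g ((g⁻¹ * n * g⁻¹⁻¹) x) = n (g x) := by
    rw [inv_inv]
    change g (g.symm (n (g x))) = n (g x)
    exact g.apply_symm_apply _
  rw [← h3, h2]

private theorem mods_val_injective : Function.Injective Kx.val := by
  intro x y h
  exact Additive.toMul.injective (Units.ext h)

private theorem mods_val_ne_zero (x : Kx) : x.val ≠ 0 := (Additive.toMul x : Qbˣ).ne_zero

theorem mem_LSsub_iff (x : Kx) : x ∈ (LSsub S).toAddSubgroup ↔ InQS S x.val := by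
  constructor
  · rintro ⟨_, ⟨F, hF, _, rfl⟩, h⟩
    refine ⟨F, hF, mods_mem_of_fixed F _ fun n hn => ?_⟩
    rw [← Kx.val_smul, h n hn]
  · intro h
    obtain ⟨F, hF, hn, hx⟩ := h.exists_normal
    refine ⟨_, ⟨F, hF, mods_isStableField_of_normal F hn, rfl⟩, fun n hnF => ?_⟩
    apply mods_val_injective
    rw [Kx.val_smul]
    exact (IntermediateField.mem_fixingSubgroup_iff _ _).1 hnF _ hx

private theorem mods_isUnitAt_iff (A : ValuationSubring Qb) (x : Kx) :
    x.IsUnitAt A ↔ A.valuation x.val = 1 := by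
  unfold Kx.IsUnitAt
  rw [← A.valuation_le_one_iff, ← A.valuation_le_one_iff, map_inv₀,
    inv_le_one₀ (zero_lt_iff.2 ((map_ne_zero _).2 (mods_val_ne_zero x)))]
  exact ⟨fun h => le_antisymm h.1 h.2, fun h => ⟨h.le, h.ge⟩⟩

theorem mem_ESsub_iff (x : Kx) : x ∈ (ESsub S).toAddSubgroup ↔ IsSUnit S x.val := by
  constructor
  · rintro ⟨h1, h2⟩
    refine ⟨(mem_LSsub_iff x).1 h1, ?_⟩
    rintro A ⟨q, hq, hA⟩
    exact (mods_isUnitAt_iff A x).1 (h2 q hq A hA)
  · rintro ⟨h1, h2⟩
    exact ⟨(mem_LSsub_iff x).2 h1, fun q hq A hA => (mods_isUnitAt_iff A x).2 (h2 A ⟨q, hq, hA⟩)⟩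

theorem mem_muSub_iff (m : ℕ) (x : Kx) : x ∈ (muSub m).toAddSubgroup ↔ x.val ^ m = 1 := by
  change m • x = 0 ↔ _
  constructor
  · intro h
    have h1 : (Additive.toMul x : Qbˣ) ^ m = 1 := by
      have := congrArg Additive.toMul h
      simpa using this
    have h2 := congrArg (fun u : Qbˣ => (u : Qb)) h1
    simpa [Kx.val] using h2
  · intro h
    have h1 : (Additive.toMul x : Qbˣ) ^ m = 1 := Units.ext (by simpa [Kx.val] using h)
    apply Additive.toMul.injective
    simpa using h1

instance instSmoothDivMod : Smooth (lvlS S) (DivMod S) where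
  exists_fix := by
    intro φ
    obtain ⟨⟨F, hF, hn, h⟩, _⟩ := φ.2
    refine ⟨_, ⟨F, hF, mods_isStableField_of_normal F hn, rfl⟩, fun n hnF => ?_⟩
    ext A
    rw [DivMod.smul_apply]
    exact h n⁻¹ (inv_mem hnF) A

instance instSmoothKx : Smooth lvlAll Kx where
  exists_fix := by
    intro x
    have hgal : IsGalois ℚ Qb := Fermat.Agent.Lib.Frobenius.isGalois_rat
    have hint : IsIntegral ℚ x.val := IsGalois.integral ℚ x.val
    obtain ⟨F, hle, hfd, hnor⟩ := Bridge.exists_normal_finiteDimensional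
      (IntermediateField.adjoin ℚ {x.val}) (IntermediateField.adjoin.finiteDimensional hint)
    refine ⟨_, ⟨F, hfd, mods_isStableField_of_normal F (Bridge.fixingSubgroup_normal F), rfl⟩,
      fun n hnF => ?_⟩
    apply mods_val_injective
    rw [Kx.val_smul]
    exact (IntermediateField.mem_fixingSubgroup_iff _ _).1 hnF _
      (hle (IntermediateField.mem_adjoin_simple_self ℚ _))

private theorem mods_inQS (x : LSx S) : InQS S ((LSsub S).incl x).val :=
  (mem_LSsub_iff _).1 ((LSsub S).incl_mem x)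

private theorem mods_char_ne_zero (A : PlOff S) : (A.char : ℕ) ≠ 0 := A.char.2.ne_zero

/-- the divisor map `(ℚ_S)ˣ → I_S` -/
theorem exists_valG (S : Finset Nat.Primes) : ∃ v : LSx S →+[GQ] DivMod S,
    ∀ (x : LSx S) (A : PlOff S), v x A = A.ord ((LSsub S).incl x).val := by
  refine ⟨
    { toFun := fun x => ⟨fun A => A.ord ((LSsub S).incl x).val,
        ord_mem_divSub _ (mods_val_ne_zero _) (mods_inQS x)⟩
      map_smul' := ?_
      map_zero' := ?_
      map_add' := ?_ }, fun x A => rfl⟩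
  · intro g x
    ext A
    change A.ord ((LSsub S).incl (g • x)).val = (g⁻¹ • A).ord ((LSsub S).incl x).val
    rw [GSub.incl_smul, Kx.val_smul, ← PlOff.ord_smul g⁻¹ A]
    congr 1
    exact g.symm_apply_apply _
  · ext A
    change A.ord ((LSsub S).incl (0 : LSx S)).val = 0
    rw [map_zero, Kx.val_zero]
    exact PlOff.ord_eq (hasOrd_one _ _)
  · intro x y
    ext A
    change A.ord ((LSsub S).incl (x + y)).val =
      A.ord ((LSsub S).incl x).val + A.ord ((LSsub S).incl y).val
    rw [map_add, Kx.val_add]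
    exact PlOff.ord_eq ((A.hasOrd_ord (mods_val_ne_zero _) (mods_inQS x)).mul
      (A.hasOrd_ord (mods_val_ne_zero _) (mods_inQS y)) (mods_char_ne_zero A))

/-- the divisor map `(ℚ_S)ˣ → I_S` -/
noncomputable def valG (S : Finset Nat.Primes) : LSx S →+[GQ] DivMod S := (exists_valG S).choose

theorem valG_apply (x : LSx S) (A : PlOff S) : valG S x A = A.ord ((LSsub S).incl x).val :=
  (exists_valG S).choose_spec x A

/-- the kernel of the divisor map is the group of `S`-units -/
theorem valG_eq_zero_iff (x : LSx S) :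
    valG S x = 0 ↔ (LSsub S).incl x ∈ (ESsub S).toAddSubgroup := by
  rw [mem_ESsub_iff]
  constructor
  · intro h
    refine ⟨mods_inQS x, fun A hA => ?_⟩
    obtain ⟨B, rfl⟩ : ∃ B : PlOff S, B.1 = A := ⟨⟨A, hA⟩, rfl⟩
    have h1 : B.ord ((LSsub S).incl x).val = 0 := by
      rw [← valG_apply, h, DivMod.zero_apply]
    have h2 := B.hasOrd_ord (mods_val_ne_zero _) (mods_inQS x)
    rw [h1] at h2
    exact (hasOrd_zero_iff _ _ _).1 h2
  · rintro ⟨_, h⟩
    ext A
    rw [valG_apply, DivMod.zero_apply]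
    exact PlOff.ord_eq ((hasOrd_zero_iff _ _ _).2 (h A.1 A.2))

/-- (I2) in module form -/
theorem exists_coprime_smul_eq_valG (p : Nat.Primes) (hpS : p ∈ S) (φ : DivMod S) :
    ∃ m : ℕ, m.Coprime p ∧ ∃ β : LSx S, valG S β = m • φ := by
  obtain ⟨m, hm, β, hβ0, hβ, h⟩ := exists_coprime_mul_eq_ord p hpS φ
  refine ⟨m, hm, (LSsub S).mkMod (Additive.ofMul (Units.mk0 β hβ0)) ((mem_LSsub_iff _).2 hβ), ?_⟩
  ext A
  rw [valG_apply, GSub.incl_mkMod]
  change A.ord β = (m • φ.1) A
  rw [h A, Pi.smul_apply, nsmul_eq_mul]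

end Mods

end Fermat.Agent.S55.Units
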