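/-
S55 / block UNITS : the basic equivariant maps between `Mu p`, `ESx S`, `LSx S`, `Kx`, `DivMod S`,
the localisation map on `Hsm lvlAll`, and the map `H^n_S(LS_X) → H^n(K_X)`.  Definitions only.
-/
import Fermat.Agent.S55.Units.Mods
import Fermat.Agent.S55.Units.Roots
import Fermat.Agent.S55.Formal.Contract
import Fermat.Agent.S55.Coh.Theta
import Fermat.Agent.S55.Coh.ThetaRes
import Fermat.Agent.S55.Coh.IndApi
import Fermat.Agent.S55.Coh.ResApi
import Fermat.Agent.S55.Coh.Efface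
import Fermat.Agent.S55.Bridge.LocalImage

set_option autoImplicit false

namespace Fermat.Agent.S55.Units

/-- Multiplication by `m`, as an equivariant map. -/
def mulBy (G A : Type) [Group G] [AddCommGroup A] [DistribMulAction G A] (m : ℕ) : A →+[G] A where
  toFun a := m • a
  map_smul' g a := (smul_comm g m a).symm
  map_zero' := smul_zero m
  map_add' a b := smul_add m a b

@[simp] theorem mulBy_apply (G A : Type) [Group G] [AddCommGroup A] [DistribMulAction G A] (m : ℕ)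
    (a : A) : mulBy G A m a = m • a := rfl

variable (S : Finset Nat.Primes)

/-- `E_S ⊆ (ℚ_S)ˣ`. -/
noncomputable def incEL : ESx S →+[GQ] LSx S :=
  (LSsub S).codRestrict (ESsub S).inclG fun a => ((ESsub S).incl_mem a).1

/-- `(ℚ_S)ˣ ⊆ ℚ̄ˣ`. -/
noncomputable def incLK : LSx S →+[GQ] Kx := (LSsub S).inclG

/-- `E_S ⊆ ℚ̄ˣ`. -/
noncomputable def incEK : ESx S →+[GQ] Kx := (ESsub S).inclG

/-- `μ_m ⊆ ℚ̄ˣ`. -/
noncomputable def incMK (m : ℕ) : Mu m →+[GQ] Kx := (muSub m).inclG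

theorem incLK_incEL (a : ESx S) : incLK S (incEL S a) = incEK S a := rfl

theorem incEL_injective : Function.Injective (incEL S) := fun _ _ h =>
  (ESsub S).incl_injective (congrArg (LSsub S).incl h)

theorem incLK_injective : Function.Injective (incLK S) := (LSsub S).incl_injective

theorem incMK_injective (m : ℕ) : Function.Injective (incMK m) := (muSub m).incl_injective

variable {S} in
/-- `μ_p ⊆ E_S` when `p ∈ S`. -/
noncomputable def incME {p : ℕ} [Fact p.Prime] (hpS : ExtCitation.pPrime p ∈ S) :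
    Mu p →+[GQ] ESx S :=
  (ESsub S).codRestrict (muSub p).inclG fun a =>
    (mem_ESsub_iff _).2 (isSUnit_of_pow_eq_one (ExtCitation.pPrime p) hpS _
      ((mem_muSub_iff p _).1 ((muSub p).incl_mem a)))

variable {S} in
theorem incEK_incME {p : ℕ} [Fact p.Prime] (hpS : ExtCitation.pPrime p ∈ S) (a : Mu p) :
    incEK S (incME hpS a) = incMK p a := rfl

/-- The localisation map `H^n(A) → H^n_q(A)` on the cohomology of the full level system. -/
noncomputable def locA (q : Nat.Primes) (A : Type) [AddCommGroup A] [DistribMulAction GQ A] (n : ℕ) :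
    Hsm lvlAll A n →+ Hloc q A n :=
  Hsm.res A (ιv q) (lvlLoc q) lvlAll (LevelSys.Le.refl _) n

/-- `H^n_S(A) → H^n(A)`. -/
noncomputable def inflS (A : Type) [AddCommGroup A] [DistribMulAction GQ A] (n : ℕ) :
    Hsm (lvlS S) A n →+ Hsm lvlAll A n := Hsm.refine A (lvlS_le_lvlAll S) n

theorem locA_inflS (q : Nat.Primes) (A : Type) [AddCommGroup A] [DistribMulAction GQ A] (n : ℕ)
    (x : Hsm (lvlS S) A n) : locA q A n (inflS S A n x) = locS S A q n x :=
  Hsm.res_refine (ιv q) (lvlS_le_lvlAll S) (LevelSys.Le.refl _) n x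

/-- `H^n_S(Map(X, (ℚ_S)ˣ)) → H^n(Map(X, ℚ̄ˣ))` ("`H^n(G_S(F), ℚ_Sˣ) → H^n(F, ℚ̄ˣ)`"). -/
noncomputable def brL (X : Type) [MulAction GQ X] (n : ℕ) :
    Hsm (lvlS S) (IndMod X (LSx S)) n →+ Hsm lvlAll (IndMod X Kx) n :=
  (Hsm.map (IndMod.mapCoeff X (incLK S)) n).comp (inflS S (IndMod X (LSx S)) n)

/-- `H^n_S(Map(X, E_S)) → H^n(Map(X, ℚ̄ˣ))`. -/
noncomputable def brE (X : Type) [MulAction GQ X] (n : ℕ) :
    Hsm (lvlS S) (IndMod X (ESx S)) n →+ Hsm lvlAll (IndMod X Kx) n :=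
  (brL S X n).comp (Hsm.map (IndMod.mapCoeff X (incEL S)) n)

/-- `H^n_S(Map(X, μ_m)) → H^n(Map(X, ℚ̄ˣ))`. -/
noncomputable def brM (m : ℕ) (X : Type) [MulAction GQ X] (n : ℕ) :
    Hsm (lvlS S) (IndMod X (Mu m)) n →+ Hsm lvlAll (IndMod X Kx) n :=
  (Hsm.map (IndMod.mapCoeff X (incMK m)) n).comp (inflS S (IndMod X (Mu m)) n)

/-- The coefficient map `H^n_q(Map(X, μ_m)) → H^n_q(Map(X, ℚ̄ˣ))`. -/
noncomputable def locMK (q : Nat.Primes) (m : ℕ) (X : Type) [MulAction GQ X] (n : ℕ) :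
    Hloc q (IndMod X (Mu m)) n →+ Hloc q (IndMod X Kx) n :=
  Hsm.map (ResMod.map (ιv q) (IndMod.mapCoeff X (incMK m))) n

/-! ### Smoothness instances -/

instance instSmoothLSx : Smooth (lvlS S) (LSx S) :=
  inferInstanceAs (Smooth (lvlS S) (smoothPart (lvlS S) Kx).Mod)

instance instSmoothESx : Smooth (lvlS S) (ESx S) :=
  Smooth.of_injective (incEL S) (incEL_injective S)

instance instSmoothLoc (q : Nat.Primes) (A : Type) [AddCommGroup A] [DistribMulAction GQ A]
    [Smooth lvlAll A] : Smooth (lvlLoc q) (ResMod (ιv q) A) :=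
  ResMod.instSmooth (ιv q) lvlAll

/-- an `S`-smooth set is smooth -/
theorem smoothSet_all (X : Type) [MulAction GQ X] [SmoothSet (lvlS S) X] : SmoothSet lvlAll X where
  exists_fix x := by
    obtain ⟨N, hN, h⟩ := SmoothSet.exists_fix (𝓝 := lvlS S) x
    obtain ⟨N', hN', hle⟩ := lvlS_le_lvlAll S N hN
    exact ⟨N', hN', fun n hn => h n (hle hn)⟩

/-- The place of `ℚ̄` chosen by the Prelude over a prime outside `S`. -/
noncomputable def plOf {q : Nat.Primes} (hq : q ∉ S) : PlOff S :=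
  ⟨ExtCitation.primeLocalPlace q, q, hq, by
    have : Fact (q : ℕ).Prime := ⟨q.2⟩
    exact Fermat.Agent.S55.Bridge.padicPlace_liesOverPrime (q : ℕ)⟩

end Fermat.Agent.S55.Units
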