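/-
S55 / block UNITS, layer B/C, section `Kummer`: the Kummer sequences
`0 → μ_p → E_S → E_S → 0`, `0 → μ_m → ℚ̄ˣ → ℚ̄ˣ → 0` and the divisor sequence
`0 → E_S → (ℚ_S)ˣ → P_S → 0` as `ShortExact`.
-/
import Fermat.Agent.S55.Units.Maps

set_option autoImplicit false

namespace Fermat.Agent.S55.Units

variable {S : Finset Nat.Primes} {p : ℕ} [Fact p.Prime]

private theorem kummer_val_nsmul (m : ℕ) (x : Kx) : (m • x).val = x.val ^ m := by
  simp [Kx.val]

private theorem kummer_val_injective : Function.Injective Kx.val := by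
  intro x y h
  exact Additive.toMul.injective (Units.ext h)

private theorem kummer_val_ne_zero (x : Kx) : x.val ≠ 0 := (Additive.toMul x : Qbˣ).ne_zero

/-- every element of `ℚ̄ˣ` is an `m`-th power -/
private theorem kummer_exists_root (m : ℕ) (hm : 0 < m) (c : Kx) : ∃ b : Kx, m • b = c := by
  obtain ⟨y, hy⟩ := IsAlgClosed.exists_pow_nat_eq c.val hm
  have hy0 : y ≠ 0 := by
    intro h
    rw [h, zero_pow hm.ne'] at hy
    exact kummer_val_ne_zero c hy.symm
  refine ⟨Additive.ofMul (Units.mk0 y hy0), kummer_val_injective ?_⟩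
  rw [kummer_val_nsmul]
  exact hy

/-- **U1** : the Kummer sequence `0 → μ_p → E_S → E_S → 0`. -/
theorem kummerE (hpS : ExtCitation.pPrime p ∈ S) :
    ShortExact (incME hpS) (mulBy GQ (ESx S) p) where
  inj := fun _ _ h => (muSub p).incl_injective (congrArg (ESsub S).incl h)
  exact := by
    intro b
    constructor
    · intro h
      have h1 : p • (ESsub S).incl b = 0 := by
        rw [← map_nsmul]
        rw [mulBy_apply] at h
        rw [h, map_zero]
      exact ⟨(muSub p).mkMod ((ESsub S).incl b) h1, (ESsub S).incl_injective rfl⟩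
    · rintro ⟨a, rfl⟩
      apply (ESsub S).incl_injective
      rw [mulBy_apply, map_nsmul, map_zero]
      exact (muSub p).incl_mem a
  surj := by
    intro c
    obtain ⟨b, hb⟩ := kummer_exists_root p (Fact.out : p.Prime).pos ((ESsub S).incl c)
    have hb' : b ∈ (ESsub S).toAddSubgroup := by
      rw [mem_ESsub_iff]
      refine isSUnit_of_pow (ExtCitation.pPrime p) hpS _ ?_
      rw [ExtCitation.pPrime_coe, ← kummer_val_nsmul, hb, ← mem_ESsub_iff]
      exact (ESsub S).incl_mem c
    refine ⟨(ESsub S).mkMod b hb', (ESsub S).incl_injective ?_⟩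
    rw [mulBy_apply, map_nsmul, GSub.incl_mkMod, hb]

/-- the Kummer sequence `0 → μ_m → ℚ̄ˣ → ℚ̄ˣ → 0` -/
theorem kummerK (m : ℕ) (hm : 0 < m) : ShortExact (incMK m) (mulBy GQ Kx m) where
  inj := incMK_injective m
  exact := by
    intro b
    constructor
    · intro h
      exact ⟨(muSub m).mkMod b h, rfl⟩
    · rintro ⟨a, rfl⟩
      exact (muSub m).incl_mem a
  surj := kummer_exists_root m hm

theorem valG_exact (b : LSx S) : valG S b = 0 ↔ ∃ a, incEL S a = b := by
  rw [valG_eq_zero_iff]
  constructor
  · intro h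
    exact ⟨(ESsub S).mkMod _ h, (LSsub S).incl_injective rfl⟩
  · rintro ⟨a, rfl⟩
    exact (ESsub S).incl_mem a

theorem smooth_mu (hpS : ExtCitation.pPrime p ∈ S) : Smooth (lvlS S) (Mu p) :=
  Smooth.of_injective (incME hpS) (kummerE hpS).inj

/-- The module `P_S` of principal divisors of `ℚ_S`. -/
noncomputable abbrev PSx (S : Finset Nat.Primes) : Type := (GSub.range (valG S)).Mod

/-- `(ℚ_S)ˣ → P_S`. -/
noncomputable def valP (S : Finset Nat.Primes) : LSx S →+[GQ] PSx S := GSub.rangeRestrict (valG S)

/-- `P_S ⊆ I_S`. -/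
noncomputable def incPI (S : Finset Nat.Primes) : PSx S →+[GQ] DivMod S := (GSub.range (valG S)).inclG

theorem incPI_valP (b : LSx S) : incPI S (valP S b) = valG S b := rfl

/-- `0 → E_S → (ℚ_S)ˣ → P_S → 0`. -/
theorem divExact (S : Finset Nat.Primes) : ShortExact (incEL S) (valP S) where
  inj := incEL_injective S
  exact := by
    intro b
    rw [← valG_exact]
    constructor
    · intro h
      rw [← incPI_valP, h, map_zero]
    · intro h
      apply (GSub.range (valG S)).incl_injective
      rw [map_zero]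
      exact h
  surj := GSub.rangeRestrict_surjective _

end Fermat.Agent.S55.Units
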