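/-
S55 / block UNITS : the statements which UNITS consumes from LOC and BR (exact form).
Only definitions.
-/
import Fermat.Agent.S55.Units.Maps

set_option autoImplicit false

namespace Fermat.Agent.S55.Units

/-! The statements which UNITS consumes from LOC and BR (exact form).  Only definitions. -/

/-- **L7** (LOC): classes of `S`-units of `ℚ_S` are locally trivial outside `S`. -/
def NeedL7 (S : Finset Nat.Primes) : Prop :=
  ∀ q : Nat.Primes, q ∉ S → ∀ (X : Type) [MulAction GQ X] [Finite X] [SmoothSet (lvlS S) X]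
    (x : Hsm (lvlS S) (IndMod X (ESx S)) 2), locA q (IndMod X Kx) 2 (brE S X 2 x) = 0

/-- **B1** (BR): the Hasse principle for `Br(F)(p)`. -/
def NeedB1 (p : ℕ) : Prop :=
  ∀ U : Subgroup GQ, lvlAll.IsOpen U → ∀ x : Hsm lvlAll (IndMod (GQ ⧸ U) Kx) 2,
    (∃ e : ℕ, p ^ e • x = 0) → (∀ q : Nat.Primes, locA q _ 2 x = 0) → x = 0

/-- **B3** (BR + LOC): reciprocity for classes of `H^2(μ_F)` which are locally trivial outside
`S`. -/
def NeedB3 (S : Finset Nat.Primes) (p : ℕ) (t : ∀ q : Nat.Primes, Hloc q (Mu p) 2 →+ ZMod p) : Prop :=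
  ∀ U : Subgroup GQ, (lvlS S).IsOpen U → ActsTrivially U (Mu p) → ∀ _ : Finite (GQ ⧸ U),
    ∀ x : Hsm lvlAll (IndMod (GQ ⧸ U) (Mu p)) 2,
      (∀ q : Nat.Primes, q ∉ S → locA q _ 2 x = 0) →
      ∑ q : ↥S, tU t U q.1 (locA q.1 _ 2 x) = 0

/-- **B4** (BR + LOC): existence of cyclic classes, split by a cyclic `S`-cover of `p`-power
degree, with prescribed local components of order `p` on `S` and trivial outside `S`. -/
def NeedB4 (S : Finset Nat.Primes) (p : ℕ) (t : ∀ q : Nat.Primes, Hloc q (Mu p) 2 →+ ZMod p) : Prop :=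
  ∀ U : Subgroup GQ, (lvlS S).IsOpen U → ActsTrivially U (Mu p) → ∀ _ : Finite (GQ ⧸ U),
    ∀ y : (∀ q : ↥S, Hloc q.1 (IndMod (GQ ⧸ U) (Mu p)) 2), ∑ q : ↥S, tU t U q.1 (y q) = 0 →
      ∃ (X' : Type) (_ : MulAction GQ X') (_ : Finite X') (_ : SmoothSet (lvlS S) X')
        (_ : SmoothSet lvlAll X') (u : X' →[GQ] GQ ⧸ U) (σ : X' →[GQ] X') (k : ℕ)
        (h : CyclicCover u σ (p ^ k)) (b : Hsm lvlAll (IndMod (GQ ⧸ U) Kx) 0),
        (∀ q : ↥S, locA q.1 _ 2 (h.theta lvlAll Kx 0 b) = locMK q.1 p (GQ ⧸ U) 2 (y q)) ∧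
        ∀ q : Nat.Primes, q ∉ S → locA q _ 2 (h.theta lvlAll Kx 0 b) = 0

end Fermat.Agent.S55.Units
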