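/-
S55 / block UNITS, layer D: section `AdaptL7`: `NeedL7 S` (classes of `S`-units are locally trivial
outside `S`) from the field `L7` of `LocPkg`.
-/
import Fermat.Agent.S55.Units.Needs
import Fermat.Agent.S55.Arith.BrInterface

set_option autoImplicit false

namespace Fermat.Agent.S55.Units

theorem locA_eq (q : Nat.Primes) (A : Type) [AddCommGroup A] [DistribMulAction GQ A] (n : ℕ) :
    locA q A n = Fermat.Agent.S55.locA A q n := rfl

/-- the chosen place over `q` lies over `q` -/
private theorem adaptL7_plc_liesOver (q : Nat.Primes) : (plc q).LiesOverPrime (q : ℕ) := by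
  have : Fact (q : ℕ).Prime := ⟨q.2⟩
  exact Fermat.Agent.S55.Bridge.padicPlace_liesOverPrime (q : ℕ)

/-- the inertia group at a prime outside `S` is contained in every member of `lvlS S` -/
theorem inertiaLoc_le_comap (S : Finset Nat.Primes) {q : Nat.Primes} (hq : q ∉ S)
    {N : Subgroup GQ} (hN : N ∈ (lvlS S).carrier) : inertiaLoc q ≤ N.comap (ιv q) := by
  obtain ⟨F, hF, -, rfl⟩ := hN
  exact Subgroup.comap_mono (hF.2 q hq (plc q) (adaptL7_plc_liesOver q))

/-- the inertia group at a prime outside `S` acts trivially on `S`-smooth sets -/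
theorem inertiaLoc_smul (S : Finset Nat.Primes) {q : Nat.Primes} (hq : q ∉ S) (X : Type)
    [MulAction GQ X] [SmoothSet (lvlS S) X] (τ : Gv q) (hτ : τ ∈ inertiaLoc q) (x : X) :
    ιv q τ • x = x := by
  obtain ⟨N, hN, h⟩ := SmoothSet.exists_fix (𝓝 := lvlS S) x
  exact h _ (inertiaLoc_le_comap S hq hN hτ)

/-- `S`-units are units at the chosen place over a prime outside `S` -/
theorem isUnitAt_incEK (S : Finset Nat.Primes) {q : Nat.Primes} (hq : q ∉ S) (a : ESx S) :
    Kx.IsUnitAt (plc q) (incEK S a) :=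
  ((ESsub S).incl_mem a).2 q hq (plc q) (adaptL7_plc_liesOver q)

/-- `H^n_q(Map(X, Kx)) → H^n(G_q, Map(Res X, Kx))` is injective (it is an isomorphism) -/
theorem map_toResSet_injective (q : Nat.Primes) (X : Type) [MulAction GQ X] (n : ℕ) :
    Function.Injective (Hsm.map (𝓝 := lvlLoc q) (IndMod.toResSet (ιv q) X Kx) n) := by
  refine Function.LeftInverse.injective
    (g := Hsm.map (𝓝 := lvlLoc q) (IndMod.ofResSet (ιv q) X Kx) n) fun x => ?_
  rw [← Hsm.map_comp]
  exact Hsm.map_id' (fun a => IndMod.ofResSet_toResSet (ιv q) X Kx a) n x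

/-- **L7** in the form used by UNITS, from the field `L7` of `LocPkg`. -/
theorem needL7_of_locPkg {p : ℕ} (L : ∀ q, LocPkg p q) (S : Finset Nat.Primes) : NeedL7 S := by
  intro q hq X _ _ _ x
  apply map_toResSet_injective q X 2
  rw [map_zero]
  induction x using Hsm.induction_on with
  | h z =>
    obtain ⟨N, hN, hz⟩ := z.2.1
    have hsm : SmoothSet (lvlLoc q) (ResSet (ιv q) X) := by
      have := smoothSet_all S X
      exact inferInstanceAs (SmoothSet (lvlAll.comap (ιv q)) (ResSet (ιv q) X))
    refine (L q).L7 (ResSet (ιv q) X) _ (N.comap (ιv q)) (inertiaLoc_le_comap S hq hN) ?_ ?_ ?_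
    · intro g h hgh
      have h1 : z.1 (fun i => ιv q (g i)) = z.1 (fun i => ιv q (h i)) := by
        refine hz _ _ fun i => ?_
        have := hgh i
        rwa [Subgroup.mem_comap, map_mul, map_inv] at this
      show IndMod.toResSet (ιv q) X Kx (ResMod.toRes (ιv q) (IndMod.mapCoeff X (incLK S)
          (IndMod.mapCoeff X (incEL S) (z.1 fun i => ιv q (g i))))) =
        IndMod.toResSet (ιv q) X Kx (ResMod.toRes (ιv q) (IndMod.mapCoeff X (incLK S)
          (IndMod.mapCoeff X (incEL S) (z.1 fun i => ιv q (h i)))))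
      rw [h1]
    · intro τ hτ y
      exact ResSet.ext (inertiaLoc_smul S hq X τ hτ y.val)
    · intro g y
      exact isUnitAt_incEK S hq (z.1 (fun i => ιv q (g i)) y.val)

end Fermat.Agent.S55.Units
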