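/-
S55 / block UNITS, layer B/C, section `H90`: Hilbert 90 for `Map(X, Qbˣ)` and for `Map(X, (ℚ_S)ˣ)`.
Everything comes from `Arith/Hilbert90.lean`.
-/
import Fermat.Agent.S55.Units.Maps
import Fermat.Agent.S55.Arith.Hilbert90

set_option autoImplicit false

namespace Fermat.Agent.S55.Units

/-- **Hilbert 90**, general form: `f : H →* G_ℚ` arbitrary, `X` a finite smooth `G_ℚ`-set. -/
theorem hilbert90_comap {H : Type} [Group H] (f : H →* GQ) (X : Type) [MulAction GQ X] [Finite X]
    [SmoothSet lvlAll X] (y : Hsm (lvlAll.comap f) (ResMod f (IndMod X Kx)) 1) : y = 0 :=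
  hilbert90_res f X y

theorem hilbert90_loc (q : Nat.Primes) (X : Type) [MulAction GQ X] [Finite X]
    [SmoothSet lvlAll X] (y : Hloc q (IndMod X Kx) 1) : y = 0 :=
  hilbert90_local_res q X y

theorem hilbert90_glob (X : Type) [MulAction GQ X] [Finite X] [SmoothSet lvlAll X]
    (y : Hsm lvlAll (IndMod X Kx) 1) : y = 0 :=
  hilbert90_global X y

/-- **U2**, first half: `H^1_S(Map(X, (ℚ_S)ˣ)) = 0`. -/
theorem hilbert90_S (S : Finset Nat.Primes) (X : Type) [MulAction GQ X] [Finite X]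
    [SmoothSet (lvlS S) X] (y : Hsm (lvlS S) (IndMod X (LSx S)) 1) : y = 0 :=
  hilbert90_LS S X y

end Fermat.Agent.S55.Units
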