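/-
S55 / block UNITS, layer B/C: section `Compat`.   Owner: helper184.
Compatibilities of `brE`, `brM`, `locMK`, `locS`, `locA`; `H^2_q(μ_X) → H^2_q(K_X)` is injective.
-/
import Fermat.Agent.S55.Units.H90
import Fermat.Agent.S55.Units.Kummer

set_option autoImplicit false

namespace Fermat.Agent.S55.Units

variable (S : Finset Nat.Primes) {p : ℕ} [Fact p.Prime] (X : Type) [MulAction GQ X]

theorem brE_map_incME (hpS : ExtCitation.pPrime p ∈ S) (n : ℕ)
    (x : Hsm (lvlS S) (IndMod X (Mu p)) n) :
    brE S X n (Hsm.map (IndMod.mapCoeff X (incME hpS)) n x) = brM S p X n x := by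
  induction x using Hsm.induction_on with
  | h z => rfl

theorem locMK_locS (q : Nat.Primes) (m n : ℕ) (x : Hsm (lvlS S) (IndMod X (Mu m)) n) :
    locMK q m X n (locS S _ q n x) = locA q _ n (brM S m X n x) := by
  induction x using Hsm.induction_on with
  | h z => rfl

theorem locMK_locA (q : Nat.Primes) (m n : ℕ) (x : Hsm lvlAll (IndMod X (Mu m)) n) :
    locMK q m X n (locA q _ n x) = locA q _ n (Hsm.map (IndMod.mapCoeff X (incMK m)) n x) := by
  induction x using Hsm.induction_on with
  | h z => rfl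

/-- `H^2_q(μ_X) → H^2_q(K_X)` is injective (Hilbert 90 + Kummer sequence) -/
theorem locMK_injective_two (q : Nat.Primes) (m : ℕ) (hm : 0 < m) [Finite X] [SmoothSet lvlAll X] :
    Function.Injective (locMK q m X 2) :=
  Hsm.map_injective_of_zero
    (ResMod.shortExact_map (ιv q) (IndMod.shortExact_mapCoeff X (kummerK m hm))) 1
    (hilbert90_loc q X)

/-- `H^n(μ_X)` is killed by `m` -/
theorem nsmul_Hloc_mu (q : Nat.Primes) (m n : ℕ) (y : Hloc q (IndMod X (Mu m)) n) : m • y = 0 := by
  have h0 : ∀ a : ResMod (ιv q) (IndMod X (Mu m)), m • a = 0 := by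
    intro a
    obtain ⟨a, rfl⟩ := (ResMod.toRes (ιv q)).surjective a
    rw [← map_nsmul, EmbeddingLike.map_eq_zero_iff]
    ext x
    rw [IndMod.nsmul_apply, IndMod.zero_apply]
    apply (muSub m).incl_injective
    rw [map_nsmul, map_zero]
    exact (muSub m).incl_mem (a x)
  rw [← Hsm.map_nsmul' (χ := mulBy (Gv q) (ResMod (ιv q) (IndMod X (Mu m))) m) m (fun _ => rfl) n y]
  exact Hsm.map_zero' (fun a => h0 a) n y

end Fermat.Agent.S55.Units
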