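/-
S55 / block UNITS, layer D: section `AdaptBr`: the statements `NeedB1`, `NeedB3`, `NeedB4` consumed by
UNITS, from the Brauer package `BrPkg p L`.
-/
import Fermat.Agent.S55.Units.AdaptL7
import Fermat.Agent.S55.Units.Compat

set_option autoImplicit false

namespace Fermat.Agent.S55.Units

variable {p : ℕ} [Fact p.Prime] (L : ∀ q, LocPkg p q)

theorem zmodToQZ_injective : Function.Injective (zmodToQZ p) := by
  have hp : p.Prime := Fact.out
  have hp0 : (p : ℚ) ≠ 0 := Nat.cast_ne_zero.2 hp.ne_zero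
  rw [injective_iff_map_eq_zero]
  intro c hc
  obtain ⟨k, rfl⟩ := ZMod.intCast_surjective c
  have h1 : zmodToQZ p ((k : ℤ) : ZMod p) = QZ.mk ((k : ℚ) / p) := by
    unfold zmodToQZ
    rw [ZMod.lift_coe]
    show (zmultiplesHom QZ) (QZ.mk (1 / (p : ℚ))) k = _
    rw [zmultiplesHom_apply, ← map_zsmul]
    congr 1
    rw [zsmul_eq_mul]
    ring
  rw [h1] at hc
  obtain ⟨m, hm⟩ := (QuotientAddGroup.eq_zero_iff _).1 hc
  have hm' : (m : ℚ) = (k : ℚ) / p := hm
  rw [ZMod.intCast_zmod_eq_zero_iff_dvd]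
  refine ⟨m, ?_⟩
  have h2 : (k : ℚ) = (p : ℚ) * m := by
    rw [hm']
    field_simp
  exact_mod_cast h2

omit [Fact p.Prime] in
private theorem adaptBr_sum_mapCoeff (X : Type) [MulAction GQ X] [Finite X] (q : Nat.Primes)
    (a : ResMod (ιv q) (IndMod X (Mu p))) :
    ResMod.map (ιv q) (IndMod.sum X Kx) (ResMod.map (ιv q) (IndMod.mapCoeff X (incMK p)) a) =
      ResMod.map (ιv q) (muSub p).inclG (ResMod.map (ιv q) (IndMod.sum X (Mu p)) a) := by
  obtain ⟨a, rfl⟩ := (ResMod.toRes (ιv q)).surjective a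
  rw [ResMod.map_toRes, ResMod.map_toRes, ResMod.map_toRes, ResMod.map_toRes, IndMod.map_sum']
  rfl

omit [Fact p.Prime] in
private theorem adaptBr_map_sum_mapCoeff (X : Type) [MulAction GQ X] [Finite X] (q : Nat.Primes)
    (y : Hloc q (IndMod X (Mu p)) 2) :
    Hsm.map (ResMod.map (ιv q) (IndMod.sum X Kx)) 2 (locMK q p X 2 y) =
      Hsm.map (ResMod.map (ιv q) (muSub p).inclG) 2
        (Hsm.map (ResMod.map (ιv q) (IndMod.sum X (Mu p))) 2 y) := by
  unfold locMK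
  rw [← Hsm.map_comp, ← Hsm.map_comp]
  exact DFunLike.congr_fun (Hsm.map_congr (fun a => adaptBr_sum_mapCoeff X q a) 2) y

/-- `inv_{q,X}` on classes coming from `μ_p` is `t_{q,U}` -/
theorem invX_locMK (U : Subgroup GQ) [Finite (GQ ⧸ U)] (q : Nat.Primes)
    (y : Hloc q (IndMod (GQ ⧸ U) (Mu p)) 2) :
    invX (L q) (GQ ⧸ U) (locMK q p (GQ ⧸ U) 2 y) = zmodToQZ p (tU (fun q => (L q).t) U q y) := by
  unfold invX tU
  rw [AddMonoidHom.comp_apply, AddMonoidHom.comp_apply, adaptBr_map_sum_mapCoeff, (L q).t_spec]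

theorem mem_pPrimary_iff' {M : Type} [AddCommGroup M] (x : M) :
    x ∈ pPrimary p M ↔ ∃ e : ℕ, p ^ e • x = 0 := Iff.rfl

variable {L}

theorem needB1_of_brPkg (B : BrPkg p L) : NeedB1 p := by
  intro U hU x hx hloc
  exact B.B1 U hU x hx hloc

/-- an open subgroup for `lvlS S` is open -/
private theorem adaptBr_isOpen (S : Finset Nat.Primes) {U : Subgroup GQ} (hU : (lvlS S).IsOpen U) :
    lvlAll.IsOpen U := by
  obtain ⟨N, hN, hle⟩ := hU
  obtain ⟨N', hN', hle'⟩ := lvlS_le_lvlAll S N hN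
  exact ⟨N', hN', hle'.trans hle⟩

/-- `H^n(μ_X)` is killed by `m` (global version) -/
private theorem adaptBr_nsmul_mu (X : Type) [MulAction GQ X] (m n : ℕ)
    (y : Hsm lvlAll (IndMod X (Mu m)) n) : m • y = 0 := by
  have h0 : ∀ a : IndMod X (Mu m), m • a = 0 := by
    intro a
    ext x
    rw [IndMod.nsmul_apply, IndMod.zero_apply]
    apply (muSub m).incl_injective
    rw [map_nsmul, map_zero]
    exact (muSub m).incl_mem (a x)
  rw [← Hsm.map_nsmul' (χ := mulBy GQ (IndMod X (Mu m)) m) m (fun _ => rfl) n y]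
  exact Hsm.map_zero' (fun a => h0 a) n y

theorem needB3_of_brPkg (B : BrPkg p L) (S : Finset Nat.Primes) :
    NeedB3 S p (fun q => (L q).t) := by
  intro U hU _ hfin x hx
  apply zmodToQZ_injective (p := p)
  rw [map_zero, map_sum]
  have hprim : Hsm.map (IndMod.mapCoeff (GQ ⧸ U) (incMK p)) 2 x ∈
      pPrimary p (Hsm lvlAll (IndMod (GQ ⧸ U) Kx) 2) := by
    refine ⟨1, ?_⟩
    rw [pow_one, ← map_nsmul, adaptBr_nsmul_mu, map_zero]
  have h3 := B.B3 U (adaptBr_isOpen S hU) hfin _ hprim S (fun q hq => by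
    have := locMK_locA (GQ ⧸ U) q p 2 x
    rw [hx q hq, map_zero] at this
    exact this.symm)
  rw [← Finset.sum_coe_sort] at h3
  rw [← h3]
  refine Finset.sum_congr rfl fun q _ => ?_
  rw [← invX_locMK, locMK_locA]
  rfl

theorem needB4_of_brPkg (B : BrPkg p L) (S : Finset Nat.Primes)
    (hpS : ExtCitation.pPrime p ∈ S) : NeedB4 S p (fun q => (L q).t) := by
  intro U hU hμ hfin y hy
  refine B.B4 S ⟨_, hpS, rfl⟩ U hU hμ hfin (fun q => locMK q.1 p (GQ ⧸ U) 2 (y q)) (fun q => ?_) ?_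
  · refine ⟨1, ?_⟩
    rw [pow_one, ← map_nsmul, nsmul_Hloc_mu, map_zero]
  · simp_rw [invX_locMK]
    rw [← map_sum, hy, map_zero]

end Fermat.Agent.S55.Units
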