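/-
S55 / block UNITS, layer B/C: section `AbsDiv`.
`0 → A → B → I` with `I / v(B)` prime-to-`p` torsion: comparison of the `p`-primary parts of
`H^2(A)` and `H^2(B)`.
-/
import Fermat.Agent.S55.Coh.LESExact
import Fermat.Agent.S55.Coh.Efface
import Fermat.Agent.S55.Coh.PPrimary

set_option autoImplicit false

namespace Fermat.Agent.S55.Units

variable {G : Type} [Group G] (𝓝 : LevelSys G) {A B I : Type}
  [AddCommGroup A] [DistribMulAction G A] [AddCommGroup B] [DistribMulAction G B]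
  [AddCommGroup I] [DistribMulAction G I] [Smooth 𝓝 A] [Smooth 𝓝 B] [Smooth 𝓝 I]
  (ι : A →+[G] B) (v : B →+[G] I) (hι : Function.Injective ι)
  (hex : ∀ b, v b = 0 ↔ ∃ a, ι a = b) (p : ℕ)
  (hI2 : ∀ c : I, ∃ m : ℕ, m.Coprime p ∧ ∃ b, v b = m • c)

omit [Smooth 𝓝 A] [Smooth 𝓝 B] [Smooth 𝓝 I] in
include hI2 in
/-- A finite set of elements of `I` has a common prime-to-`p` multiplier into `v(B)`. -/
theorem absdiv_common_mult {s : Set I} (hs : s.Finite) :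
    ∃ m : ℕ, m.Coprime p ∧ ∀ c ∈ s, ∃ b, v b = m • c := by
  induction s, hs using Set.Finite.induction_on with
  | empty => exact ⟨1, Nat.coprime_one_left p, fun c hc => absurd hc (Set.notMem_empty c)⟩
  | @insert a s _ _ ih =>
    obtain ⟨m, hm, h⟩ := ih
    obtain ⟨m', hm', b', hb'⟩ := hI2 a
    refine ⟨m * m', Nat.Coprime.mul_left hm hm', fun c hc => ?_⟩
    rcases Set.mem_insert_iff.1 hc with rfl | hc
    · exact ⟨m • b', by rw [map_nsmul, hb', mul_smul]⟩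
    · obtain ⟨b, hb⟩ := h c hc
      exact ⟨m' • b, by rw [map_nsmul, hb, mul_comm, mul_smul]⟩

omit [Smooth 𝓝 A] [Smooth 𝓝 B] [Smooth 𝓝 I] in
include hI2 in
/-- A smooth cochain with values in `I` lifts to `B` after multiplication by a prime-to-`p`
integer. -/
theorem absdiv_lift {n : ℕ} {c : (Fin n → G) → I} (hc : c ∈ Csm 𝓝 I n) :
    ∃ m : ℕ, m.Coprime p ∧ ∃ γ ∈ Csm 𝓝 B n, cmap (v : B →+ I) n γ = m • c := by
  obtain ⟨m, hm, h⟩ := absdiv_common_mult v p hI2 (IsLevel.finite_range hc)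
  classical
  let σ : I → B := fun x => if hx : ∃ b, v b = m • x then hx.choose else 0
  have hσ : ∀ g, v (σ (c g)) = m • c g := by
    intro g
    have hx : ∃ b, v b = m • c g := h _ ⟨g, rfl⟩
    simp only [σ, dif_pos hx]
    exact hx.choose_spec
  refine ⟨m, hm, fun g => σ (c g), IsLevel.comp hc σ, ?_⟩
  funext g
  exact hσ g

omit [Smooth 𝓝 A] [Smooth 𝓝 B] [Smooth 𝓝 I] in
include hι hex in
/-- A smooth cochain with values in `B` killed by `v` comes from `A`. -/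
theorem absdiv_ker {n : ℕ} {b : (Fin n → G) → B} (hb : b ∈ Csm 𝓝 B n)
    (h0 : cmap (v : B →+ I) n b = 0) : ∃ a ∈ Csm 𝓝 A n, cmap (ι : A →+ B) n a = b := by
  have h : ∀ g, ∃ a, ι a = b g := fun g => (hex _).1 (congrFun h0 g)
  choose a ha using h
  have hab : cmap (ι : A →+ B) n a = b := funext ha
  refine ⟨a, mem_Csm_of_cmap_mem (φ := (ι : A →+ B)) hι ?_, hab⟩
  rw [hab]
  exact hb

include hι hex hI2 in
/-- (R1) `0 → A → B → I`, `H^1(I) = 0`, `I / v(B)` prime-to-`p` torsion: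
`H^2(A)(p) → H^2(B)` is injective. -/
theorem absdiv_inj (hI1 : ∀ y : Hsm 𝓝 I 1, y = 0) (x : Hsm 𝓝 A 2) (hx : ∃ e : ℕ, p ^ e • x = 0)
    (h0 : Hsm.map ι 2 x = 0) : x = 0 := by
  induction x using Hsm.induction_on with
  | h c =>
  have hvι : ∀ a, v (ι a) = 0 := fun a => (hex _).2 ⟨a, rfl⟩
  rw [Hsm.map_mk, Hsm.mk_eq_zero_iff] at h0
  obtain ⟨b, hb, hbc⟩ := h0
  rw [Zsm.coe_map] at hbc
  -- `v b` is a cocycle
  have hvb : cmap (v : B →+ I) 1 b ∈ Zsm 𝓝 I 1 := by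
    refine ⟨cmap_mem_Csm _ hb, ?_⟩
    change dd I 1 _ = 0
    rw [dd_cmap, hbc]
    funext g
    exact hvι _
  have h1 := hI1 (Hsm.mk 𝓝 I 1 ⟨_, hvb⟩)
  rw [Hsm.mk_eq_zero_iff] at h1
  obtain ⟨𝔞, h𝔞, h𝔞b⟩ := h1
  obtain ⟨m, hm, β, hβ, hβ𝔞⟩ := absdiv_lift 𝓝 v p hI2 h𝔞
  have hker : cmap (v : B →+ I) 1 (m • b - dd B 0 β) = 0 := by
    rw [map_sub, map_nsmul, ← dd_cmap, hβ𝔞, map_nsmul, h𝔞b, sub_self]
  obtain ⟨e, he, hee⟩ := absdiv_ker 𝓝 ι v hι hex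
    ((Csm 𝓝 B 1).sub_mem ((Csm 𝓝 B 1).nsmul_mem hb m) (dd_mem_Csm hβ)) hker
  have hde : dd A 1 e = m • (c : (Fin 2 → G) → A) := by
    apply cmap_injective (φ := (ι : A →+ B)) hι 2
    rw [← dd_cmap, hee, map_sub, dd_dd, sub_zero, map_nsmul, map_nsmul, hbc]
  have hmx : m • Hsm.mk 𝓝 A 2 c = 0 := by
    rw [← map_nsmul, Hsm.mk_eq_zero_iff]
    exact ⟨e, he, hde⟩
  obtain ⟨k, hk⟩ := hx
  exact eq_zero_of_nsmul_eq_zero_of_coprime (hm.pow_right k) hmx hk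

include hι hex hI2 in
/-- (R2) a `p`-primary class of `H^2(B)` which dies in `H^2(I)` comes from `H^2(A)(p)`. -/
theorem absdiv_surj (hp : p.Prime) (y : Hsm 𝓝 B 2) (hy : ∃ e : ℕ, p ^ e • y = 0)
    (h0 : Hsm.map v 2 y = 0) :
    ∃ x : Hsm 𝓝 A 2, (∃ e : ℕ, p ^ e • x = 0) ∧ Hsm.map ι 2 x = y := by
  -- it is enough to find any preimage
  suffices h : ∃ x : Hsm 𝓝 A 2, Hsm.map ι 2 x = y by
    obtain ⟨x, rfl⟩ := h
    obtain ⟨x', hx', hxx⟩ := exists_pPrimary_preimage hp (Hsm.map (𝓝 := 𝓝) ι 2)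
      (fun x => Hsm.exists_nsmul_eq_zero 1 x) x hy
    exact ⟨x', hx', hxx⟩
  induction y using Hsm.induction_on with
  | h b =>
  rw [Hsm.map_mk, Hsm.mk_eq_zero_iff] at h0
  obtain ⟨𝔠, h𝔠, h𝔠b⟩ := h0
  rw [Zsm.coe_map] at h𝔠b
  obtain ⟨m, hm, γ, hγ, hγ𝔠⟩ := absdiv_lift 𝓝 v p hI2 h𝔠
  have hker : cmap (v : B →+ I) 2 (m • (b : (Fin 2 → G) → B) - dd B 1 γ) = 0 := by
    rw [map_sub, map_nsmul, ← dd_cmap, hγ𝔠, map_nsmul, h𝔠b, sub_self]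
  obtain ⟨z, hz, hzz⟩ := absdiv_ker 𝓝 ι v hι hex
    ((Csm 𝓝 B 2).sub_mem ((Csm 𝓝 B 2).nsmul_mem b.2.1 m) (dd_mem_Csm hγ)) hker
  have hdz : dd A 2 z = 0 := by
    apply cmap_injective (φ := (ι : A →+ B)) hι 3
    rw [← dd_cmap, hzz, map_sub, dd_dd, sub_zero, map_nsmul, dd_eq_zero_of_mem_Zsm b.2, smul_zero,
      map_zero]
  have hmy : Hsm.map ι 2 (Hsm.mk 𝓝 A 2 ⟨z, hz, hdz⟩) = m • Hsm.mk 𝓝 B 2 b := by
    rw [Hsm.map_mk, ← map_nsmul, Hsm.mk_eq_mk_iff]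
    refine ⟨-γ, (Csm 𝓝 B 1).neg_mem hγ, ?_⟩
    rw [map_neg, Zsm.coe_map]
    change _ = cmap (ι : A →+ B) 2 z - m • (b : (Fin 2 → G) → B)
    rw [hzz]
    abel
  obtain ⟨k, hk⟩ := hy
  obtain ⟨u, w, huw⟩ := Nat.isCoprime_iff_coprime.mpr (hm.pow_right k)
  refine ⟨u • Hsm.mk 𝓝 A 2 ⟨z, hz, hdz⟩, ?_⟩
  rw [map_zsmul, hmy]
  have h1 : ((u * (m : ℤ) + w * ((p ^ k : ℕ) : ℤ)) : ℤ) • Hsm.mk 𝓝 B 2 b =
      u • m • Hsm.mk 𝓝 B 2 b := by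
    rw [add_smul, mul_smul, mul_smul, natCast_zsmul, natCast_zsmul, hk, smul_zero, add_zero]
  rw [← h1, huw, one_smul]

end Fermat.Agent.S55.Units
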