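/-
S55 / block UNITS, layer B/C: section `PermH1` (statements: helper83; proofs: helper196).
`H^1` of the permutation module `Map(X, I_S)` vanishes.
-/
import Fermat.Agent.S55.Units.Maps

set_option autoImplicit false

namespace Fermat.Agent.S55.Units

/-- the combinatorial core: `H^1` of a permutation module vanishes -/
theorem perm_h1_core {G Z : Type} [Group G] [MulAction G Z] (N : Subgroup G) [N.FiniteIndex]
    (c : G → Z → ℤ) (hc : ∀ g h z, c (g * h) z = c g z + c h (g⁻¹ • z))
    (hN : ∀ n ∈ N, ∀ z, c n z = 0) :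
    ∃ b : Z → ℤ, (∀ g z, c g z = b (g⁻¹ • z) - b z) ∧ (∀ n ∈ N, ∀ z, b (n • z) = b z) ∧
      ∀ z, (∀ g, c g z = 0) → b z = 0 := by
  classical
  have h1 : ∀ z, c 1 z = 0 := by
    intro z
    have := hc 1 1 z
    simp only [mul_one, inv_one, one_smul] at this
    linarith
  have hinv : ∀ g z, c g⁻¹ (g⁻¹ • z) = - c g z := by
    intro g z
    have := hc g g⁻¹ z
    rw [mul_inv_cancel, h1] at this
    linarith
  have hstab : ∀ (z0 : Z) (h : G), h • z0 = z0 → c h z0 = 0 := by
    intro z0 h hh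
    have hh' : h⁻¹ • z0 = z0 := by rw [inv_smul_eq_iff, hh]
    have hpow : ∀ k : ℕ, c (h ^ k) z0 = k * c h z0 := by
      intro k
      induction k with
      | zero => simp [h1]
      | succ k ih =>
        rw [pow_succ', hc, hh', ih]
        push_cast
        ring
    obtain ⟨k, hk0, -, hk⟩ :=
      Subgroup.exists_pow_mem_of_index_ne_zero (Subgroup.FiniteIndex.index_ne_zero (H := N)) h
    have h2 := hN _ hk z0
    rw [hpow] at h2
    rcases mul_eq_zero.mp h2 with h3 | h3
    · exfalso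
      have : k = 0 := by exact_mod_cast h3
      omega
    · exact h3
  let r : Z → Z := fun z => Quotient.out (Quotient.mk (MulAction.orbitRel G Z) z)
  have hr : ∀ (g : G) (z : Z), r (g • z) = r z := by
    intro g z
    have : Quotient.mk (MulAction.orbitRel G Z) (g • z) = Quotient.mk (MulAction.orbitRel G Z) z :=
      Quotient.sound (by
        show MulAction.orbitRel G Z (g • z) z
        rw [MulAction.orbitRel_apply]
        exact ⟨g, rfl⟩)
    show Quotient.out _ = Quotient.out _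
    rw [this]
  have hex : ∀ z : Z, ∃ γ : G, γ • r z = z := by
    intro z
    have h2 : MulAction.orbitRel G Z (r z) z := Quotient.mk_out (s := MulAction.orbitRel G Z) z
    rw [MulAction.orbitRel_apply] at h2
    obtain ⟨g, hg⟩ := h2
    refine ⟨g⁻¹, ?_⟩
    rw [inv_smul_eq_iff]
    exact hg.symm
  choose γ hγ using hex
  have hkey : ∀ (z : Z) (δ : G), δ • r z = z → c δ z = c (γ z) z := by
    intro z δ hδ
    have hh : ((γ z)⁻¹ * δ) • r z = r z := by
      rw [mul_smul, hδ, inv_smul_eq_iff, hγ]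
    have h2 := hc (γ z) ((γ z)⁻¹ * δ) z
    rw [mul_inv_cancel_left] at h2
    have h3 : (γ z)⁻¹ • z = r z := by rw [inv_smul_eq_iff, hγ]
    rw [h3, hstab _ _ hh, add_zero] at h2
    exact h2
  have hi : ∀ g z, c g z = -c (γ (g⁻¹ • z)) (g⁻¹ • z) - -c (γ z) z := by
    intro g z
    have h2 : c (g⁻¹ * γ z) (g⁻¹ • z) = c (γ (g⁻¹ • z)) (g⁻¹ • z) := by
      apply hkey
      rw [hr, mul_smul, hγ]
    have h3 := hc g⁻¹ (γ z) (g⁻¹ • z)
    rw [inv_inv, smul_inv_smul, hinv] at h3
    linarith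
  refine ⟨fun z => -c (γ z) z, hi, ?_, ?_⟩
  · intro n hn z
    have h2 := hi n⁻¹ z
    rw [inv_inv, hN _ (N.inv_mem hn)] at h2
    show -c (γ (n • z)) (n • z) = -c (γ z) z
    linarith
  · intro z hz
    show -c (γ z) z = 0
    rw [hz, neg_zero]

/-- (I1) `H^1_S(Map(X, I_S)) = 0`. -/
theorem H1_ind_divMod (S : Finset Nat.Primes) (X : Type) [MulAction GQ X] [Finite X]
    [SmoothSet (lvlS S) X] (y : Hsm (lvlS S) (IndMod X (DivMod S)) 1) : y = 0 := by
  classical
  induction y using Hsm.induction_on with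
  | _ z =>
  rw [Hsm.mk_eq_zero_iff]
  obtain ⟨hlev, hdd⟩ := (mem_Zsm (lvlS S) (IndMod X (DivMod S))).mp z.2
  set ζ : GQ → IndMod X (DivMod S) := fun g => z.1 (fun _ => g) with hζ
  have hcoc : ∀ g h : GQ, ζ (g * h) = ζ g + g • ζ h := by
    intro g h
    have h0 := congrFun hdd ![g, h]
    rw [dd_apply] at h0
    simp only [Fin.sum_univ_succ, Finset.univ_eq_empty, Finset.sum_empty] at h0
    have e0 : Fin.contractNth (0 : Fin 2) (fun x1 x2 : GQ => x1 * x2) ![g, h] = fun _ => g * h := by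
      funext i
      fin_cases i
      rfl
    have e1 : Fin.contractNth (Fin.succ (0 : Fin 1)) (fun x1 x2 : GQ => x1 * x2) ![g, h]
        = fun _ => g := by
      funext i
      fin_cases i
      rfl
    have e2 : (fun i : Fin 1 => (![g, h] : Fin 2 → GQ) i.succ) = fun _ => h := by
      funext i
      fin_cases i
      rfl
    rw [e0, e1, e2] at h0
    simp only [Matrix.cons_val_zero, Fin.val_zero, zero_add, pow_one, neg_smul, one_smul,
      Fin.val_succ, add_zero] at h0
    norm_num at h0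
    show z.1 (fun _ => g * h) = z.1 (fun _ => g) + g • z.1 (fun _ => h)
    have h3 : z.1 (fun _ => g) + g • z.1 (fun _ => h) - z.1 (fun _ => g * h) = 0 := by
      rw [← h0]; abel
    exact (sub_eq_zero.mp h3).symm
  have hζ1 : ζ 1 = 0 := by
    have h0 := hcoc 1 1
    rw [mul_one, one_smul] at h0
    exact left_eq_add.mp h0
  obtain ⟨N₁, hN₁, hlev₁⟩ := hlev
  obtain ⟨N₂, hN₂, hfix⟩ := SmoothSet.exists_fix_all (lvlS S) X
  obtain ⟨N, hN, hle⟩ := (lvlS S).directed N₁ hN₁ N₂ hN₂
  have hfi : N.FiniteIndex := (lvlS S).finiteIndex N hN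
  have hζN : ∀ n ∈ N, ζ n = 0 := by
    intro n hn
    rw [← hζ1]
    exact (hlev₁ (fun _ => 1) (fun _ => n) (fun _ => by simpa using (hle hn).1)).symm
  let c : GQ → X × PlOff S → ℤ := fun g w => ζ g w.1 w.2
  obtain ⟨b, hb1, hb2, hb3⟩ := perm_h1_core N c
    (by
      intro g h w
      show ζ (g * h) w.1 w.2 = ζ g w.1 w.2 + ζ h (g⁻¹ • w).1 (g⁻¹ • w).2
      rw [hcoc]
      rfl)
    (by
      intro n hn w
      show ζ n w.1 w.2 = 0
      rw [hζN n hn]
      rfl)
  have hfin : (Set.range z.1).Finite := IsLevel.finite_range (𝓝 := lvlS S) ⟨N₁, hN₁, hlev₁⟩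
  have hsupp : ∀ (v : IndMod X (DivMod S)) (x : X), ∃ T : Finset Nat.Primes,
      ∀ A : PlOff S, A.char ∉ T → v x A = 0 := fun v x => (v x).2.2
  choose T hT using hsupp
  obtain ⟨F, hF, hst, rfl⟩ := hN
  have hmem : ∀ x : X, (fun A : PlOff S => b (x, A)) ∈ divSub S := by
    intro x
    refine ⟨⟨F, hF, hst.fixingSubgroup_normal, fun n hn A => ?_⟩,
      ⟨hfin.toFinset.biUnion fun v => T v x, fun A hA => ?_⟩⟩
    · have h0 := hb2 n hn (x, A)
      have h1 : n • (x, A) = (x, n • A) := by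
        rw [Prod.smul_mk, hfix n (hle hn).2 x]
      rw [h1] at h0
      exact h0
    · apply hb3
      intro g
      show ζ g x A = 0
      apply hT
      intro hmem
      apply hA
      rw [Finset.mem_biUnion]
      exact ⟨ζ g, hfin.mem_toFinset.mpr ⟨_, rfl⟩, hmem⟩
  let w : IndMod X (DivMod S) := IndMod.of fun x => ⟨fun A => b (x, A), hmem x⟩
  rw [mem_Bsm_succ]
  refine ⟨fun _ => w, mem_Csm_zero _, ?_⟩
  funext g
  rw [dd_zero_apply]
  have hg : g = fun _ => g 0 := by
    funext i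
    fin_cases i
    rfl
  have h2 : z.1 g = ζ (g 0) := by
    conv_lhs => rw [hg]
  rw [h2]
  ext x A
  have h3 := hb1 (g 0) (x, A)
  exact h3.symm

end Fermat.Agent.S55.Units
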