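/-
S55 / block UNITS, layer B (task UNITS-B-InflInj, helper176): inflation is injective in degree two
when `H^1(N, A) = 0` for all members `N` of the coarse level system.
-/
import Fermat.Agent.S55.Coh.ResApi
import Fermat.Agent.S55.Coh.IndMaps

set_option autoImplicit false

namespace Fermat.Agent.S55.Units

namespace InflInj

variable {G : Type} [Group G] {A : Type} [AddCommGroup A] [DistribMulAction G A]

theorem dd1 (f : (Fin 1 → G) → A) (g h : G) :
    dd A 1 f ![g, h] = g • f (fun _ => h) - f (fun _ => g * h) + f (fun _ => g) := by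
  have h0 : (fun i : Fin 1 => (![g, h] : Fin 2 → G) i.succ) = fun _ => h := by
    funext i; fin_cases i; rfl
  have h1 : Fin.contractNth (0 : Fin 2) (· * ·) (![g, h] : Fin 2 → G) = fun _ => g * h := by
    funext i; fin_cases i; rfl
  have h2 : Fin.contractNth (1 : Fin 2) (· * ·) (![g, h] : Fin 2 → G) = fun _ => g := by
    funext i; fin_cases i; rfl
  rw [dd_apply, Fin.sum_univ_two, h0, h1, h2]
  simp only [Fin.val_zero, Fin.val_one, zero_add, pow_one, neg_smul, one_smul,
    Matrix.cons_val_zero]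
  norm_num
  abel

theorem dd2 (f : (Fin 2 → G) → A) (g h k : G) :
    dd A 2 f ![g, h, k] = g • f ![h, k] - f ![g * h, k] + f ![g, h * k] - f ![g, h] := by
  have h0 : (fun i : Fin 2 => (![g, h, k] : Fin 3 → G) i.succ) = ![h, k] := by
    funext i; fin_cases i <;> rfl
  have h1 : Fin.contractNth (0 : Fin 3) (· * ·) (![g, h, k] : Fin 3 → G) = ![g * h, k] := by
    funext i; fin_cases i <;> rfl
  have h2 : Fin.contractNth (1 : Fin 3) (· * ·) (![g, h, k] : Fin 3 → G) = ![g, h * k] := by
    funext i; fin_cases i <;> rfl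
  have h3 : Fin.contractNth (2 : Fin 3) (· * ·) (![g, h, k] : Fin 3 → G) = ![g, h] := by
    funext i; fin_cases i <;> rfl
  rw [dd_apply, Fin.sum_univ_three, h0, h1, h2, h3]
  simp only [Fin.val_zero, Fin.val_one, Fin.val_two, zero_add, pow_one, neg_smul, one_smul,
    Matrix.cons_val_zero]
  norm_num
  abel

omit [Group G] in
theorem eq_cons2 (g : Fin 2 → G) : g = ![g 0, g 1] := by
  funext i; fin_cases i <;> rfl

omit [Group G] in
theorem eq_const1 (g : Fin 1 → G) : g = fun _ => g 0 := by
  funext i; fin_cases i; rfl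

end InflInj

open InflInj in
/-- Inflation is injective in degree `2` when `H^1(N, A) = 0` for all `N` of the coarse system.
`A₀` = the `𝓝`-smooth vectors of the `𝓝'`-smooth module `A`. -/
theorem refine_injective_two {G : Type} [Group G] {𝓝 𝓝' : LevelSys G} (hle : 𝓝.Le 𝓝')
    {A₀ A : Type} [AddCommGroup A₀] [DistribMulAction G A₀] [AddCommGroup A] [DistribMulAction G A]
    [Smooth 𝓝 A₀] [Smooth 𝓝' A] (ι : A₀ →+[G] A) (hι : Function.Injective ι)
    (hsm : ∀ a : A, (∃ N ∈ 𝓝.carrier, ∀ n ∈ N, n • a = a) → ∃ a₀, ι a₀ = a)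
    (hH1 : ∀ N ∈ 𝓝.carrier, ∀ y : Hsm (𝓝'.comap N.subtype) (ResMod N.subtype A) 1, y = 0)
    (x : Hsm 𝓝 A₀ 2) (h0 : Hsm.map ι 2 (Hsm.refine A₀ hle 2 x) = 0) : x = 0 := by
  induction x using Hsm.induction_on with
  | h z =>
    obtain ⟨hz', hre⟩ := Hsm.refine_mk hle 2 z
    rw [hre, Hsm.map_mk, Hsm.mk_eq_zero_iff] at h0
    obtain ⟨b, hb, hbz⟩ := h0
    obtain ⟨N, hN, hlev⟩ := z.2.1
    have hNn := 𝓝.normal N hN
    set c : G → G → A₀ := fun g h => (z : (Fin 2 → G) → A₀) ![g, h] with hc
    set β : G → A := fun g => b (fun _ => g) with hβ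
    have R : ∀ g h, g • β h - β (g * h) + β g = ι (c g h) := by
      intro g h
      have h1 := congrFun hbz ![g, h]
      rw [dd1] at h1
      exact h1
    have Zc : ∀ g h k, g • c h k - c (g * h) k + c g (h * k) - c g h = 0 := by
      intro g h k
      have h1 := congrFun (dd_eq_zero_of_mem_Zsm z.2) ![g, h, k]
      rw [dd2] at h1
      exact h1
    have L : ∀ g h n m, n ∈ N → m ∈ N → c (g * n) (h * m) = c g h := by
      intro g h n m hn hm
      refine hlev _ _ fun i => ?_
      fin_cases i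
      · change (g * n)⁻¹ * g ∈ N
        have : (g * n)⁻¹ * g = n⁻¹ := by group
        rw [this]; exact N.inv_mem hn
      · change (h * m)⁻¹ * h ∈ N
        have : (h * m)⁻¹ * h = m⁻¹ := by group
        rw [this]; exact N.inv_mem hm
    set c0 : A₀ := c 1 1 with hc0
    have c_g1 : ∀ g, c g 1 = g • c0 := by
      intro g
      have h1 := Zc g 1 1
      rw [mul_one, mul_one] at h1
      have h2 : g • c 1 1 - c g 1 = 0 := by rw [← h1]; abel
      exact (sub_eq_zero.1 h2).symm
    have c_1h : ∀ h, c 1 h = c0 := by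
      intro h
      have h1 := Zc 1 1 h
      rw [one_smul, mul_one, one_mul] at h1
      have h2 : c 1 h - c 1 1 = 0 := by rw [← h1]; abel
      exact sub_eq_zero.1 h2
    have c_gn : ∀ g n, n ∈ N → c g n = g • c0 := by
      intro g n hn
      have h1 := L g 1 1 n N.one_mem hn
      rw [mul_one, one_mul] at h1
      rw [h1, c_g1]
    have c_nh : ∀ n h, n ∈ N → c n h = c0 := by
      intro n h hn
      have h1 := L 1 h n 1 hn N.one_mem
      rw [mul_one, one_mul] at h1
      rw [h1, c_1h]
    have fix0 : ∀ n ∈ N, n • c0 = c0 := by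
      intro n hn
      rw [← c_g1, c_nh n 1 hn]
    -- the cocycle on `N`
    have hconst : (fun _ : Fin 1 → G => ι c0) ∈ Csm 𝓝' A 1 := by
      obtain ⟨N', hN'⟩ := 𝓝'.nonempty
      exact ⟨N', hN', fun _ _ _ => rfl⟩
    set b1 : (Fin 1 → G) → A := b - fun _ => ι c0 with hb1
    have hb1m : b1 ∈ Csm 𝓝' A 1 := sub_mem hb hconst
    set φ : A →+ ResMod N.subtype A :=
      (ResMod.toRes N.subtype : A ≃+ ResMod N.subtype A).toAddMonoidHom with hφ
    have hφc : ∀ (h : ↥N) (a : A), φ (N.subtype h • a) = h • φ a :=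
      fun x a => (ResMod.smul_def N.subtype x a).symm
    have hy : pcmap N.subtype φ 1 b1 ∈ Zsm (𝓝'.comap N.subtype) (ResMod N.subtype A) 1 := by
      refine ⟨pcmap_mem_Csm N.subtype (LevelSys.Le.refl _) φ hb1m, ?_⟩
      change dd _ 1 _ = 0
      rw [dd_pcmap N.subtype φ hφc]
      funext k
      rw [pcmap_apply]
      have e : (fun i => N.subtype (k i)) = ![((k 0 : ↥N) : G), ((k 1 : ↥N) : G)] := by
        funext i; fin_cases i <;> rfl
      rw [e, dd1]
      have h1 := R (k 0 : G) (k 1 : G)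
      have h2 : c (k 0 : G) (k 1 : G) = c0 := c_nh _ _ (k 0).2
      have h3 : ((k 0 : ↥N) : G) • ι c0 = ι c0 := by rw [← map_smul, fix0 _ (k 0).2]
      have h4 : ((k 0 : ↥N) : G) • b1 (fun _ => ((k 1 : ↥N) : G)) -
          b1 (fun _ => ((k 0 : ↥N) : G) * ((k 1 : ↥N) : G)) + b1 (fun _ => ((k 0 : ↥N) : G)) = 0 := by
        change ((k 0 : ↥N) : G) • (β (k 1 : G) - ι c0) - (β ((k 0 : G) * (k 1 : G)) - ι c0) +
          (β (k 0 : G) - ι c0) = 0
        rw [smul_sub, h3]
        rw [h2] at h1
        rw [← sub_eq_zero] at h1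
        rw [← h1]
        abel
      rw [h4, map_zero]
      rfl
    have hcl := hH1 N hN (Hsm.mk _ _ 1 ⟨_, hy⟩)
    rw [Hsm.mk_eq_zero_iff] at hcl
    obtain ⟨a0, -, ha0⟩ := hcl
    set a : A := (ResMod.toRes N.subtype).symm (a0 default) with ha
    have Ha : ∀ n ∈ N, β n - ι c0 = n • a - a := by
      intro n hn
      have h1 := congrFun ha0 (fun _ => (⟨n, hn⟩ : ↥N))
      rw [dd_zero_apply] at h1
      have h2 := congrArg (ResMod.toRes N.subtype).symm h1
      rw [map_sub, ResMod.smul_def', AddEquiv.symm_apply_apply] at h2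
      exact h2.symm
    -- the corrected cochain
    set b3 : G → A := fun g => β g - (g • a - a) with hb3
    have R3 : ∀ g h, g • b3 h - b3 (g * h) + b3 g = ι (c g h) := by
      intro g h
      rw [← R g h]
      change g • (β h - (h • a - a)) - (β (g * h) - ((g * h) • a - a)) + (β g - (g • a - a)) = _
      rw [smul_sub, smul_sub, mul_smul]
      abel
    have N3 : ∀ n ∈ N, b3 n = ι c0 := by
      intro n hn
      change β n - (n • a - a) = ι c0
      rw [← Ha n hn]
      abel
    have right : ∀ g n, n ∈ N → b3 (g * n) = b3 g := by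
      intro g n hn
      have h1 := R3 g n
      rw [N3 n hn, c_gn g n hn, map_smul] at h1
      have h2 : b3 g - b3 (g * n) = 0 := by
        have : g • ι c0 - b3 (g * n) + b3 g - g • ι c0 = 0 := by rw [h1, sub_self]
        rw [← this]; abel
      exact (sub_eq_zero.1 h2).symm
    have left : ∀ n g, n ∈ N → b3 (n * g) = n • b3 g := by
      intro n g hn
      have h1 := R3 n g
      rw [N3 n hn, c_nh n g hn] at h1
      have h2 : n • b3 g - b3 (n * g) = 0 := by
        have : n • b3 g - b3 (n * g) + ι c0 - ι c0 = 0 := by rw [h1, sub_self]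
        rw [← this]; abel
      exact (sub_eq_zero.1 h2).symm
    have inv : ∀ n ∈ N, ∀ g, n • b3 g = b3 g := by
      intro n hn g
      rw [← left n g hn]
      have h1 : n * g = g * (g⁻¹ * n * g) := by group
      have h2 : g⁻¹ * n * g ∈ N := by
        have := hNn.conj_mem n hn g⁻¹
        simpa using this
      rw [h1, right g _ h2]
    choose e he using fun g => hsm (b3 g) ⟨N, hN, fun n hn => inv n hn g⟩
    rw [Hsm.mk_eq_zero_iff]
    refine ⟨fun k => e (k 0), ⟨N, hN, fun k k' hk => ?_⟩, ?_⟩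
    · apply hι
      rw [he, he]
      have h1 : k' 0 = k 0 * ((k 0)⁻¹ * k' 0) := by group
      rw [h1, right _ _ (hk 0)]
    · funext k
      rw [eq_cons2 k, dd1]
      apply hι
      rw [map_add, map_sub, map_smul, he, he, he]
      exact R3 (k 0) (k 1)

end Fermat.Agent.S55.Units
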