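/-
S55 / block UNITS, layer B/C: section `U2`.
`H^2_S(Map(X, (ℚ_S)ˣ)) → H^2(Map(X, ℚ̄ˣ))` is injective, and bijective in degree `0`.
-/
import Fermat.Agent.S55.Units.H90
import Fermat.Agent.S55.Units.InflInj

set_option autoImplicit false

namespace Fermat.Agent.S55.Units

variable (S : Finset Nat.Primes) (X : Type) [MulAction GQ X] [Finite X] [SmoothSet (lvlS S) X]

/-- an `S`-smooth vector of `Map(X, ℚ̄ˣ)` has values in `(ℚ_S)ˣ` -/
theorem exists_mapCoeff_incLK_eq (f : IndMod X Kx)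
    (hf : ∃ N ∈ (lvlS S).carrier, ∀ n ∈ N, n • f = f) :
    ∃ f₀ : IndMod X (LSx S), IndMod.mapCoeff X (incLK S) f₀ = f := by
  obtain ⟨N, hN, hNf⟩ := hf
  obtain ⟨N₁, hN₁, hfix⟩ := SmoothSet.exists_fix_all (lvlS S) X
  obtain ⟨N₂, hN₂, hle⟩ := (lvlS S).directed N hN N₁ hN₁
  have hmem : ∀ x, f x ∈ (LSsub S).toAddSubgroup := by
    intro x
    refine ⟨N₂, hN₂, fun n hn => ?_⟩
    have h1 : (n • f) x = f x := by rw [hNf n (hle hn).1]
    rw [IndMod.smul_apply, hfix n⁻¹ (N₁.inv_mem (hle hn).2) x] at h1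
    exact h1
  exact ⟨IndMod.of fun x => (LSsub S).mkMod (f x) (hmem x), IndMod.ext fun x => rfl⟩

omit [Finite X] [SmoothSet (lvlS S) X] in
theorem mapCoeff_incLK_injective : Function.Injective (IndMod.mapCoeff X (incLK S)) := by
  intro f f' h
  refine IndMod.ext fun x => incLK_injective S ?_
  exact congrArg (fun F : IndMod X Kx => F x) h

/-- **U2**, second half: `H^2_S(Map(X, (ℚ_S)ˣ)) → H^2(Map(X, ℚ̄ˣ))` is injective. -/
theorem brL_injective_two : Function.Injective (brL S X 2) := by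
  have : SmoothSet lvlAll X := smoothSet_all S X
  rw [injective_iff_map_eq_zero]
  intro x hx
  exact refine_injective_two (lvlS_le_lvlAll S) (IndMod.mapCoeff X (incLK S))
    (mapCoeff_incLK_injective S X) (exists_mapCoeff_incLK_eq S X)
    (fun N _ => hilbert90_comap N.subtype X) x hx

/-- `H^0_S(Map(X, (ℚ_S)ˣ)) = H^0(Map(X, ℚ̄ˣ))` -/
theorem brL_bijective_zero : Function.Bijective (brL S X 0) := by
  have h1 : Function.Bijective (inflS S (IndMod X (LSx S)) 0) :=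
    Hsm.refine_bijective_zero (lvlS_le_lvlAll S)
  have h2 : Function.Bijective (Hsm.map (𝓝 := lvlAll) (IndMod.mapCoeff X (incLK S)) 0) := by
    refine ⟨Hsm.map_injective_zero (mapCoeff_incLK_injective S X), fun y => ?_⟩
    obtain ⟨a, rfl⟩ := (Hsm.H0equiv (𝓝 := lvlAll) (A := IndMod X Kx)).symm.surjective y
    obtain ⟨N, hN⟩ := (lvlS S).nonempty
    obtain ⟨f₀, hf₀⟩ := exists_mapCoeff_incLK_eq S X (a : IndMod X Kx) ⟨N, hN, fun n _ => a.2 n⟩
    have hinv : f₀ ∈ inv0 GQ (IndMod X (LSx S)) := by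
      intro g
      apply mapCoeff_incLK_injective S X
      rw [map_smul, hf₀, a.2 g]
    refine ⟨Hsm.H0equiv.symm ⟨f₀, hinv⟩, ?_⟩
    rw [Hsm.map_H0equiv_symm]
    congr 1
    exact Subtype.ext hf₀
  exact h2.comp h1

end Fermat.Agent.S55.Units
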