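/-
S55 / block UNITS, layer B/C: section `U3` (owner helper80).
`H^2_S(E_X)(p) → H^2(K_X)` is injective; `p`-primary classes of `H^2_S(LS_X)` with trivial divisor
come from `H^2_S(E_X)(p)`.
-/
import Fermat.Agent.S55.Units.U2
import Fermat.Agent.S55.Units.AbsDiv
import Fermat.Agent.S55.Units.PermH1
import Fermat.Agent.S55.Units.Kummer

set_option autoImplicit false

namespace Fermat.Agent.S55.Units

variable (S : Finset Nat.Primes) {p : ℕ} [Fact p.Prime] (hpS : ExtCitation.pPrime p ∈ S)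
  (X : Type) [MulAction GQ X] [Finite X] [SmoothSet (lvlS S) X]

include hpS in
/-- (I2) for `Map(X, -)` -/
theorem exists_coprime_smul_eq_mapCoeff_valG (c : IndMod X (DivMod S)) :
    ∃ m : ℕ, m.Coprime p ∧ ∃ b : IndMod X (LSx S), IndMod.mapCoeff X (valG S) b = m • c := by
  obtain ⟨m, hm, h⟩ := absdiv_common_mult (valG S) p
    (fun φ => exists_coprime_smul_eq_valG (ExtCitation.pPrime p) hpS φ) (Set.finite_range c)
  choose b hb using fun x => h (c x) ⟨x, rfl⟩
  exact ⟨m, hm, IndMod.of b, IndMod.ext fun x => hb x⟩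

omit [Finite X] [SmoothSet (lvlS S) X] in
theorem U3.mapCoeff_incEL_injective : Function.Injective (IndMod.mapCoeff X (incEL S)) := by
  intro f f' h
  refine IndMod.ext fun x => incEL_injective S ?_
  exact congrArg (fun F : IndMod X (LSx S) => F x) h

omit [Finite X] [SmoothSet (lvlS S) X] in
theorem U3.mapCoeff_valG_exact (b : IndMod X (LSx S)) :
    IndMod.mapCoeff X (valG S) b = 0 ↔ ∃ a, IndMod.mapCoeff X (incEL S) a = b := by
  constructor
  · intro h
    have h1 : ∀ x, ∃ a, incEL S a = b x := fun x =>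
      (valG_exact (b x)).1 (congrArg (fun F : IndMod X (DivMod S) => F x) h)
    choose a ha using h1
    exact ⟨IndMod.of a, IndMod.ext fun x => ha x⟩
  · rintro ⟨a, rfl⟩
    exact IndMod.ext fun x => (valG_exact _).2 ⟨a x, rfl⟩

include hpS in
/-- **U3** : `H^2_S(E_X)(p) → H^2(K_X)` is injective. -/
theorem brE_eq_zero (x : Hsm (lvlS S) (IndMod X (ESx S)) 2) (hx : ∃ e : ℕ, p ^ e • x = 0)
    (h0 : brE S X 2 x = 0) : x = 0 := by
  have h1 : Hsm.map (IndMod.mapCoeff X (incEL S)) 2 x = 0 := by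
    apply brL_injective_two S X
    rw [map_zero]
    exact h0
  exact absdiv_inj (lvlS S) (IndMod.mapCoeff X (incEL S)) (IndMod.mapCoeff X (valG S))
    (U3.mapCoeff_incEL_injective S X) (U3.mapCoeff_valG_exact S X) p
    (exists_coprime_smul_eq_mapCoeff_valG S hpS X) (H1_ind_divMod S X) x hx h1

include hpS in
/-- **U3** : a `p`-primary class of `H^2_S(LS_X)` with trivial divisor comes from `H^2_S(E_X)(p)`. -/
theorem exists_map_incEL_eq (y : Hsm (lvlS S) (IndMod X (LSx S)) 2) (hy : ∃ e : ℕ, p ^ e • y = 0)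
    (h0 : Hsm.map (IndMod.mapCoeff X (valG S)) 2 y = 0) :
    ∃ x : Hsm (lvlS S) (IndMod X (ESx S)) 2, (∃ e : ℕ, p ^ e • x = 0) ∧
      Hsm.map (IndMod.mapCoeff X (incEL S)) 2 x = y :=
  absdiv_surj (lvlS S) (IndMod.mapCoeff X (incEL S)) (IndMod.mapCoeff X (valG S))
    (U3.mapCoeff_incEL_injective S X) (U3.mapCoeff_valG_exact S X) p
    (exists_coprime_smul_eq_mapCoeff_valG S hpS X) (Fact.out) y hy h0

end Fermat.Agent.S55.Units
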