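/-
S55 / block UNITS, layer B/C: section `U6`.   Owner: helper272.
`Sha^2_S(μ_F) = δ(H^1_S(E_F)) = κ(H^0_S(P_F))`, the kernel of `κ`, `κ` commutes with corestriction.
-/
import Fermat.Agent.S55.Units.U3
import Fermat.Agent.S55.Units.Compat
import Fermat.Agent.S55.Units.Needs

set_option autoImplicit false

namespace Fermat.Agent.S55.Units

variable {S : Finset Nat.Primes} {p : ℕ} [Fact p.Prime] (hpS : ExtCitation.pPrime p ∈ S)

omit [Fact p.Prime] in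
/-- `Map(X, p)` induces multiplication by `p` on cohomology -/
private theorem u6_map_mulBy (X : Type) [MulAction GQ X] (n : ℕ)
    (y : Hsm (lvlS S) (IndMod X (ESx S)) n) :
    Hsm.map (IndMod.mapCoeff X (mulBy GQ (ESx S) p)) n y = p • y :=
  Hsm.map_nsmul' p (fun _ => rfl) n y

private theorem u6_isOpen_all {U : Subgroup GQ} (hU : (lvlS S).IsOpen U) : lvlAll.IsOpen U := by
  obtain ⟨N, hN, hle⟩ := hU
  obtain ⟨N', hN', hle'⟩ := lvlS_le_lvlAll S N hN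
  exact ⟨N', hN', hle'.trans hle⟩

/-- **U6** : `Sha^2_S(μ_F) = δ(H^1_S(E_F))` (`δ` = connecting map of the Kummer sequence). -/
theorem mem_Sha_two_iff (h7 : NeedL7 S) (h1 : NeedB1 p) (U : Subgroup GQ)
    (hU : (lvlS S).IsOpen U) [Finite (GQ ⧸ U)] [SmoothSet (lvlS S) (GQ ⧸ U)]
    (x : Hsm (lvlS S) (IndMod (GQ ⧸ U) (Mu p)) 2) :
    x ∈ Sha S (IndMod (GQ ⧸ U) (Mu p)) 2 ↔
      ∃ c : Hsm (lvlS S) (IndMod (GQ ⧸ U) (ESx S)) 1,
        Hsm.delta (IndMod.shortExact_mapCoeff (GQ ⧸ U) (kummerE hpS)) 1 c = x := by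
  have hse := IndMod.shortExact_mapCoeff (GQ ⧸ U) (kummerE hpS)
  constructor
  · intro hx
    have hp0 : p • Hsm.map (IndMod.mapCoeff (GQ ⧸ U) (incME hpS)) 2 x = 0 := by
      rw [← u6_map_mulBy]
      exact Hsm.map_map_eq_zero hse 2 x
    have hloc : ∀ q : Nat.Primes, locA q _ 2
        (brE S (GQ ⧸ U) 2 (Hsm.map (IndMod.mapCoeff (GQ ⧸ U) (incME hpS)) 2 x)) = 0 := by
      intro q
      by_cases hq : q ∈ S
      · rw [brE_map_incME, ← locMK_locS, mem_Sha_iff.1 hx ⟨q, hq⟩, map_zero]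
      · exact h7 q hq (GQ ⧸ U) _
    have hbr : brE S (GQ ⧸ U) 2 (Hsm.map (IndMod.mapCoeff (GQ ⧸ U) (incME hpS)) 2 x) = 0 := by
      refine h1 U (u6_isOpen_all hU) _ ⟨1, ?_⟩ hloc
      rw [pow_one, ← map_nsmul, hp0, map_zero]
    have hxE : Hsm.map (IndMod.mapCoeff (GQ ⧸ U) (incME hpS)) 2 x = 0 :=
      brE_eq_zero S hpS (GQ ⧸ U) _ ⟨1, by rw [pow_one, hp0]⟩ hbr
    exact (Hsm.exact_delta_map hse 1 x).1 hxE
  · rintro ⟨c, rfl⟩
    have : SmoothSet lvlAll (GQ ⧸ U) := smoothSet_all S (GQ ⧸ U)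
    rw [mem_Sha_iff]
    intro q
    apply locMK_injective_two (GQ ⧸ U) q.1 p (Fact.out : p.Prime).pos
    rw [locMK_locS, ← brE_map_incME S (GQ ⧸ U) hpS, Hsm.map_delta_eq_zero hse 1 c, map_zero,
      map_zero, map_zero]

/-- `κ_X : H^0_S(P_X) → H^1_S(E_X) → H^2_S(μ_X)`. -/
noncomputable def kappa (X : Type) [MulAction GQ X] [Finite X] [SmoothSet (lvlS S) X] :
    Hsm (lvlS S) (IndMod X (PSx S)) 0 →+ Hsm (lvlS S) (IndMod X (Mu p)) 2 :=
  (Hsm.delta (IndMod.shortExact_mapCoeff X (kummerE hpS)) 1).comp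
    (Hsm.delta (IndMod.shortExact_mapCoeff X (divExact S)) 0)

private theorem u6_deltaD_surjective (X : Type) [MulAction GQ X] [Finite X]
    [SmoothSet (lvlS S) X] :
    Function.Surjective (Hsm.delta (𝓝 := lvlS S) (IndMod.shortExact_mapCoeff X (divExact S)) 0) :=
  Hsm.delta_surjective _ 0 (hilbert90_S S X)

/-- the image of `κ` is `Sha^2_S(μ_F)` -/
theorem mem_Sha_two_iff_kappa (h7 : NeedL7 S) (h1 : NeedB1 p) (U : Subgroup GQ)
    (hU : (lvlS S).IsOpen U) [Finite (GQ ⧸ U)] [SmoothSet (lvlS S) (GQ ⧸ U)]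
    (x : Hsm (lvlS S) (IndMod (GQ ⧸ U) (Mu p)) 2) :
    x ∈ Sha S (IndMod (GQ ⧸ U) (Mu p)) 2 ↔ ∃ 𝔞, kappa hpS (GQ ⧸ U) 𝔞 = x := by
  rw [mem_Sha_two_iff hpS h7 h1 U hU]
  constructor
  · rintro ⟨c, rfl⟩
    obtain ⟨𝔞, rfl⟩ := u6_deltaD_surjective (GQ ⧸ U) c
    exact ⟨𝔞, rfl⟩
  · rintro ⟨𝔞, rfl⟩
    exact ⟨_, rfl⟩

/-- the kernel of `κ` is `p H^0_S(P_X) + (principal divisors of F)` -/
theorem kappa_eq_zero_iff (X : Type) [MulAction GQ X] [Finite X] [SmoothSet (lvlS S) X]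
    (𝔞 : Hsm (lvlS S) (IndMod X (PSx S)) 0) :
    kappa hpS X 𝔞 = 0 ↔ ∃ (𝔠 : Hsm (lvlS S) (IndMod X (PSx S)) 0)
      (a : Hsm (lvlS S) (IndMod X (LSx S)) 0),
      𝔞 = p • 𝔠 + Hsm.map (IndMod.mapCoeff X (valP S)) 0 a := by
  have hK := IndMod.shortExact_mapCoeff X (kummerE hpS)
  have hD := IndMod.shortExact_mapCoeff X (divExact S)
  constructor
  · intro h0
    obtain ⟨c', hc'⟩ := (Hsm.exact_map_delta hK 1 _).1 h0
    rw [u6_map_mulBy] at hc'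
    obtain ⟨𝔠, rfl⟩ := u6_deltaD_surjective X c'
    have h2 : Hsm.delta hD 0 (𝔞 - p • 𝔠) = 0 := by
      rw [map_sub, map_nsmul, hc', sub_self]
    obtain ⟨a, ha⟩ := (Hsm.exact_map_delta hD 0 _).1 h2
    exact ⟨𝔠, a, by rw [ha]; abel⟩
  · rintro ⟨𝔠, a, rfl⟩
    change Hsm.delta hK 1 (Hsm.delta hD 0 _) = 0
    rw [map_add, Hsm.delta_map_eq_zero hD 0 a, add_zero, map_nsmul, ← u6_map_mulBy,
      Hsm.delta_map_eq_zero hK 1]

/-- `κ` commutes with corestriction -/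
theorem kappa_push {X X' : Type} [MulAction GQ X] [Finite X] [SmoothSet (lvlS S) X]
    [MulAction GQ X'] [Finite X'] [SmoothSet (lvlS S) X'] (u : X' →[GQ] X)
    (𝔞 : Hsm (lvlS S) (IndMod X' (PSx S)) 0) :
    kappa hpS X (Hsm.map (IndMod.push (PSx S) u) 0 𝔞) =
      Hsm.map (IndMod.push (Mu p) u) 2 (kappa hpS X' 𝔞) := by
  change Hsm.delta (IndMod.shortExact_mapCoeff X (kummerE hpS)) 1
      (Hsm.delta (IndMod.shortExact_mapCoeff X (divExact S)) 0 _) =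
    Hsm.map (IndMod.push (Mu p) u) 2 (Hsm.delta (IndMod.shortExact_mapCoeff X' (kummerE hpS)) 1
      (Hsm.delta (IndMod.shortExact_mapCoeff X' (divExact S)) 0 𝔞))
  rw [Hsm.delta_naturality (IndMod.shortExact_mapCoeff X' (divExact S))
      (IndMod.shortExact_mapCoeff X (divExact S)) (IndMod.push (ESx S) u) (IndMod.push (LSx S) u)
      (IndMod.push (PSx S) u) (fun a => (IndMod.mapCoeff_push _ u a).symm)
      (fun b => (IndMod.mapCoeff_push _ u b).symm) 0 𝔞,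
    Hsm.delta_naturality (IndMod.shortExact_mapCoeff X' (kummerE hpS))
      (IndMod.shortExact_mapCoeff X (kummerE hpS)) (IndMod.push (Mu p) u) (IndMod.push (ESx S) u)
      (IndMod.push (ESx S) u) (fun a => (IndMod.mapCoeff_push _ u a).symm)
      (fun b => (IndMod.mapCoeff_push _ u b).symm) 1]

end Fermat.Agent.S55.Units
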