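/-
S55 / block UNITS, layer D: section `U6Exist`.
(T5) reduced to a statement on divisors (export for EXIST).
-/
import Fermat.Agent.S55.Units.U6
import Fermat.Agent.S55.Units.AdaptBr

set_option autoImplicit false

namespace Fermat.Agent.S55.Units

variable {S : Finset Nat.Primes} {p : ℕ} [Fact p.Prime]

omit [Fact p.Prime] in
/-- `H^n_S(μ_X)` is killed by `p` -/
private theorem u6e_nsmul_mu (X : Type) [MulAction GQ X] (n : ℕ)
    (y : Hsm (lvlS S) (IndMod X (Mu p)) n) : p • y = 0 := by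
  have h0 : ∀ a : IndMod X (Mu p), p • a = 0 := by
    intro a
    ext x
    rw [IndMod.nsmul_apply, IndMod.zero_apply]
    apply (muSub p).incl_injective
    rw [map_nsmul, map_zero]
    exact (muSub p).incl_mem (a x)
  rw [← Hsm.map_nsmul' (χ := mulBy GQ (IndMod X (Mu p)) p) p (fun _ => rfl) n y]
  exact Hsm.map_zero' (fun a => h0 a) n y

private theorem u6e_mapCoeff_incPI_injective (X : Type) [MulAction GQ X] :
    Function.Injective (IndMod.mapCoeff X (incPI S)) := by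
  intro f f' h
  ext1 x
  apply (GSub.range (valG S)).inclG_injective
  exact congrArg (fun F : IndMod X (DivMod S) => F x) h

private theorem u6e_incPI_valP (X : Type) [MulAction GQ X] (b : IndMod X (LSx S)) :
    IndMod.mapCoeff X (incPI S) (IndMod.mapCoeff X (valP S) b) = IndMod.mapCoeff X (valG S) b :=
  rfl

/-- **(U6-EXIST)**, the reduction of (T5) to a statement on divisors: if the norm of every divisor
of `F'` is, modulo `p`, a principal divisor of `F`, then corestriction kills `Sha^2_S(μ_{F'})`. -/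
theorem push_Sha_eq_zero_of (hpS : ExtCitation.pPrime p ∈ S) (h7 : NeedL7 S) (h1 : NeedB1 p)
    {U' U : Subgroup GQ} (hU' : (lvlS S).IsOpen U') (hle : U' ≤ U) [Finite (GQ ⧸ U')]
    [Finite (GQ ⧸ U)]
    (H : ∀ 𝔄 ∈ inv0 GQ (IndMod (GQ ⧸ U') (DivMod S)),
      ∃ y ∈ inv0 GQ (IndMod (GQ ⧸ U) (LSx S)), ∃ 𝔟 ∈ inv0 GQ (IndMod (GQ ⧸ U) (DivMod S)),
        IndMod.push (DivMod S) (quotProj hle) 𝔄 = IndMod.mapCoeff (GQ ⧸ U) (valG S) y + p • 𝔟)
    (x : Hsm (lvlS S) (IndMod (GQ ⧸ U') (Mu p)) 2) (hx : x ∈ Sha S (IndMod (GQ ⧸ U') (Mu p)) 2) :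
    Hsm.map (IndMod.push (Mu p) (quotProj hle)) 2 x = 0 := by
  have : SmoothSet (lvlS S) (GQ ⧸ U') := SmoothSet.quotient _ hU'
  have : SmoothSet (lvlS S) (GQ ⧸ U) := SmoothSet.quotient _ (hU'.mono hle)
  obtain ⟨𝔞, rfl⟩ := (mem_Sha_two_iff_kappa hpS h7 h1 U' hU' x).1 hx
  obtain ⟨a0, ha0⟩ : ∃ a0 : inv0 GQ (IndMod (GQ ⧸ U') (PSx S)), a0 = Hsm.H0equiv 𝔞 := ⟨_, rfl⟩
  obtain ⟨y, hy, 𝔟, h𝔟, hH⟩ := H _ (inv0.map (IndMod.mapCoeff (GQ ⧸ U') (incPI S)) a0).2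
  rw [inv0.coe_map] at hH
  obtain ⟨m, hm, β, hβ⟩ := exists_coprime_smul_eq_mapCoeff_valG S hpS (GQ ⧸ U) 𝔟
  have hinj := u6e_mapCoeff_incPI_injective (S := S) (GQ ⧸ U)
  -- `𝔠` is invariant
  have h𝔠 : IndMod.mapCoeff (GQ ⧸ U) (valP S) β ∈ inv0 GQ (IndMod (GQ ⧸ U) (PSx S)) := by
    intro g
    apply hinj
    rw [map_smul, u6e_incPI_valP, hβ, smul_comm, h𝔟 g]
  have hmy : m • y ∈ inv0 GQ (IndMod (GQ ⧸ U) (LSx S)) := nsmul_mem hy m
  -- the identity between invariant elements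
  have key : m • IndMod.push (PSx S) (quotProj hle) (a0 : IndMod (GQ ⧸ U') (PSx S)) =
      p • IndMod.mapCoeff (GQ ⧸ U) (valP S) β + IndMod.mapCoeff (GQ ⧸ U) (valP S) (m • y) := by
    apply hinj
    rw [map_nsmul, IndMod.mapCoeff_push, hH, map_add, map_nsmul, u6e_incPI_valP, u6e_incPI_valP,
      hβ, map_nsmul, smul_add, smul_comm m p, add_comm]
  -- the same in `H^0`
  have key' : m • Hsm.map (IndMod.push (PSx S) (quotProj hle)) 0 𝔞 =
      p • (Hsm.H0equiv (𝓝 := lvlS S)).symm ⟨_, h𝔠⟩ +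
        Hsm.map (IndMod.mapCoeff (GQ ⧸ U) (valP S)) 0
          ((Hsm.H0equiv (𝓝 := lvlS S)).symm ⟨_, hmy⟩) := by
    apply (Hsm.H0equiv (𝓝 := lvlS S)).injective
    rw [map_nsmul, map_add, map_nsmul, Hsm.H0equiv_map, Hsm.H0equiv_map,
      AddEquiv.apply_symm_apply, AddEquiv.apply_symm_apply, ← ha0]
    exact Subtype.ext key
  have hk : kappa hpS (GQ ⧸ U) (m • Hsm.map (IndMod.push (PSx S) (quotProj hle)) 0 𝔞) = 0 :=
    (kappa_eq_zero_iff hpS (GQ ⧸ U) _).2 ⟨_, _, key'⟩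
  rw [map_nsmul, kappa_push] at hk
  exact eq_zero_of_nsmul_eq_zero_of_coprime hm hk (u6e_nsmul_mu _ 2 _)

/-- the same, in terms of the packages of LOC and BR -/
theorem push_Sha_eq_zero (hpS : ExtCitation.pPrime p ∈ S) {L : ∀ q, LocPkg p q} (B : BrPkg p L)
    {U' U : Subgroup GQ} (hU' : (lvlS S).IsOpen U') (hle : U' ≤ U) [Finite (GQ ⧸ U')]
    [Finite (GQ ⧸ U)]
    (H : ∀ 𝔄 ∈ inv0 GQ (IndMod (GQ ⧸ U') (DivMod S)),
      ∃ y ∈ inv0 GQ (IndMod (GQ ⧸ U) (LSx S)), ∃ 𝔟 ∈ inv0 GQ (IndMod (GQ ⧸ U) (DivMod S)),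
        IndMod.push (DivMod S) (quotProj hle) 𝔄 = IndMod.mapCoeff (GQ ⧸ U) (valG S) y + p • 𝔟)
    (x : Hsm (lvlS S) (IndMod (GQ ⧸ U') (Mu p)) 2) (hx : x ∈ Sha S (IndMod (GQ ⧸ U') (Mu p)) 2) :
    Hsm.map (IndMod.push (Mu p) (quotProj hle)) 2 x = 0 :=
  push_Sha_eq_zero_of hpS (needL7_of_locPkg L S) (needB1_of_brPkg B) hU' hle H x hx

end Fermat.Agent.S55.Units
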