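/-
S55 / block UNITS, layer A (arithmetic in `ℚ̄`): section `DivLoc` (divisor of a local element).
-/
import Fermat.Agent.S55.Units.EOne

set_option autoImplicit false

open scoped Pointwise

namespace Fermat.Agent.S55.Units

/-! ## Section DivLoc : file `Units/DivLoc.lean` (divisor of a local element) -/
section DivLoc

variable {S : Finset Nat.Primes}

/-- the inertia group is contained in the decomposition group -/
theorem inertiaSubgroupIn_le_decompositionSubgroup (A : ValuationSubring Qb) :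
    A.inertiaSubgroupIn ℚ ≤ A.decompositionSubgroup ℚ := by
  rintro σ ⟨τ, _, rfl⟩
  exact τ.2

open Classical in
/-- The underlying function of the divisor of a local element. -/
noncomputable def divLocFun (A₀ : PlOff S) {X : Type} [MulAction GQ X] (c : X → Qb) (x : X)
    (A : PlOff S) : ℤ :=
  if h : ∃ g : GQ, g • A₀ = A then A₀.ord (c (h.choose⁻¹ • x)) else 0

theorem divLocFun_indep (A₀ : PlOff S) {X : Type} [MulAction GQ X] (c : X → Qb)
    (hc : ∀ d ∈ A₀.1.decompositionSubgroup ℚ, ∀ x, c (d • x) = d (c x)) (x : X) (g g' : GQ)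
    (h : g • A₀ = g' • A₀) : A₀.ord (c (g'⁻¹ • x)) = A₀.ord (c (g⁻¹ • x)) := by
  have hd : (g'⁻¹ * g) • A₀ = A₀ := by
    rw [mul_smul, h, inv_smul_smul]
  have hd' : g'⁻¹ * g ∈ A₀.1.decompositionSubgroup ℚ := by
    rw [MulAction.mem_stabilizer_iff]
    exact congrArg Subtype.val hd
  have h1 : g'⁻¹ • x = (g'⁻¹ * g) • g⁻¹ • x := by
    rw [mul_smul, smul_inv_smul]
  rw [h1, hc _ hd']
  have h2 := PlOff.ord_smul (g'⁻¹ * g) A₀ (c (g⁻¹ • x))
  rw [hd] at h2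
  exact h2

theorem divLocFun_smul (A₀ : PlOff S) {X : Type} [MulAction GQ X] (c : X → Qb)
    (hc : ∀ d ∈ A₀.1.decompositionSubgroup ℚ, ∀ x, c (d • x) = d (c x)) (x : X) (g : GQ) :
    divLocFun A₀ c x (g • A₀) = A₀.ord (c (g⁻¹ • x)) := by
  have h : ∃ g' : GQ, g' • A₀ = g • A₀ := ⟨g, rfl⟩
  rw [divLocFun, dif_pos h]
  exact divLocFun_indep A₀ c hc x g h.choose h.choose_spec.symm

theorem divLocFun_of_not_exists (A₀ : PlOff S) {X : Type} [MulAction GQ X] (c : X → Qb) (x : X)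
    (A : PlOff S) (h : ¬ ∃ g : GQ, g • A₀ = A) : divLocFun A₀ c x A = 0 := by
  rw [divLocFun, dif_neg h]

theorem divLocFun_of_char_ne (A₀ : PlOff S) {X : Type} [MulAction GQ X] (c : X → Qb) (x : X)
    (A : PlOff S) (h : A.char ≠ A₀.char) : divLocFun A₀ c x A = 0 := by
  apply divLocFun_of_not_exists
  rintro ⟨g, rfl⟩
  exact h (PlOff.char_smul g A₀)

theorem divLocFun_mem_divSub (A₀ : PlOff S) {X : Type} [MulAction GQ X]
    (hX : ∀ x : X, ∃ F : IntermediateField ℚ Qb, F.IsUnramifiedOutside S ∧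
      F.fixingSubgroup.Normal ∧ ∀ n ∈ F.fixingSubgroup, n • x = x)
    (c : X → Qb)
    (hc : ∀ d ∈ A₀.1.decompositionSubgroup ℚ, ∀ x, c (d • x) = d (c x)) (x : X) :
    divLocFun A₀ c x ∈ divSub S := by
  obtain ⟨F, hF, hn, hfix⟩ := hX x
  refine ⟨⟨F, hF, hn, fun n hnF A => ?_⟩, ⟨{A₀.char}, fun A hA => ?_⟩⟩
  · by_cases h : ∃ g : GQ, g • A₀ = A
    · obtain ⟨g, rfl⟩ := h
      rw [← mul_smul, divLocFun_smul A₀ c hc, divLocFun_smul A₀ c hc, mul_inv_rev, mul_smul]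
      have h1 : n⁻¹ • x = x := by
        rw [inv_smul_eq_iff, hfix n hnF]
      rw [h1]
    · rw [divLocFun_of_not_exists A₀ c x A h, divLocFun_of_not_exists]
      rintro ⟨g, hg⟩
      exact h ⟨n⁻¹ * g, by rw [mul_smul, hg, inv_smul_smul]⟩
  · exact divLocFun_of_char_ne A₀ c x A (fun h => hA (by rw [h]; exact Finset.mem_singleton_self _))

/-- The divisor of a "local element at `A₀`" of the étale algebra `Map_G(X, ℚ̄)`:
`c : X → ℚ̄ˣ` equivariant for the decomposition group of `A₀`. -/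
theorem exists_divLoc (A₀ : PlOff S) {X : Type} [MulAction GQ X]
    (hX : ∀ x : X, ∃ F : IntermediateField ℚ Qb, F.IsUnramifiedOutside S ∧
      F.fixingSubgroup.Normal ∧ ∀ n ∈ F.fixingSubgroup, n • x = x)
    (c : X → Qb) (hc0 : ∀ x, c x ≠ 0)
    (hc : ∀ d ∈ A₀.1.decompositionSubgroup ℚ, ∀ x, c (d • x) = d (c x)) :
    ∃ 𝔟 : X → DivMod S, (∀ (g : GQ) (x : X), 𝔟 (g • x) = g • 𝔟 x) ∧
      (∀ (g : GQ) (x : X), 𝔟 x (g • A₀) = A₀.ord (c (g⁻¹ • x))) ∧
      (∀ (g : GQ) (x : X), HasOrd A₀.1 (A₀.char : ℕ) (c (g⁻¹ • x)) (𝔟 x (g • A₀))) ∧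
      ∀ (x : X) (A : PlOff S), A.char ≠ A₀.char → 𝔟 x A = 0 := by
  have hval : ∀ (g : GQ) (x : X),
      divLocFun A₀ c x (g • A₀) = A₀.ord (c (g⁻¹ • x)) := fun g x => divLocFun_smul A₀ c hc x g
  refine ⟨fun x => ⟨divLocFun A₀ c x, divLocFun_mem_divSub A₀ hX c hc x⟩, fun g x => ?_, hval,
    fun g x => ?_, fun x A h => divLocFun_of_char_ne A₀ c x A h⟩
  · ext A
    change divLocFun A₀ c (g • x) A = divLocFun A₀ c x (g⁻¹ • A)
    by_cases h : ∃ k : GQ, k • A₀ = A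
    · obtain ⟨k, rfl⟩ := h
      rw [← mul_smul, hval, hval, mul_inv_rev, inv_inv, mul_smul]
    · rw [divLocFun_of_not_exists A₀ c _ A h, divLocFun_of_not_exists]
      rintro ⟨k, hk⟩
      exact h ⟨g * k, by rw [mul_smul, hk, smul_inv_smul]⟩
  · change HasOrd A₀.1 (A₀.char : ℕ) (c (g⁻¹ • x)) (divLocFun A₀ c x (g • A₀))
    rw [hval]
    apply PlOff.hasOrd_ord_of_inertia_fixed A₀ _ (hc0 _)
    intro σ hσ
    obtain ⟨F, hF, _, hfix⟩ := hX (g⁻¹ • x)
    rw [← hc σ (inertiaSubgroupIn_le_decompositionSubgroup A₀.1 hσ),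
      hfix σ (hF.2 A₀.char A₀.char_not_mem A₀.1 A₀.liesOver_char hσ)]

end DivLoc

end Fermat.Agent.S55.Units
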