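/-
S55 / block UNITS, layer B/C: section `DivNorm` (task 1545, helper274).
A global element which is a local norm at all places outside `S` has a divisor which is a norm.
-/
import Fermat.Agent.S55.Units.Maps
import Fermat.Agent.S55.Units.DivLoc
import Fermat.Agent.S55.Units.Supp

set_option autoImplicit false
set_option linter.unusedSectionVars false

namespace Fermat.Agent.S55.Units

/-- `HasOrd` is additive along finite sums in `Kx`. -/
theorem hasOrd_finset_sum (A : ValuationSubring Qb) (q : ℕ) (hq : q ≠ 0) {ι : Type}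
    (s : Finset ι) (f : ι → Kx) (k : ι → ℤ) (h : ∀ i ∈ s, HasOrd A q (f i).val (k i)) :
    HasOrd A q (∑ i ∈ s, f i).val (∑ i ∈ s, k i) := by
  classical
  induction s using Finset.induction_on with
  | empty =>
    rw [Finset.sum_empty, Finset.sum_empty, Kx.val_zero]
    exact hasOrd_one A q
  | insert i s hi ih =>
    rw [Finset.sum_insert hi, Finset.sum_insert hi, Kx.val_add]
    exact (h i (Finset.mem_insert_self i s)).mul
      (ih fun j hj => h j (Finset.mem_insert_of_mem hj)) hq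

/-- evaluation of a divisor at a place -/
def DivMod.evalAtHom {S : Finset Nat.Primes} (A : PlOff S) : DivMod S →+ ℤ where
  toFun φ := φ A
  map_zero' := rfl
  map_add' _ _ := rfl

theorem DivMod.finset_sum_apply {S : Finset Nat.Primes} {ι : Type} (s : Finset ι)
    (F : ι → DivMod S) (A : PlOff S) : (∑ i ∈ s, F i) A = ∑ i ∈ s, F i A :=
  map_sum (DivMod.evalAtHom A) F s

theorem Kx.val_ne_zero' (x : Kx) : x.val ≠ 0 := (Additive.toMul x : Qbˣ).ne_zero

variable (S : Finset Nat.Primes) {X X' : Type} [MulAction GQ X] [MulAction GQ X'] [Finite X]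
  [Finite X'] [SmoothSet (lvlS S) X] [SmoothSet (lvlS S) X'] (u : X' →[GQ] X)

omit [Finite X] [SmoothSet (lvlS S) X] in
/-- the `q`-part of the divisor `𝔟`. -/
theorem exists_div_push_eq_part [Fintype X'] [DecidableEq X] (a : IndMod X (LSx S))
    (ha : ∀ g : GQ, g • a = a)
    (hloc : ∀ q : Nat.Primes, q ∉ S → ∃ c : IndMod X' Kx,
      (∀ d ∈ (ExtCitation.primeLocalPlace q).decompositionSubgroup ℚ, d • c = c) ∧
      IndMod.push Kx u c = IndMod.mapCoeff X (incLK S) a) (q : Nat.Primes) :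
    ∃ β : X' → DivMod S, (∀ (g : GQ) (x' : X'), β (g • x') = g • β x') ∧
      (∀ (x' : X') (A : PlOff S), A.char ≠ q → β x' A = 0) ∧
      ∀ (x : X) (A : PlOff S), A.char = q → ∑ x' with u x' = x, β x' A = valG S (a x) A := by
  by_cases hq : q ∈ S
  · refine ⟨fun _ => 0, fun g x' => (smul_zero g).symm, fun _ _ _ => rfl, fun x A hA => ?_⟩
    exact absurd (hA ▸ hq) A.char_not_mem
  obtain ⟨c, hc, hpush⟩ := hloc q hq
  have hfact : Fact (q : ℕ).Prime := ⟨q.2⟩
  have hA₀ : (plOf S hq).char = q :=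
    PlOff.char_eq (Fermat.Agent.S55.Bridge.padicPlace_liesOverPrime (q : ℕ))
  have hX : ∀ x : X', ∃ F : IntermediateField ℚ Qb, F.IsUnramifiedOutside S ∧
      F.fixingSubgroup.Normal ∧ ∀ n ∈ F.fixingSubgroup, n • x = x := by
    intro x
    obtain ⟨_, ⟨F, hF, hs, rfl⟩, h⟩ := SmoothSet.exists_fix (𝓝 := lvlS S) x
    exact ⟨F, hF, hs.fixingSubgroup_normal, h⟩
  obtain ⟨β, hβ1, -, hβ3, hβ4⟩ := exists_divLoc (plOf S hq) hX (fun x' => (c x').val)
    (fun x' => Kx.val_ne_zero' _) (by
      intro d hd x'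
      have h1 := congrArg (fun f : IndMod X' Kx => (f (d • x')).val) (hc d hd)
      simp only [IndMod.smul_apply, inv_smul_smul, Kx.val_smul] at h1
      exact h1.symm)
  refine ⟨β, hβ1, fun x' A hA => hβ4 x' A (by rw [hA₀]; exact hA), fun x A hA => ?_⟩
  obtain ⟨g, rfl⟩ := PlOff.exists_smul_eq (plOf S hq) A (by rw [hA₀, hA])
  rw [valG_apply]
  symm
  apply PlOff.ord_eq
  have h1 : (LSsub S).incl (a x) = ∑ x' with u x' = x, (g • c) x' := by
    rw [← IndMod.push_apply_eq_sum, map_smul, hpush, ← map_smul, ha]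
    rfl
  rw [h1]
  apply hasOrd_finset_sum _ _ (g • plOf S hq).char.2.ne_zero
  intro x' _
  rw [IndMod.smul_apply, Kx.val_smul, PlOff.smul_val, PlOff.char_smul, hasOrd_smul_iff]
  exact hβ3 g x'

/-- A global element which is a local norm at all places outside `S` has a divisor which is a
norm (function form). -/
theorem exists_div_push_eq_core (a : IndMod X (LSx S)) (ha : ∀ g : GQ, g • a = a)
    (hloc : ∀ q : Nat.Primes, q ∉ S → ∃ c : IndMod X' Kx,
      (∀ d ∈ (ExtCitation.primeLocalPlace q).decompositionSubgroup ℚ, d • c = c) ∧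
      IndMod.push Kx u c = IndMod.mapCoeff X (incLK S) a) :
    ∃ 𝔟 : IndMod X' (DivMod S), (∀ g : GQ, g • 𝔟 = 𝔟) ∧
      IndMod.push (DivMod S) u 𝔟 = IndMod.mapCoeff X (valG S) a := by
  classical
  have := Fintype.ofFinite X'
  have := Fintype.ofFinite X
  choose β hβ1 hβ2 hβ3 using exists_div_push_eq_part S u a ha hloc
  choose T hT using fun x : X =>
    exists_finset_valuation_eq_one ((LSsub S).incl (a x)).val (Kx.val_ne_zero' _)
  refine ⟨IndMod.of fun x' => ∑ q ∈ Finset.univ.biUnion T, β q x', fun g => ?_, ?_⟩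
  · ext x' : 1
    rw [IndMod.smul_apply, IndMod.of_apply, IndMod.of_apply, Finset.smul_sum]
    refine Finset.sum_congr rfl fun q _ => ?_
    rw [← hβ1, smul_inv_smul]
  · ext x A
    rw [IndMod.push_apply_eq_sum, IndMod.mapCoeff_apply, DivMod.finset_sum_apply]
    simp only [IndMod.of_apply, DivMod.finset_sum_apply]
    rw [Finset.sum_comm]
    by_cases hA : A.char ∈ Finset.univ.biUnion T
    · rw [Finset.sum_eq_single A.char, hβ3 A.char x A rfl]
      · intro q _ hq
        exact Finset.sum_eq_zero fun x' _ => hβ2 q x' A (Ne.symm hq)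
      · intro h
        exact absurd hA h
    · rw [valG_apply, PlOff.ord_eq ((hasOrd_zero_iff _ _ _).2 (hT x A.char
        (fun h => hA (Finset.mem_biUnion.2 ⟨x, Finset.mem_univ x, h⟩)) A.1 A.liesOver_char))]
      refine Finset.sum_eq_zero fun q hq => Finset.sum_eq_zero fun x' _ => hβ2 q x' A ?_
      rintro rfl
      exact hA hq

theorem divNorm_range_ιv (q : Nat.Primes) :
    (ιv q).range = (ExtCitation.primeLocalPlace q).decompositionSubgroup ℚ := by
  have : Fact (q : ℕ).Prime := ⟨q.2⟩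
  exact Fermat.Agent.S55.Bridge.range_localGaloisToGlobal (q : ℕ)

theorem divNorm_H0equiv_res {H G : Type} [Group H] [Group G] (f : H →* G) (A : Type)
    [AddCommGroup A] [DistribMulAction G A]
    (𝓝H : LevelSys H) (𝓝G : LevelSys G) (h : (𝓝G.comap f).Le 𝓝H) (x : Hsm 𝓝G A 0) :
    ((Hsm.H0equiv (Hsm.res A f 𝓝H 𝓝G h 0 x) : inv0 H (ResMod f A)) : ResMod f A) =
      ResMod.toRes f ((Hsm.H0equiv x : inv0 G A) : A) := by
  induction x using Hsm.induction_on with
  | h z =>
    have h0 : (fun i : Fin 0 => f ((default : Fin 0 → H) i)) = (default : Fin 0 → G) :=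
      Subsingleton.elim _ _
    show ResMod.toRes f (z.1 (fun i : Fin 0 => f ((default : Fin 0 → H) i))) =
      ResMod.toRes f (z.1 default)
    rw [h0]

theorem divNorm_H0equiv_refine {G : Type} [Group G] (A : Type)
    [AddCommGroup A] [DistribMulAction G A] {𝓝 𝓝' : LevelSys G} (h : 𝓝.Le 𝓝')
    (x : Hsm 𝓝 A 0) :
    ((Hsm.H0equiv (Hsm.refine A h 0 x) : inv0 G A) : A) = ((Hsm.H0equiv x : inv0 G A) : A) := by
  induction x using Hsm.induction_on with
  | h z =>
    have h0 : (fun i : Fin 0 => MonoidHom.id G ((default : Fin 0 → G) i)) =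
        (default : Fin 0 → G) := Subsingleton.elim _ _
    show z.1 (fun i : Fin 0 => MonoidHom.id G ((default : Fin 0 → G) i)) = z.1 default
    rw [h0]

/-- the same in `H^0` form -/
theorem exists_div_push_eq (a : Hsm (lvlS S) (IndMod X (LSx S)) 0)
    (hloc : ∀ q : Nat.Primes, q ∉ S → ∃ c : Hloc q (IndMod X' Kx) 0,
      Hsm.map (ResMod.map (ιv q) (IndMod.push Kx u)) 0 c = locA q _ 0 (brL S X 0 a)) :
    ∃ 𝔟 : Hsm (lvlS S) (IndMod X' (DivMod S)) 0,
      Hsm.map (IndMod.push (DivMod S) u) 0 𝔟 = Hsm.map (IndMod.mapCoeff X (valG S)) 0 a := by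
  obtain ⟨𝔟, h𝔟, hpush⟩ := exists_div_push_eq_core S u (Hsm.H0equiv a : inv0 GQ _).1
    (Hsm.H0equiv a : inv0 GQ _).2 (by
      intro q hq
      obtain ⟨c, hc⟩ := hloc q hq
      refine ⟨(ResMod.toRes (ιv q)).symm (Hsm.H0equiv c : inv0 (Gv q) _).1, fun d hd => ?_, ?_⟩
      · rw [← divNorm_range_ιv] at hd
        obtain ⟨τ, rfl⟩ := hd
        exact (Hsm.H0equiv c : inv0 (Gv q) _).2 τ
      · have h1 : ((Hsm.H0equiv (Hsm.map (ResMod.map (ιv q) (IndMod.push Kx u)) 0 c) :
            inv0 (Gv q) _) : ResMod (ιv q) (IndMod X Kx)) =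
            ((Hsm.H0equiv (locA q _ 0 (brL S X 0 a)) : inv0 (Gv q) _) :
              ResMod (ιv q) (IndMod X Kx)) := by rw [hc]
        rw [Hsm.H0equiv_map, inv0.coe_map] at h1
        have h2 : ((Hsm.H0equiv (locA q _ 0 (brL S X 0 a)) : inv0 (Gv q) _) :
            ResMod (ιv q) (IndMod X Kx)) =
            ResMod.toRes (ιv q) (IndMod.mapCoeff X (incLK S) (Hsm.H0equiv a : inv0 GQ _).1) := by
          refine (divNorm_H0equiv_res (ιv q) (IndMod X Kx) (lvlLoc q) lvlAll
            (LevelSys.Le.refl _) (brL S X 0 a)).trans ?_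
          rw [brL, AddMonoidHom.comp_apply, Hsm.H0equiv_map, inv0.coe_map, inflS,
            divNorm_H0equiv_refine]
        exact h1.trans h2)
  refine ⟨Hsm.H0equiv.symm ⟨𝔟, h𝔟⟩, ?_⟩
  apply Hsm.H0equiv.injective
  rw [Hsm.map_H0equiv_symm, AddEquiv.apply_symm_apply, Hsm.H0equiv_map]
  exact Subtype.ext hpush

end Fermat.Agent.S55.Units
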