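/-
S55 / block UNITS, layer B/C, section `ThetaDesc` (helper107):
**U4c** core: cyclic classes `θ(b)` which are locally trivial outside `S` descend to
`H^2_S(E_X)(p)`.
-/
import Fermat.Agent.S55.Units.U3
import Fermat.Agent.S55.Units.DivNorm

set_option autoImplicit false

namespace Fermat.Agent.S55.Units

variable (S : Finset Nat.Primes) {p : ℕ} [Fact p.Prime] {X X' : Type} [MulAction GQ X]
  [MulAction GQ X'] [Finite X] [Finite X'] [SmoothSet (lvlS S) X] [SmoothSet (lvlS S) X']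
  [SmoothSet lvlAll X] [SmoothSet lvlAll X'] {u : X' →[GQ] X} {σ : X' →[GQ] X'} {m : ℕ}

theorem brL_theta (h : CyclicCover u σ m) (a : Hsm (lvlS S) (IndMod X (LSx S)) 0) :
    brL S X 2 (h.theta (lvlS S) (LSx S) 0 a) = h.theta lvlAll Kx 0 (brL S X 0 a) := by
  have hsm : Smooth lvlAll (LSx S) := Smooth.of_le (lvlS_le_lvlAll S)
  show Hsm.map (IndMod.mapCoeff X (incLK S)) 2
      (Hsm.refine (IndMod X (LSx S)) (lvlS_le_lvlAll S) 2 (h.theta (lvlS S) (LSx S) 0 a)) =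
    h.theta lvlAll Kx 0 (Hsm.map (IndMod.mapCoeff X (incLK S)) 0
      (Hsm.refine (IndMod X (LSx S)) (lvlS_le_lvlAll S) 0 a))
  rw [CyclicCover.theta_mapCoeff lvlAll (LSx S) h (incLK S) 0,
    CyclicCover.theta_eq_fourTerm, CyclicCover.theta_eq_fourTerm,
    FourTerm.refine_theta (lvlS_le_lvlAll S) (h.fourTerm (LSx S)) 0 a]

omit [SmoothSet lvlAll X] [Finite X] in
/-- **L5** : `θ(b)` is locally trivial at `q` iff `b` is a local norm at `q`. -/
theorem locA_theta_eq_zero_iff (h : CyclicCover u σ m) (q : Nat.Primes)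
    (b : Hsm lvlAll (IndMod X Kx) 0) :
    locA q _ 2 (h.theta lvlAll Kx 0 b) = 0 ↔
      ∃ c : Hloc q (IndMod X' Kx) 0,
        Hsm.map (ResMod.map (ιv q) (IndMod.push Kx u)) 0 c = locA q _ 0 b := by
  have key := FourTerm.res_theta (𝓝H := lvlLoc q) (𝓝G := lvlAll) (ιv q) (LevelSys.Le.refl _)
    (h.fourTerm Kx) 0 b
  have hiff := FourTerm.theta_eq_zero_iff (𝓝 := lvlLoc q) ((h.fourTerm Kx).res (ιv q)) 0
    (hilbert90_loc q X') (Hsm.res (IndMod X Kx) (ιv q) (lvlLoc q) lvlAll (LevelSys.Le.refl _) 0 b)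
  rw [key] at hiff
  exact hiff

/-- **U4c**, core: a cyclic class `θ(b)` of `p`-power degree, split by an `S`-cover and locally
trivial outside `S`, comes from `H^2_S(E_X)(p)`. -/
theorem theta_descends (hpS : ExtCitation.pPrime p ∈ S) {k : ℕ} (h : CyclicCover u σ (p ^ k))
    (b : Hsm lvlAll (IndMod X Kx) 0)
    (hoff : ∀ q : Nat.Primes, q ∉ S → locA q _ 2 (h.theta lvlAll Kx 0 b) = 0) :
    ∃ x : Hsm (lvlS S) (IndMod X (ESx S)) 2, (∃ e : ℕ, p ^ e • x = 0) ∧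
      brE S X 2 x = h.theta lvlAll Kx 0 b := by
  obtain ⟨a, rfl⟩ := (brL_bijective_zero S X).2 b
  obtain ⟨𝔟, h𝔟⟩ := exists_div_push_eq S u a
    (fun q hq => (locA_theta_eq_zero_iff h q _).1 (hoff q hq))
  have h0 : Hsm.map (IndMod.mapCoeff X (valG S)) 2 (h.theta (lvlS S) (LSx S) 0 a) = 0 := by
    rw [← CyclicCover.theta_mapCoeff (lvlS S) (LSx S) h (valG S) 0 a, ← h𝔟,
      CyclicCover.theta_push]
  obtain ⟨x, hx, hxa⟩ := exists_map_incEL_eq S hpS X (h.theta (lvlS S) (LSx S) 0 a)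
    ⟨k, CyclicCover.nsmul_theta (lvlS S) (LSx S) h 0 a⟩ h0
  refine ⟨x, hx, ?_⟩
  show brL S X 2 (Hsm.map (IndMod.mapCoeff X (incEL S)) 2 x) = _
  rw [hxa, brL_theta]

end Fermat.Agent.S55.Units
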