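/-
S55 / block UNITS, layer B/C: section `T4`: (T4₀) reciprocity and (T4₁) existence for
`H^2_S(μ_F)`, from the statements consumed from LOC and BR.
-/
import Fermat.Agent.S55.Units.ThetaDesc
import Fermat.Agent.S55.Units.Compat
import Fermat.Agent.S55.Units.Needs

set_option autoImplicit false

namespace Fermat.Agent.S55.Units

variable {S : Finset Nat.Primes} {p : ℕ} [Fact p.Prime] (hpS : ExtCitation.pPrime p ∈ S)
  (t : ∀ q : Nat.Primes, Hloc q (Mu p) 2 →+ ZMod p)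

include hpS in
/-- classes of `H^2_S(μ_X)` are locally trivial outside `S` -/
theorem locS_mu_eq_zero (h7 : NeedL7 S) (X : Type) [MulAction GQ X] [Finite X]
    [SmoothSet (lvlS S) X] (q : Nat.Primes) (hq : q ∉ S) (x : Hsm (lvlS S) (IndMod X (Mu p)) 2) :
    locS S _ q 2 x = 0 := by
  have : SmoothSet lvlAll X := smoothSet_all S X
  apply locMK_injective_two X q p (Fact.out : p.Prime).pos
  rw [map_zero, locMK_locS, ← brE_map_incME S X hpS]
  exact h7 q hq X _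

include hpS in
/-- **(T4₀)** -/
theorem T4₀_of (h7 : NeedL7 S) (h3 : NeedB3 S p t) (U : Subgroup GQ) (hU : (lvlS S).IsOpen U)
    (hμ : ActsTrivially U (Mu p)) [Finite (GQ ⧸ U)]
    (x : Hsm (lvlS S) (IndMod (GQ ⧸ U) (Mu p)) 2) :
    ∑ q : ↥S, tU t U q.1 (locS S _ q.1 2 x) = 0 := by
  have : SmoothSet (lvlS S) (GQ ⧸ U) := SmoothSet.quotient _ hU
  have h := h3 U hU hμ inferInstance (inflS S _ 2 x) (fun q hq => by
    rw [locA_inflS]; exact locS_mu_eq_zero hpS h7 _ q hq x)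
  simpa only [locA_inflS] using h

include hpS in
/-- **(T4₁)** -/
theorem T4₁_of (h1 : NeedB1 p) (h4 : NeedB4 S p t) (U : Subgroup GQ) (hU : (lvlS S).IsOpen U)
    (hμ : ActsTrivially U (Mu p)) [Finite (GQ ⧸ U)]
    (y : ∀ q : ↥S, Hloc q.1 (IndMod (GQ ⧸ U) (Mu p)) 2) (hy : ∑ q : ↥S, tU t U q.1 (y q) = 0) :
    ∃ x : Hsm (lvlS S) (IndMod (GQ ⧸ U) (Mu p)) 2, ∀ q : ↥S, locS S _ q.1 2 x = y q := by
  have i1 : SmoothSet (lvlS S) (GQ ⧸ U) := SmoothSet.quotient _ hU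
  have i2 : SmoothSet lvlAll (GQ ⧸ U) := smoothSet_all S _
  obtain ⟨X', _, _, _, _, u, σ, k, h, b, hon, hoff⟩ := h4 U hU hμ inferInstance y hy
  obtain ⟨xE, ⟨e, he⟩, hxE⟩ := theta_descends S hpS h b hoff
  have hUall : lvlAll.IsOpen U := by
    obtain ⟨N, hN, hNU⟩ := hU
    obtain ⟨N', hN', hle⟩ := lvlS_le_lvlAll S N hN
    exact ⟨N', hN', hle.trans hNU⟩
  have hpθ : p • h.theta lvlAll Kx 0 b = 0 := by
    apply h1 U hUall
    · refine ⟨k, ?_⟩
      rw [smul_comm, CyclicCover.nsmul_theta lvlAll Kx h, smul_zero]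
    · intro q
      rw [map_nsmul]
      by_cases hq : q ∈ S
      · rw [hon ⟨q, hq⟩, ← map_nsmul, nsmul_Hloc_mu, map_zero]
      · rw [hoff q hq, smul_zero]
  have hpx : p • xE = 0 := by
    apply brE_eq_zero S hpS (GQ ⧸ U) _ ⟨e, by rw [smul_comm, he, smul_zero]⟩
    rw [map_nsmul, hxE, hpθ]
  have hex := Hsm.exact_map_map (𝓝 := lvlS S)
    (IndMod.shortExact_mapCoeff (GQ ⧸ U) (kummerE hpS)) 2
  obtain ⟨x, hx⟩ := (hex xE).1 (by
    rw [Hsm.map_nsmul' p (fun a => by ext z; rfl) 2 xE]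
    exact hpx)
  refine ⟨x, fun q => ?_⟩
  apply locMK_injective_two (GQ ⧸ U) q.1 p (Fact.out : p.Prime).pos
  rw [locMK_locS, ← brE_map_incME S _ hpS, hx, hxE, hon q]

end Fermat.Agent.S55.Units
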