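/-
S55 / block UNITS, layer D, section `U4`: `U4Pkg S L (GQ ⧸ U)` from `BrPkg`, and the final fields
`T4₀`, `T4₁` of `ArithInput`.
-/
import Fermat.Agent.S55.Units.AdaptBr
import Fermat.Agent.S55.Units.T4

set_option autoImplicit false

namespace Fermat.Agent.S55.Units

variable {S : Finset Nat.Primes} {p : ℕ} [Fact p.Prime] {L : ∀ q, LocPkg p q}

theorem locE_eq (S : Finset Nat.Primes) (X : Type) [MulAction GQ X] (q : Nat.Primes) (n : ℕ)
    (x : Hsm (lvlS S) (IndMod X (ESx S)) n) :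
    locE S X q n x = locA q _ n (brE S X n x) := by
  induction x using Hsm.induction_on with
  | h z => rfl

/-- **U4** : `0 → H^2_S(E_F)(p) → ⨁_{q ∈ S} H^2_q(K_F)(p) → ℚ/ℤ` is exact. -/
theorem u4Pkg (hpS : ExtCitation.pPrime p ∈ S) (B : BrPkg p L) (U : Subgroup GQ)
    (hU : (lvlS S).IsOpen U) (hμ : ActsTrivially U (Mu p)) [Finite (GQ ⧸ U)] :
    U4Pkg S L (GQ ⧸ U) := by
  have s1 : SmoothSet (lvlS S) (GQ ⧸ U) := SmoothSet.quotient _ hU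
  have s2 : SmoothSet lvlAll (GQ ⧸ U) := smoothSet_all S _
  have hUall : lvlAll.IsOpen U := by
    obtain ⟨N, hN, hle⟩ := hU
    obtain ⟨N', hN', hle'⟩ := lvlS_le_lvlAll S N hN
    exact ⟨N', hN', hle'.trans hle⟩
  have h7 : NeedL7 S := needL7_of_locPkg L S
  have hprim : ∀ x ∈ pPrimary p (Hsm (lvlS S) (IndMod (GQ ⧸ U) (ESx S)) 2),
      brE S (GQ ⧸ U) 2 x ∈ pPrimary p (Hsm lvlAll (IndMod (GQ ⧸ U) Kx) 2) := by
    rintro x ⟨e, he⟩
    exact ⟨e, by rw [← map_nsmul, he, map_zero]⟩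
  refine ⟨fun x hx h0 => ?_, fun x hx => ?_, fun y hy hs => ?_⟩
  · refine brE_eq_zero S hpS (GQ ⧸ U) x hx ?_
    refine B.B1 U hUall _ (hprim x hx) fun q => ?_
    by_cases hq : q ∈ S
    · have := h0 ⟨q, hq⟩
      rw [locE_eq] at this
      exact this
    · exact h7 q hq (GQ ⧸ U) x
  · have h := B.B3 U hUall inferInstance _ (hprim x hx) S (fun q hq => h7 q hq (GQ ⧸ U) x)
    rw [← Finset.sum_coe_sort] at h
    simp only [locE_eq]
    exact h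
  · obtain ⟨X', _, _, _, _, u, σ, k, h, b, hon, hoff⟩ :=
      B.B4 S ⟨ExtCitation.pPrime p, hpS, rfl⟩ U hU hμ inferInstance y hy hs
    obtain ⟨x, hx, hxb⟩ := theta_descends S hpS h b hoff
    refine ⟨x, hx, fun q => ?_⟩
    rw [locE_eq, hxb]
    exact hon q

/-- the field `T4₀` of `ArithInput` -/
theorem T4₀ (hpS : ExtCitation.pPrime p ∈ S) (B : BrPkg p L) :
    ∀ U ∈ (lvlS S).carrier, ActsTrivially U (Mu p) → ∀ _ : Finite (GQ ⧸ U),
    ∀ x : Hsm (lvlS S) (IndMod (GQ ⧸ U) (Mu p)) 2,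
      ∑ q : ↥S, tU (fun q => (L q).t) U q.1 (locS S _ q.1 2 x) = 0 := by
  intro U hU hμ _ x
  exact T4₀_of hpS _ (needL7_of_locPkg L S) (needB3_of_brPkg B S) U
    (LevelSys.isOpen_of_mem hU) hμ x

/-- the field `T4₁` of `ArithInput` -/
theorem T4₁ (hpS : ExtCitation.pPrime p ∈ S) (B : BrPkg p L) :
    ∀ U ∈ (lvlS S).carrier, ActsTrivially U (Mu p) → ∀ _ : Finite (GQ ⧸ U),
    ∀ y : (∀ q : ↥S, Hloc q.1 (IndMod (GQ ⧸ U) (Mu p)) 2),
      ∑ q : ↥S, tU (fun q => (L q).t) U q.1 (y q) = 0 →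
      ∃ x : Hsm (lvlS S) (IndMod (GQ ⧸ U) (Mu p)) 2, ∀ q : ↥S, locS S _ q.1 2 x = y q := by
  intro U hU hμ _ y hy
  exact T4₁_of hpS _ (needB1_of_brPkg B) (needB4_of_brPkg B S hpS) U
    (LevelSys.isOpen_of_mem hU) hμ y hy

end Fermat.Agent.S55.Units
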